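import Fermat.Agent.LT.Brg.Pt2
import Fermat.Agent.LT.Op.Alg

set_option autoImplicit false
set_option linter.unusedSectionVars false

/-! # Operators attached to factorizable functions -/

namespace Fermat.Agent.LT.Brg

open MeasureTheory ProbabilityTheory NumberField Matrix Filter
open scoped ENNReal NNReal MatrixGroups InnerProductSpace
open FA Sp Op Glob Loc LocFam

universe w u i

variable {F : Type u} [Field F] [NumberField F] [IsTotallyComplex F] {ι : Type i}
  {L : LocFam.{w} F ι} {U : L.Level}
  [MeasurableSpace (D U)] [DiscreteMeasurableSpace (D U)] [Countable (D U)] [FinPart F (D U)]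
  {w : HF F × D U → ℝ≥0} (hw : IsWt PGL(2, F) (muY F (D U)) w)
  [IsFiniteMeasure (wtM (muY F (D U)) w)]

/-- the operator of a factorizable function -/
noncomputable def opG (φ : GFun U) : HA PGL(2, F) (muY F (D U)) →L[ℂ] HA PGL(2, F) (muY F (D U)) :=
  opD hw φ.toDKer

theorem opG_mul (φ ψ : GFun U) : opG hw (φ * ψ) = opG hw φ * opG hw ψ := by
  rw [opG, opG, opG, GFun.toDKer_mul, opD_mul]

theorem opG_one : opG hw (1 : GFun U) = 1 := by
  rw [opG, GFun.toDKer_one, opD_one]

theorem opG_comm {φ ψ : GFun U} (h : Commute φ ψ) : Commute (opG hw φ) (opG hw ψ) := by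
  show opG hw φ * opG hw ψ = opG hw ψ * opG hw φ
  rw [← opG_mul, ← opG_mul, h.eq]

theorem opG_opA_comm (φ : GFun U) (j : InfinitePlace F) (κ : IKer) :
    Commute (opG hw φ) (opA hw j κ) := (opA_opD_comm hw j κ φ.toDKer).symm

/-- symmetric operators -/
theorem opD_isSymmetric {κ : DKer F (D U)} (h : κ.adj = κ) :
    ((opD hw κ : HA PGL(2, F) (muY F (D U)) →L[ℂ] HA PGL(2, F) (muY F (D U))) :
      HA PGL(2, F) (muY F (D U)) →ₗ[ℂ] HA PGL(2, F) (muY F (D U))).IsSymmetric := by
  intro x y
  have h1 := opD_adj hw κ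
  rw [h] at h1
  show ⟪opD hw κ x, y⟫_ℂ = ⟪x, opD hw κ y⟫_ℂ
  conv_lhs => rw [← h1]
  exact ContinuousLinearMap.adjoint_inner_left _ _ _

theorem opG_apply_mul (φ ψ : GFun U) (x : HA PGL(2, F) (muY F (D U))) :
    opG hw (φ * ψ) x = opG hw φ (opG hw ψ x) := by rw [opG_mul]; rfl

/-- a vector fixed by an idempotent is fixed by its local factors -/
theorem opG_single_of_idem {φ : GFun U} {v : ι} (hi : φ v * φ v = φ v)
    {x : HA PGL(2, F) (muY F (D U))} (hx : opG hw φ x = x) :
    opG hw (GFun.single v (φ v)) x = x := by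
  have h1 : GFun.single v (φ v) * φ = φ := by
    rw [GFun.single_mul, hi, GFun.update_eq_self]
  conv_lhs => rw [← hx]
  rw [← opG_apply_mul, h1, hx]

/-- a vector fixed by the local factors is fixed by their product -/
theorem opG_of_single (S : Finset ι) : ∀ (φ : GFun U), (∀ v ∉ S, φ v = 1) →
    ∀ x : HA PGL(2, F) (muY F (D U)), (∀ v ∈ S, opG hw (GFun.single v (φ v)) x = x) →
      opG hw φ x = x := by
  classical
  induction S using Finset.induction_on with
  | empty =>
    intro φ h x _
    have : φ = 1 := GFun.ext fun v => h v (Finset.notMem_empty v)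
    rw [this, opG_one]
    rfl
  | insert v S hv ih =>
    intro φ h x hx
    have h1 : GFun.single v (φ v) * φ.update v 1 = φ := by
      rw [GFun.single_mul, GFun.update_self, mul_one, GFun.update_update, GFun.update_eq_self]
    have h2 : opG hw (φ.update v 1) x = x := by
      apply ih
      · intro v' hv'
        by_cases hvv : v' = v
        · subst hvv; rw [GFun.update_self]
        · rw [GFun.update_of_ne _ hvv]
          exact h v' (by simp [hvv, hv'])
      · intro v' hv'
        have hvv : v' ≠ v := by rintro rfl; exact hv hv'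
        rw [GFun.update_of_ne _ hvv]
        exact hx v' (Finset.mem_insert_of_mem hv')
    rw [← h1, opG_apply_mul, h2, hx v (Finset.mem_insert_self v S)]

/-- the local factors of an idempotent -/
theorem opG_iff {φ : GFun U} (S : Finset ι) (h1 : ∀ v ∉ S, φ v = 1)
    (hi : ∀ v ∈ S, φ v * φ v = φ v) (x : HA PGL(2, F) (muY F (D U))) :
    opG hw φ x = x ↔ ∀ v ∈ S, opG hw (GFun.single v (φ v)) x = x :=
  ⟨fun h v hv => opG_single_of_idem hw (hi v hv) h, opG_of_single hw S φ h1 x⟩

end Fermat.Agent.LT.Brg
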