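import Fermat.Agent.LT.Brg.Pt1
import Fermat.Agent.LT.Fou.Unique
import Fermat.Agent.LT.Glob.Ker

set_option autoImplicit false
set_option linter.unusedSectionVars false

/-! # Isotypic projectors at one place and equivariance -/

namespace Fermat.Agent.LT.Brg

open MeasureTheory ProbabilityTheory NumberField
open scoped ENNReal NNReal MatrixGroups
open FA Sp Op Glob Loc LocFam
open Fou (IsInv)

section Group

variable {G : Type*} [Group G] {K J : Subgroup G} {ψ : G → ℂ}

/-- `ψ` is a character of `J`, trivial on the subgroup `K` of finite index -/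
structure CharOn (K J : Subgroup G) (ψ : G → ℂ) : Prop where
  le : K ≤ J
  fin : K.relIndex J ≠ 0
  mul : ∀ x ∈ J, ∀ y ∈ J, ψ (x * y) = ψ x * ψ y
  one : ∀ k ∈ K, ψ k = 1

namespace CharOn

theorem ne_zero (h : CharOn K J ψ) {x : G} (hx : x ∈ J) : ψ x ≠ 0 := by
  intro h0
  have h1 := h.mul x hx x⁻¹ (inv_mem hx)
  rw [mul_inv_cancel, h.one 1 K.one_mem, h0, zero_mul] at h1
  exact one_ne_zero h1

theorem inv (h : CharOn K J ψ) {x : G} (hx : x ∈ J) : ψ x⁻¹ = (ψ x)⁻¹ := by
  have h1 := h.mul x hx x⁻¹ (inv_mem hx)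
  rw [mul_inv_cancel, h.one 1 K.one_mem] at h1
  exact eq_inv_of_mul_eq_one_right h1.symm

/-- points of `G ⧸ K` in `J` -/
theorem card_eq (h : CharOn K J ψ) (g : G) :
    {y : G ⧸ K | ∃ j ∈ J, y = ((g * j : G) : G ⧸ K)}.Finite ∧
      {y : G ⧸ K | ∃ j ∈ J, y = ((g * j : G) : G ⧸ K)}.ncard = K.relIndex J := by
  classical
  let e : J ⧸ K.subgroupOf J → G ⧸ K := fun c => Quotient.liftOn' c
    (fun c => ((g * c : G) : G ⧸ K)) (by
      intro a b hab
      rw [QuotientGroup.leftRel_apply] at hab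
      refine QuotientGroup.eq.2 ?_
      rw [_root_.mul_inv_rev, mul_assoc, inv_mul_cancel_left]
      exact hab)
  have he : ∀ j : J, e (j : J ⧸ K.subgroupOf J) = ((g * j : G) : G ⧸ K) := fun j => rfl
  have hinj : Function.Injective e := by
    intro a b hab
    induction a using QuotientGroup.induction_on with
    | H a =>
    induction b using QuotientGroup.induction_on with
    | H b =>
    rw [he, he] at hab
    have h1 := QuotientGroup.eq.1 hab
    rw [_root_.mul_inv_rev, mul_assoc, inv_mul_cancel_left] at h1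
    exact QuotientGroup.eq.2 h1
  have hrange : Set.range e = {y : G ⧸ K | ∃ j ∈ J, y = ((g * j : G) : G ⧸ K)} := by
    ext y
    constructor
    · rintro ⟨c, rfl⟩
      induction c using QuotientGroup.induction_on with
      | H c => exact ⟨c, c.2, rfl⟩
    · rintro ⟨j, hj, rfl⟩
      exact ⟨((⟨j, hj⟩ : J) : J ⧸ K.subgroupOf J), rfl⟩
  have hfi : Finite (J ⧸ K.subgroupOf J) := by
    have : (K.subgroupOf J).FiniteIndex := ⟨h.fin⟩
    infer_instance
  rw [← hrange]
  refine ⟨Set.finite_range e, ?_⟩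
  rw [← Set.image_univ, Set.ncard_image_of_injective _ hinj, Set.ncard_univ]
  rfl

open Classical in
/-- the function `ψ⁻¹ / [J : K]` on `J` -/
noncomputable def eB (h : CharOn K J ψ) : BiInv K where
  f g := if g ∈ J then (ψ g)⁻¹ * ((K.relIndex J : ℕ) : ℂ)⁻¹ else 0
  inv k hk k' hk' y := by
    have hkJ := h.le hk
    have hkJ' := h.le hk'
    have h1 : k * y * k' ∈ J ↔ y ∈ J := by
      rw [J.mul_mem_cancel_right hkJ', J.mul_mem_cancel_left hkJ]
    by_cases hy : y ∈ J
    · rw [if_pos (h1.mpr hy), if_pos hy, h.mul _ (J.mul_mem hkJ hy) _ hkJ', h.mul _ hkJ _ hy,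
        h.one _ hk, h.one _ hk', one_mul, mul_one]
    · rw [if_neg (fun hc => hy (h1.mp hc)), if_neg hy]

theorem eB_of_mem (h : CharOn K J ψ) {g : G} (hg : g ∈ J) :
    h.eB.f g = (ψ g)⁻¹ * ((K.relIndex J : ℕ) : ℂ)⁻¹ := by classical exact if_pos hg

theorem eB_of_notMem (h : CharOn K J ψ) {g : G} (hg : g ∉ J) : h.eB.f g = 0 := by
  classical exact if_neg hg

/-- **the isotypic projector** -/
noncomputable def eH (h : CharOn K J ψ) : Hk K := Hk.ofBi h.eB (by
  refine (h.card_eq 1).1.subset ?_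
  rintro x ⟨g, rfl, hg⟩
  have : g ∈ J := by
    by_contra hcon
    exact hg (h.eB_of_notMem hcon)
  exact ⟨g, this, by rw [one_mul]⟩)

theorem eH_of_mem (h : CharOn K J ψ) {g : G} (hg : g ∈ J) :
    h.eH.f g = (ψ g)⁻¹ * ((K.relIndex J : ℕ) : ℂ)⁻¹ := h.eB_of_mem hg

theorem eH_of_notMem (h : CharOn K J ψ) {g : G} (hg : g ∉ J) : h.eH.f g = 0 :=
  h.eB_of_notMem hg

/-- a Hecke function with these values is the projector -/
theorem eq_eH (h : CharOn K J ψ) {F : Hk K}
    (h1 : ∀ g ∈ J, F.f g = (ψ g)⁻¹ * ((K.relIndex J : ℕ) : ℂ)⁻¹) (h2 : ∀ g ∉ J, F.f g = 0) :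
    F = h.eH := by
  apply Hk.ext_f
  intro g
  by_cases hg : g ∈ J
  · rw [h1 g hg, h.eH_of_mem hg]
  · rw [h2 g hg, h.eH_of_notMem hg]

variable {E : Type*} [AddCommGroup E] [Module ℂ E]

/-- translation of the projector -/
theorem eH_left (h : CharOn K J ψ) {j : G} (hj : j ∈ J) (g : G) :
    h.eH.f (j⁻¹ * g) = ψ j * h.eH.f g := by
  by_cases hg : g ∈ J
  · rw [h.eH_of_mem hg, h.eH_of_mem (J.mul_mem (inv_mem hj) hg), h.mul _ (inv_mem hj) _ hg,
      h.inv hj, mul_inv, inv_inv, mul_assoc]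
  · rw [h.eH_of_notMem hg, h.eH_of_notMem, mul_zero]
    intro hc
    apply hg
    have := J.mul_mem hj hc
    rwa [mul_inv_cancel_left] at this

/-- the projector makes functions equivariant -/
theorem kact_eH_mul (h : CharOn K J ψ) (u : G ⧸ K → E) (g : G) {j : G} (hj : j ∈ J) :
    kact h.eH.ker u ((g * j : G) : G ⧸ K) = ψ j • kact h.eH.ker u (g : G ⧸ K) := by
  classical
  have hfin : ∀ y, h.eH.ker (g : G ⧸ K) y ≠ 0 → y ∈ (h.eH.rowF (g : G ⧸ K)).toFinset := by
    intro y hy
    exact (Set.Finite.mem_toFinset _).mpr hy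
  have hk : ∀ y, h.eH.ker ((g * j : G) : G ⧸ K) y = ψ j * h.eH.ker (g : G ⧸ K) y := by
    intro y
    induction y using QuotientGroup.induction_on with
    | H y =>
    rw [Hk.ker_mk, Hk.ker_mk, ← h.eH_left hj]
    congr 1
    group
  rw [kact_eq_sum (g : G ⧸ K) u hfin, kact_eq_sum ((g * j : G) : G ⧸ K) u
    (s := (h.eH.rowF (g : G ⧸ K)).toFinset) (fun y hy => hfin y (by
      rw [hk] at hy
      exact right_ne_zero_of_mul hy)), Finset.smul_sum]
  refine Finset.sum_congr rfl fun y _ => ?_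
  rw [hk, mul_smul]

/-- equivariant functions are fixed by the projector -/
theorem kact_eH_of_eqv (h : CharOn K J ψ) (u : G ⧸ K → E) (g : G)
    (hu : ∀ j ∈ J, u ((g * j : G) : G ⧸ K) = ψ j • u (g : G ⧸ K)) :
    kact h.eH.ker u (g : G ⧸ K) = u (g : G ⧸ K) := by
  classical
  obtain ⟨hf, hc⟩ := h.card_eq g
  have h0 : ∀ y, h.eH.ker (g : G ⧸ K) y ≠ 0 → y ∈ hf.toFinset := by
    intro y hy
    rw [Set.Finite.mem_toFinset]
    induction y using QuotientGroup.induction_on with
    | H y =>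
    rw [Hk.ker_mk] at hy
    have : g⁻¹ * y ∈ J := by
      by_contra hcon
      exact hy (h.eH_of_notMem hcon)
    exact ⟨_, this, by rw [mul_inv_cancel_left]⟩
  rw [kact_eq_sum (g : G ⧸ K) u h0]
  have h1 : ∀ y ∈ hf.toFinset, h.eH.ker (g : G ⧸ K) y • u y =
      ((K.relIndex J : ℕ) : ℂ)⁻¹ • u (g : G ⧸ K) := by
    intro y hy
    rw [Set.Finite.mem_toFinset] at hy
    obtain ⟨j, hj, rfl⟩ := hy
    rw [Hk.ker_mk, inv_mul_cancel_left, h.eH_of_mem hj, hu j hj, smul_smul]
    congr 1
    have := h.ne_zero hj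
    field_simp
  rw [Finset.sum_congr rfl h1, Finset.sum_const, ← Set.ncard_eq_toFinset_card _ hf, hc,
    ← Nat.cast_smul_eq_nsmul ℂ, smul_smul, mul_inv_cancel₀ (by exact_mod_cast h.fin), one_smul]

/-- **fixed by the projector = equivariant** -/
theorem kact_eH_iff (h : CharOn K J ψ) (u : G ⧸ K → E) : kact h.eH.ker u = u ↔
    ∀ g : G, ∀ j ∈ J, u ((g * j : G) : G ⧸ K) = ψ j • u (g : G ⧸ K) := by
  constructor
  · intro he g j hj
    have := h.kact_eH_mul u g hj
    rwa [he] at this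
  · intro hu
    funext y
    induction y using QuotientGroup.induction_on with
    | H y => exact h.kact_eH_of_eqv u y (hu y)

/-- the projector is idempotent -/
theorem eH_mul_eH (h : CharOn K J ψ) : h.eH * h.eH = h.eH := by
  apply Hk.ext
  rw [Hk.ker_mul]
  funext x z
  have h1 : kact h.eH.ker (fun y => h.eH.ker y z) x = h.eH.ker x z := by
    have h2 := (h.kact_eH_iff (fun y => h.eH.ker y z)).mpr (by
      intro g j hj
      induction z using QuotientGroup.induction_on with
      | H z =>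
      rw [Hk.ker_mk, Hk.ker_mk, smul_eq_mul, ← h.eH_left hj]
      congr 1
      group)
    exact congrFun h2 x
  exact h1

/-- the projector is self adjoint -/
theorem eH_adj (h : CharOn K J ψ) (hK : FinOrb K) (hψ : ∀ j ∈ J, ‖ψ j‖ = 1) :
    h.eH.adj hK = h.eH := by
  apply Hk.adj_eq_self
  intro g
  by_cases hg : g ∈ J
  · have hn : (ψ g)⁻¹ = starRingEnd ℂ (ψ g) := by
      rw [Complex.inv_def, Complex.normSq_eq_norm_sq, hψ g hg]
      simp
    rw [h.eH_of_mem hg, h.eH_of_mem (inv_mem hg), h.inv hg, inv_inv, map_mul, ← hn, map_inv₀,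
      Complex.conj_natCast]
  · rw [h.eH_of_notMem hg, h.eH_of_notMem fun hc => hg (inv_mem_iff.mp hc), map_zero]

end CharOn

end Group

section Place

universe w u i

variable {F : Type u} [Field F] {ι : Type i} {L : LocFam.{w} F ι} {U : L.Level}

open Fou (setv setv_same setv_ne setv_self setv_setv)

theorem setv_eq_update (d : D U) (v : ι) (z : X U v) : setv d v z = d.update v z := by
  apply D.ext
  intro v'
  by_cases h : v' = v
  · subst h; rw [setv_same, D.update_self]
  · rw [setv_ne _ h, D.update_of_ne _ h]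

/-- the function of the coordinate at `v` -/
noncomputable def slc (φ : HF F × D U → ℂ) (v : ι) (p : HF F) (d : D U) : X U v → ℂ :=
  fun z => φ (p, setv d v z)

theorem slc_self (φ : HF F × D U → ℂ) (v : ι) (p : HF F) (d : D U) :
    slc φ v p d (d v) = φ (p, d) := by rw [slc, setv_self]

theorem slc_setv (φ : HF F × D U → ℂ) (v : ι) (p : HF F) (d : D U) (z : X U v) :
    slc φ v p (setv d v z) = slc φ v p d := by
  funext y
  rw [slc, slc, setv_setv]

variable [NumberField F]

theorem finsum_single (φ : HF F × D U → ℂ) (v : ι) (H : Hk (U.U v)) (p : HF F) (d : D U) :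
    ∑ᶠ d', (GFun.single v H).toDKer.κ d d' * φ (p, d') = kact H.ker (slc φ v p d) (d v) := by
  have h := GFun.kact_single v H (fun d' => φ (p, d')) d
  rw [kact] at h
  simp only [smul_eq_mul] at h
  rw [GFun.toDKer_κ, h, kact]
  refine finsum_congr fun z => ?_
  rw [smul_eq_mul, slc, setv_eq_update]

/-- eigenfunctions of operators at one place -/
theorem single_iff (φ : HF F × D U → ℂ) (v : ι) (H : Hk (U.U v)) (c : ℂ) :
    (∀ (p : HF F) (d : D U), ∑ᶠ d', (GFun.single v H).toDKer.κ d d' * φ (p, d') = c * φ (p, d)) ↔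
      ∀ (p : HF F) (d : D U), kact H.ker (slc φ v p d) = c • slc φ v p d := by
  constructor
  · intro h p d
    funext z
    have h1 := h p (setv d v z)
    rw [finsum_single, slc_setv, setv_same] at h1
    rw [h1]
    rfl
  · intro h p d
    rw [finsum_single, h p d, Pi.smul_apply, slc_self, smul_eq_mul]

variable {J : ∀ v, Subgroup (L.G v)} {ψ : ∀ v, L.G v → ℂ}

omit [NumberField F] in
theorem eqvAt_iff (φ : HF F × D U → ℂ) (v : ι) (J : Subgroup (L.G v)) (ψ : L.G v → ℂ) :
    Fou.EqvAt v J ψ φ ↔ ∀ (p : HF F) (d : D U) (g : L.G v), ∀ j ∈ J,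
      slc φ v p d ((g * j : L.G v) : L.G v ⧸ U.U v) = ψ j • slc φ v p d (g : L.G v ⧸ U.U v) := by
  constructor
  · intro h p d g j hj
    have h1 := h p (setv d v (g : L.G v ⧸ U.U v)) g j hj (setv_same _ _ _)
    rw [setv_setv] at h1
    exact h1
  · intro h p d g j hj hg
    have h1 := h p d g j hj
    rw [slc, slc, ← hg, setv_self, smul_eq_mul] at h1
    exact h1

/-- **fixed by the isotypic projector at `v` = equivariant at `v`** -/
theorem eH_iff_eqvAt (φ : HF F × D U → ℂ) {v : ι} {J : Subgroup (L.G v)} {ψ : L.G v → ℂ}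
    (h : CharOn (U.U v) J ψ) :
    (∀ (p : HF F) (d : D U), ∑ᶠ d', (GFun.single v h.eH).toDKer.κ d d' * φ (p, d') = φ (p, d)) ↔
      Fou.EqvAt v J ψ φ := by
  have h1 := single_iff φ v h.eH 1
  simp only [one_mul, one_smul] at h1
  rw [h1, eqvAt_iff]
  exact forall_congr' fun p => forall_congr' fun d => h.kact_eH_iff _

variable [IsTotallyComplex F] [MeasurableSpace (D U)] [DiscreteMeasurableSpace (D U)]
  [Countable (D U)] [FinPart F (D U)] {w : HF F × D U → ℝ≥0}
  {f : HA PGL(2, F) (muY F (D U))} {φ : HF F × D U → ℂ}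

/-- **Fixed vectors of the isotypic projector.** -/
theorem IsRep.eH_iff (hw : IsWt PGL(2, F) (muY F (D U)) w) [IsFiniteMeasure (wtM (muY F (D U)) w)]
    (hf : IsRep f φ) {v : ι} {J : Subgroup (L.G v)} {ψ : L.G v → ℂ} (h : CharOn (U.U v) J ψ) :
    opD hw (GFun.single v h.eH).toDKer f = f ↔ Fou.EqvAt v J ψ φ := by
  rw [hf.T_iff_one hw, eH_iff_eqvAt]

end Place

end Fermat.Agent.LT.Brg
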