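import Fermat.Agent.LT.Brg.Pt2
import Fermat.Agent.LT.Fou.TwistE
import Fermat.Agent.LT.Mp.BadInst
import Fermat.Agent.LT.Ty.Aut
import Fermat.Agent.LT.Ty.FinIdx

set_option autoImplicit false
set_option linter.unusedVariables false
set_option linter.unusedSectionVars false

/-!
# The base functions of the concrete context are idempotent and Galois invariant
-/

namespace Fermat.Agent.LT.Brg

open Matrix Filter Fermat.Agent.LT.Loc Fermat.Agent.LT.Glob NumberField IsDedekindDomain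
open Fermat.Agent.LT.Mp
open scoped MatrixGroups

universe u

section Char

variable {G : Type*} [Group G] {K J : Subgroup G} {ψ : G → ℂ}

theorem CharOn.eB_conv (h : CharOn K J ψ) : h.eB.conv h.eB = h.eB := by
  have h1 := congrArg Hk.toBiInv h.eH_mul_eH
  rw [Hk.toBiInv_mul] at h1
  exact h1

theorem CharOn.eB_fin (h : CharOn K J ψ) : h.eB.Fin := h.eH.fin'

theorem CharOn.eB_apply_of (h : CharOn K J ψ) {a : G → G} (h1 : ∀ x, a x ∈ J ↔ x ∈ J)
    (h2 : ∀ x ∈ J, ψ (a x) = ψ x) (x : G) : h.eB.f (a x) = h.eB.f x := by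
  by_cases hx : x ∈ J
  · rw [h.eB_of_mem hx, h.eB_of_mem ((h1 x).mpr hx), h2 x hx]
  · rw [h.eB_of_notMem hx, h.eB_of_notMem fun hc => hx ((h1 x).mp hc)]

end Char

variable {k E : Type} [Field k] [NumberField k] [Field E] [NumberField E] [Algebra k E]
  [IsTotallyComplex E]
  {σ : E ≃ₐ[k] E}

section Abs

variable (h : Gal3 σ) (b : Bad σ) {v : HeightOneSpectrum (𝓞 k)}

theorem F₀_good (hb : v ∉ b.bad) (h0 : v ≠ b.v0) : (b.X h).F₀ v = BiInv.unit _ :=
  (b.P_isGood h hb h0).F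

theorem F₀_v0 : (b.X h).F₀ b.v0 = BiInv.unit _ := by
  have key : ∀ (P : PDK σ b.v0) (hP : P = iwPD h b.v0_spl), P.F = BiInv.unit _ := by
    rintro _ rfl
    rfl
  exact key _ (b.P_v0 h)

/-- idempotency of the base functions -/
theorem F₀_idem (hF : ∀ v hv, ((b.pd v hv).F).conv (b.pd v hv).F = (b.pd v hv).F)
    (v : HeightOneSpectrum (𝓞 k)) : ((b.X h).F₀ v).conv ((b.X h).F₀ v) = (b.X h).F₀ v := by
  by_cases hb : v ∈ b.bad
  · have key : ∀ (P : PDK σ v) (hP : P = b.pd v hb), P.F.conv P.F = P.F := by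
      rintro _ rfl
      exact hF v hb
    exact key _ (b.P_bad h hb)
  · by_cases h0 : v = b.v0
    · subst h0
      rw [F₀_v0, BiInv.unit_conv]
    · rw [F₀_good h b hb h0, BiInv.unit_conv]

theorem unit_auto (v : HeightOneSpectrum (𝓞 k)) (g : (b.X h).LE.G v) :
    (BiInv.unit ((b.X h).UE.U v)).f ((b.X h).A.g v g) =
      (BiInv.unit ((b.X h).UE.U v)).f g := by
  classical
  have hc : (b.X h).A.IsCubic := by
    exact Fou.isCubic_autoE h
  rw [BiInv.unit_f, BiInv.unit_f]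
  refine if_congr ⟨fun h1 => ?_, fun h1 => (b.X h).pres v g h1⟩ rfl rfl
  have := (b.X h).pres v _ ((b.X h).pres v _ h1)
  rwa [hc.g_g_g] at this

/-- Galois invariance of the base functions -/
theorem F₀_auto (hF : ∀ v hv g, (b.pd v hv).F.f ((autoE σ).g v g) = (b.pd v hv).F.f g)
    (v : HeightOneSpectrum (𝓞 k)) (g : (b.X h).LE.G v) :
    ((b.X h).F₀ v).f ((b.X h).A.g v g) = ((b.X h).F₀ v).f g := by
  by_cases hb : v ∈ b.bad
  · have key : ∀ (P : PDK σ v) (hP : P = b.pd v hb) (g : (locE k E).G v),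
        P.F.f ((autoE σ).g v g) = P.F.f g := by
      rintro _ rfl g
      exact hF v hb g
    exact key _ (b.P_bad h hb) g
  · by_cases h0 : v = b.v0
    · subst h0
      rw [F₀_v0]
      exact unit_auto h b _ g
    · rw [F₀_good h b hb h0]
      exact unit_auto h b _ g

end Abs

section Mk

variable (h : Gal3 σ) {N : ℕ} (hN : N ≠ 0) {n1 n : ℕ}
    (hunr : ∀ v : HeightOneSpectrum (𝓞 k), (N : 𝓞 k) ∉ v.asIdeal → IsUnr σ v)
    {F : ∀ v : HeightOneSpectrum (𝓞 k), (N : 𝓞 k) ∈ v.asIdeal → BiInv (PK (OE E v) (N ^ n1))}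
    (hF : ∀ v hv, (F v hv).Fin) (hm : ∀ v hv, MatchBad σ v N n1 n (F v hv))
    {v0 : HeightOneSpectrum (𝓞 k)} (h0 : (N : 𝓞 k) ∉ v0.asIdeal) (hs : IsSpl σ v0)

/-- idempotency of the base functions of `mkBad` -/
theorem mkBad_F₀_idem (h2 : ∀ v hv, (F v hv).conv (F v hv) = F v hv)
    (v : HeightOneSpectrum (𝓞 k)) :
    (((mkBad hN n1 n hunr F hF hm v0 h0 hs).X h).F₀ v).conv
      (((mkBad hN n1 n hunr F hF hm v0 h0 hs).X h).F₀ v) =
      ((mkBad hN n1 n hunr F hF hm v0 h0 hs).X h).F₀ v :=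
  F₀_idem h (mkBad hN n1 n hunr F hF hm v0 h0 hs) (fun v hv => h2 v ((mem_plN hN).1 hv)) v

/-- Galois invariance of the base functions of `mkBad` -/
theorem mkBad_F₀_auto (h2 : ∀ v hv g, (F v hv).f ((autoE σ).g v g) = (F v hv).f g)
    (v : HeightOneSpectrum (𝓞 k)) (g : ((mkBad hN n1 n hunr F hF hm v0 h0 hs).X h).LE.G v) :
    (((mkBad hN n1 n hunr F hF hm v0 h0 hs).X h).F₀ v).f
      (((mkBad hN n1 n hunr F hF hm v0 h0 hs).X h).A.g v g) =
      (((mkBad hN n1 n hunr F hF hm v0 h0 hs).X h).F₀ v).f g :=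
  F₀_auto h (mkBad hN n1 n hunr F hF hm v0 h0 hs) (fun v hv => h2 v ((mem_plN hN).1 hv)) v g

end Mk

section Par

variable [IsTotallyComplex k] {P : Ty.Par E} {v : HeightOneSpectrum (𝓞 k)} {m : ℕ}

/-- Galois invariance of the typed idempotents -/
theorem eB_par_auto (σ : E ≃ₐ[k] E)
    (hc : CharOn (PK ((locE k E).O v) (P.N ^ m)) (P.J (locE k E) v) (P.psi (locE k E) v))
    (g : (locE k E).G v) : hc.eB.f ((autoE σ).g v g) = hc.eB.f g :=
  hc.eB_apply_of (a := (autoE σ).g v) (fun x => Ty.Par.g_mem_J_iff (autoE σ))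
    (fun x _ => Ty.Par.psi_g (autoE σ) x) g

end Par

end Fermat.Agent.LT.Brg
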