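import Fermat.Agent.LT.Brg.Pt5

set_option autoImplicit false
set_option linter.unusedSectionVars false

/-! # Point pair invariants are functions of the distance; eigenvalues of all of them -/

namespace Fermat.Agent.LT

open MeasureTheory Matrix ComplexConjugate Topology
open scoped MatrixGroups

namespace H3

/-- points of the axis -/
def ax (Y : ℝ) (hY : 0 < Y) : H3 := ⟨0, Y, hY⟩

theorem cd_j_ax (Y : ℝ) (hY : 0 < Y) : 2 * cd j (ax Y hY) * Y = Y ^ 2 + 1 := by
  have : cd j (ax Y hY) = (Y ^ 2 + 1) / (2 * Y) := by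
    simp [cd, j, ax]
    ring
  rw [this]
  field_simp

/-- **transitivity on spheres** -/
theorem exists_rot (q : H3) {Y : ℝ} (hY : 1 ≤ Y) (hq : 2 * cd j q * Y = Y ^ 2 + 1) :
    ∃ g : GL (Fin 2) ℂ, g • j = j ∧ g • ax Y (one_pos.trans_le hY) = q := by
  have hY0 : 0 < Y := one_pos.trans_le hY
  have hy := q.pos
  have hcd : 2 * cd j q * q.y = ‖q.z‖ ^ 2 + q.y ^ 2 + 1 := by
    have h1 : cd j q = (‖q.z‖ ^ 2 + q.y ^ 2 + 1) / (2 * q.y) := by
      simp [cd, j]
      ring
    rw [h1]
    field_simp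
  have hkey : Y * ‖q.z‖ ^ 2 = (Y - q.y) * (Y * q.y - 1) := by
    have h2 : (2 * cd j q * q.y) * Y = (2 * cd j q * Y) * q.y := by ring
    rw [hcd, hq] at h2
    linear_combination h2
  by_cases hz : q.z = 0
  · -- the axis
    rw [hz, norm_zero] at hkey
    have h3 : (Y - q.y) * (Y * q.y - 1) = 0 := by rw [← hkey]; ring
    rcases mul_eq_zero.mp h3 with h4 | h4
    · refine ⟨1, one_smul _ _, ?_⟩
      rw [one_smul]
      apply H3.ext
      · exact hz.symm
      · exact sub_eq_zero.mp h4
    · have hdet : (!![0, 1; 1, 0] : Matrix (Fin 2) (Fin 2) ℂ).det ≠ 0 := by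
        rw [Matrix.det_fin_two_of]; simp
      set g : GL (Fin 2) ℂ := Matrix.GeneralLinearGroup.mkOfDetNeZero !![0, 1; 1, 0] hdet
      have e1 : g 0 0 = 0 := rfl
      have e2 : g 0 1 = 1 := rfl
      have e3 : g 1 0 = 1 := rfl
      have e4 : g 1 1 = 0 := rfl
      have hyY : q.y = Y⁻¹ := eq_inv_of_mul_eq_one_left (by linear_combination h4)
      refine ⟨g, ?_, ?_⟩
      · apply H3.ext
        · rw [smul_z, e1, e2, e3, e4]
          simp [num, j]
        · rw [smul_y, Matrix.det_fin_two, e1, e2, e3, e4]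
          simp [den, j]
      · apply H3.ext
        · rw [smul_z, e1, e2, e3, e4, hz]
          simp [num, ax]
        · rw [smul_y, Matrix.det_fin_two, e1, e2, e3, e4, hyY]
          simp [den, ax]
          field_simp
  · -- the general case
    have hz2 : 0 < ‖q.z‖ ^ 2 := by positivity
    have hpos : 0 < (Y - q.y) * (Y * q.y - 1) := by rw [← hkey]; positivity
    have hD : 0 < Y * q.y - 1 := by
      rcases pos_and_pos_or_neg_and_neg_of_mul_pos hpos with h | h
      · exact h.2
      · exfalso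
        have h1 : Y < q.y := by linarith [h.1]
        have h2 : Y * q.y < 1 := by linarith [h.2]
        nlinarith
    have hE : 0 < Y - q.y := by
      by_contra hcon
      push Not at hcon
      exact absurd hpos (not_lt.mpr (mul_nonpos_of_nonpos_of_nonneg hcon hD.le))
    set D : ℝ := Y * q.y - 1 with hDdef
    set b : ℂ := -q.z / (D : ℂ) with hb
    have hD' : (D : ℂ) ≠ 0 := by exact_mod_cast hD.ne'
    have hb2 : ‖b‖ ^ 2 = (Y - q.y) / (Y * D) := by
      rw [hb, norm_div, norm_neg, div_pow, Complex.norm_real, Real.norm_of_nonneg hD.le]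
      rw [div_eq_div_iff (by positivity) (by positivity)]
      linear_combination D * hkey
    have hn : (1 : ℂ) + b * conj b ≠ 0 := by
      rw [Complex.mul_conj']
      have : (1 + ‖b‖ ^ 2 : ℝ) ≠ 0 := by positivity
      exact_mod_cast this
    have hdet : (!![1, b; -conj b, 1] : Matrix (Fin 2) (Fin 2) ℂ).det ≠ 0 := by
      rw [Matrix.det_fin_two_of]
      simpa using hn
    set g : GL (Fin 2) ℂ := Matrix.GeneralLinearGroup.mkOfDetNeZero !![1, b; -conj b, 1] hdet
    have e1 : g 0 0 = 1 := rfl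
    have e2 : g 0 1 = b := rfl
    have e3 : g 1 0 = -conj b := rfl
    have e4 : g 1 1 = 1 := rfl
    have hdetn : ‖(g : Matrix (Fin 2) (Fin 2) ℂ).det‖ = 1 + ‖b‖ ^ 2 := by
      rw [Matrix.det_fin_two, e1, e2, e3, e4]
      have : (1 : ℂ) * 1 - b * -conj b = ((1 + ‖b‖ ^ 2 : ℝ) : ℂ) := by
        push_cast
        rw [← Complex.mul_conj']
        ring
      rw [this, Complex.norm_real, Real.norm_of_nonneg (by positivity)]
    have hden : ∀ W : ℝ, ∀ hW : 0 < W, (ax W hW).den (g 1 0) (g 1 1) = 1 + ‖b‖ ^ 2 * W ^ 2 := by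
      intro W hW
      rw [e3, e4]
      simp [den, ax]
    have hnum : ∀ W : ℝ, ∀ hW : 0 < W, (ax W hW).num (g 0 0) (g 0 1) (g 1 0) (g 1 1) =
        b * ((1 - W ^ 2 : ℝ) : ℂ) := by
      intro W hW
      rw [e1, e2, e3, e4]
      simp [num, ax]
      ring
    have hj : j = ax 1 one_pos := rfl
    have hYD : (Y - q.y) / (Y * D) * Y ^ 2 + 1 = (Y ^ 2 - 1) / D := by
      field_simp
      rw [hDdef]
      ring
    refine ⟨g, ?_, ?_⟩
    · rw [hj]
      apply H3.ext
      · rw [smul_z, hnum]
        simp [ax]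
      · rw [smul_y, hden, hdetn]
        have : (0 : ℝ) < 1 + ‖b‖ ^ 2 := by positivity
        simp only [ax]
        field_simp
    · have h1 : (1 : ℝ) + ‖b‖ ^ 2 * Y ^ 2 = (Y ^ 2 - 1) / D := by
        rw [hb2, ← hYD]; ring
      have hYY : 0 < Y ^ 2 - 1 := by
        have h5 : 0 < (Y ^ 2 - 1) / D := by rw [← h1]; positivity
        exact (div_pos_iff_of_pos_right hD).mp h5
      apply H3.ext
      · rw [smul_z, hnum, hden, h1, hb]
        have h6 : ((Y ^ 2 - 1 : ℝ) : ℂ) ≠ 0 := by exact_mod_cast hYY.ne'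
        push_cast at h6 ⊢
        field_simp
        ring
      · rw [smul_y, hden, hdetn, h1, hb2]
        simp only [ax]
        rw [hDdef]
        rw [hDdef] at hD
        field_simp
        ring

/-- the height of a point of the axis at a given distance -/
noncomputable def yt (t : ℝ) : ℝ := max t 1 + √(max t 1 ^ 2 - 1)

theorem one_le_yt (t : ℝ) : 1 ≤ yt t :=
  (le_max_right t 1).trans (le_add_of_nonneg_right (Real.sqrt_nonneg _))

theorem yt_pos (t : ℝ) : 0 < yt t := one_pos.trans_le (one_le_yt t)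

theorem continuous_yt : Continuous yt := by
  unfold yt
  fun_prop

theorem yt_eq {t : ℝ} (ht : 1 ≤ t) : 2 * t * yt t = yt t ^ 2 + 1 := by
  have h1 : yt t = t + √(t ^ 2 - 1) := by rw [yt, max_eq_left ht]
  have h2 : √(t ^ 2 - 1) ^ 2 = t ^ 2 - 1 := Real.sq_sqrt (by nlinarith)
  rw [h1]
  linear_combination -h2

theorem cd_j_ax_yt {t : ℝ} (ht : 1 ≤ t) : cd j (ax (yt t) (yt_pos t)) = t := by
  have h1 := cd_j_ax (yt t) (yt_pos t)
  have h2 := yt_eq ht
  have h3 : 0 < yt t := yt_pos t
  have h4 : (cd j (ax (yt t) (yt_pos t)) - t) * (2 * yt t) = 0 := by linear_combination h1 - h2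
  rcases mul_eq_zero.mp h4 with h5 | h5
  · linarith
  · exfalso; linarith

end H3

namespace IKer

open H3

variable (κ : IKer)

/-- the function of the distance attached to a point pair invariant -/
noncomputable def fn (t : ℝ) : ℝ := max 0 (min 1 (t + 1)) * κ.k j (ax (yt t) (yt_pos t))

theorem continuous_fn : Continuous κ.fn := by
  have h1 : Continuous fun t : ℝ => ax (yt t) (yt_pos t) := by
    refine continuous_mk ?_ ?_
    · exact continuous_const
    · exact continuous_yt
  have h2 : Continuous fun t : ℝ => κ.k j (ax (yt t) (yt_pos t)) := (κ.continuous_right j).comp h1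
  have h3 : Continuous fun t : ℝ => max 0 (min 1 (t + 1)) := by fun_prop
  exact h3.mul h2

theorem fn_of_one_le {t : ℝ} (ht : 1 ≤ t) : κ.fn t = κ.k j (ax (yt t) (yt_pos t)) := by
  rw [fn, min_eq_left (by linarith), max_eq_right zero_le_one, one_mul]

theorem hasCompactSupport_fn : HasCompactSupport κ.fn := by
  refine HasCompactSupport.intro (K := Set.Icc (-1) (max κ.R 1)) isCompact_Icc fun t ht => ?_
  rw [Set.mem_Icc, not_and_or, not_le, not_le] at ht
  rcases ht with ht | ht
  · rw [fn, min_eq_right (by linarith), max_eq_left (by linarith), zero_mul]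
  · have h1 : 1 ≤ t := (le_max_right _ _).trans ht.le
    rw [κ.fn_of_one_le h1]
    refine κ.supp _ _ ?_
    rw [cd_j_ax_yt h1]
    exact (le_max_left _ _).trans_lt ht

/-- **Point pair invariants are functions of the distance.** -/
theorem k_eq_fn (p p' : H3) : κ.k p p' = κ.fn (cd p p') := by
  have h1 : κ.k p p' = κ.k j (rel p p') := κ.k_eq_rel p p'
  have h2 : cd p p' = cd j (rel p p') := by
    rw [rel_eq, ← cd_smul (up p) j, up_smul_j, smul_inv_smul]
  rw [h1, h2]
  generalize rel p p' = q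
  have h3 : 1 ≤ cd j q := one_le_cd _ _
  rw [κ.fn_of_one_le h3]
  obtain ⟨g, hg, hg'⟩ := exists_rot q (one_le_yt (cd j q)) (yt_eq h3)
  conv_lhs => rw [← hg, ← hg']
  exact κ.inv g j _

theorem k_eq_kerOf : κ.k = (kerOf κ.continuous_fn κ.hasCompactSupport_fn).k := by
  funext p p'
  exact κ.k_eq_fn p p'

/-- **the eigenvalue of a point pair invariant on forms of spectral parameter zero** -/
noncomputable def ev : ℝ := ∫ q : H3, κ.k j q * q.y

theorem ev_congr {κ κ' : IKer} (h : κ.k = κ'.k) : κ.ev = κ'.ev := by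
  rw [ev, ev, h]

theorem ev_kerOf {k : ℝ → ℝ} (hk : Continuous k) (hs : HasCompactSupport k) :
    (kerOf hk hs).ev = khat k := by
  have h := khat_mul_y hk hs j
  have hj : (j : H3).y = 1 := rfl
  rw [hj, mul_one] at h
  exact h

theorem ev_eq : κ.ev = khat κ.fn := by
  rw [ev_congr κ.k_eq_kerOf, ev_kerOf]

theorem ev_comp (κ κ' : IKer) : (comp κ κ').ev = κ.ev * κ'.ev := by
  have hf : Continuous fun q : H3 => q.y := continuous_y
  have h1 := comp_op κ κ' hf.locallyIntegrable j
  have h2 : ∀ κ : IKer, ∀ p, κ.op (fun q : H3 => q.y) p = κ.ev * p.y := by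
    intro κ p
    rw [op_def, ev_eq]
    have h := khat_mul_y κ.continuous_fn κ.hasCompactSupport_fn p
    rw [← h]
    refine integral_congr_ae (Filter.Eventually.of_forall fun q => ?_)
    simp only
    rw [κ.k_eq_fn]
  have hj : (j : H3).y = 1 := rfl
  rw [h2, hj, mul_one] at h1
  rw [h1]
  have h3 : κ'.op (fun q : H3 => q.y) = fun p => κ'.ev * p.y := funext (h2 κ')
  rw [h3, op_def]
  have h4 := h2 κ j
  rw [op_def, hj, mul_one] at h4
  rw [← h4, ← integral_mul_const]
  refine integral_congr_ae (Filter.Eventually.of_forall fun q => ?_)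
  simp only [smul_eq_mul]
  ring

end IKer

end Fermat.Agent.LT

namespace Fermat.Agent.LT.Brg

open MeasureTheory ProbabilityTheory NumberField
open scoped ENNReal NNReal MatrixGroups ContDiff
open FA Sp Op
open Fou (IsInv)

variable {F : Type*} [Field F] [NumberField F] [IsTotallyComplex F]
  {D : Type*} [MulAction (GL (Fin 2) F) D] [FinPart F D]
  [MeasurableSpace D] [DiscreteMeasurableSpace D] [Countable D]
  {w : HF F × D → ℝ≥0} (hw : IsWt PGL(2, F) (muY F D) w)
  {f : HA PGL(2, F) (muY F D)} {φ : HF F × D → ℂ}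

theorem opA_congr (j : InfinitePlace F) {κ κ' : IKer} (h : κ.k = κ'.k) :
    opA hw j κ = opA hw j κ' := by
  refine dens_op_congr (densA j κ) (densA j κ') ?_ hw
  funext x y
  rw [kA, kA, h]

theorem opA_eq_kerOf (j : InfinitePlace F) (κ : IKer) :
    opA hw j κ = opA hw j (H3.kerOf κ.continuous_fn κ.hasCompactSupport_fn) :=
  opA_congr hw j κ.k_eq_kerOf

variable [IsFiniteMeasure (wtM (muY F D) w)]

/-- **Automorphic forms are eigenvectors of all point pair invariants.** -/
theorem IsRep.opA_autForm (hf : IsRep f φ) (hφ : Fou.AutForm φ) (j : InfinitePlace F)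
    (κ : IKer) : opA hw j κ f = (κ.ev : ℂ) • f := by
  rw [opA_eq_kerOf, hf.opA_of_autForm hw hφ, κ.ev_eq]

/-- product kernels on automorphic forms -/
theorem IsRep.opK_autForm' (hf : IsRep f φ) (hφ : Fou.AutForm φ)
    (κs : InfinitePlace F → IKer) (κf : DKer F D) :
    opK hw κs κf f = (∏ j, ((κs j).ev : ℂ)) • opD hw κf f :=
  hf.opK_eq hw (fun j => hf.opA_autForm hw hφ j (κs j)) κf

end Fermat.Agent.LT.Brg
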