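import Fermat.Agent.LT.FA.Spectral

set_option autoImplicit false

/-!
# Commuting symmetric operators on an invariant subspace of finite dimension
-/

open scoped InnerProductSpace
open Module.End

namespace Fermat.Agent.LT.Brg

open Fermat.Agent.LT.FA

variable {H : Type*} [NormedAddCommGroup H] [InnerProductSpace ℂ H] {ι : Type*}
  {T : ι → H →L[ℂ] H}

/-- **Induction on joint eigenvectors.** -/
theorem ind_of_finite (hT : IsCommSymm T) (W : Submodule ℂ H) [FiniteDimensional ℂ W]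
    (hinv : ∀ i, ∀ x ∈ W, T i x ∈ W) {P : H → Prop} (h0 : P 0)
    (hadd : ∀ x y, x ∈ W → y ∈ W → P x → P y → P (x + y))
    (he : ∀ x ∈ W, ∀ s : ι → ℝ, x ∈ jointE T s → P x) : ∀ x ∈ W, P x := by
  let T' : ι → W →ₗ[ℂ] W := fun i => (T i : H →ₗ[ℂ] H).restrict (hinv i)
  have hs : ∀ i, (T' i).IsSymmetric := fun i => (hT.symm i).restrict_invariant (hinv i)
  have hc : Pairwise (Function.onFun Commute T') := by
    intro i j _
    refine LinearMap.ext fun x => Subtype.ext ?_
    exact hT.comm i j x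
  have htop := LinearMap.IsSymmetric.iSup_iInf_eq_top_of_commute hs hc
  have key : ∀ x : W, P (x : H) := by
    intro x
    have hx : x ∈ ⨆ χ : ι → ℂ, ⨅ i, eigenspace (T' i) (χ i) := by rw [htop]; trivial
    refine Submodule.iSup_induction (fun χ : ι → ℂ => ⨅ i, eigenspace (T' i) (χ i))
      (motive := fun x : W => P (x : H)) hx ?_ h0 ?_
    · intro χ x hx
      rw [Submodule.mem_iInf] at hx
      have hx1 : ∀ i, T i (x : H) = χ i • (x : H) := fun i => by
        have h := mem_eigenspace_iff.mp (hx i)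
        exact congrArg Subtype.val h
      by_cases hx0 : (x : H) = 0
      · rw [hx0]; exact h0
      refine he x x.2 (fun i => (χ i).re) (mem_jointE.mpr fun i => ?_)
      have hev : HasEigenvalue (T i : H →ₗ[ℂ] H) (χ i) :=
        hasEigenvalue_of_hasEigenvector ⟨mem_eigenspace_iff.mpr (hx1 i), hx0⟩
      have h2 := (hT.symm i).conj_eigenvalue_eq_self hev
      have h3 : ((χ i).re : ℂ) = χ i := Complex.conj_eq_iff_re.mp h2
      rw [h3, hx1]
    · intro x y hx hy
      exact hadd x y x.2 y.2 hx hy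
  exact fun x hx => key ⟨x, hx⟩

/-- eigenvalues of symmetric operators are real -/
theorem eigen_real {A : H →L[ℂ] H} (hA : (A : H →ₗ[ℂ] H).IsSymmetric) {x : H} (hx : x ≠ 0) {c : ℂ}
    (h : A x = c • x) : ((c.re : ℝ) : ℂ) = c := by
  have hev : HasEigenvalue (A : H →ₗ[ℂ] H) c :=
    hasEigenvalue_of_hasEigenvector ⟨mem_eigenspace_iff.mpr h, hx⟩
  exact Complex.conj_eq_iff_re.mp (hA.conj_eigenvalue_eq_self hev)

/-- a finite dimensional space of eigenvectors of a compact operator -/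
theorem finite_of_compact [CompleteSpace H] {A : H →L[ℂ] H} (hA : IsCompactOperator A) {a : ℂ}
    (ha : a ≠ 0) (W : Submodule ℂ H) (hW : ∀ x ∈ W, A x = a • x) : FiniteDimensional ℂ W := by
  have h1 := ContinuousLinearMap.finite_dimensional_eigenspace hA a ha
  exact Submodule.finiteDimensional_of_le (S₂ := eigenspace (A : H →ₗ[ℂ] H) a) fun x hx =>
    mem_eigenspace_iff.mpr (hW x hx)

/-- the subspace of solutions of eigenvalue equations -/
def solE {κ : Type*} (A : κ → H →L[ℂ] H) (c : κ → ℂ) : Submodule ℂ H :=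
  ⨅ i, eigenspace ((A i : H →ₗ[ℂ] H)) (c i)

theorem mem_solE {κ : Type*} {A : κ → H →L[ℂ] H} {c : κ → ℂ} {x : H} :
    x ∈ solE A c ↔ ∀ i, A i x = c i • x := by
  simp [solE, Submodule.mem_iInf]

theorem solE_inv {κ : Type*} {A : κ → H →L[ℂ] H} {c : κ → ℂ} {B : H →L[ℂ] H}
    (hB : ∀ i, Commute B (A i)) : ∀ x ∈ solE A c, B x ∈ solE A c := by
  intro x hx
  rw [mem_solE] at hx ⊢
  intro i
  have h1 : B (A i x) = A i (B x) := congrArg (fun T : H →L[ℂ] H => T x) (hB i).eq
  rw [← h1, hx i, map_smul]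

/-- **Existence of a joint eigenvector** in an eigenspace of a compact operator. -/
theorem exists_joint [CompleteSpace H] {κ : Type*} {A : κ → H →L[ℂ] H} {c : κ → ℂ} {i₀ : κ}
    (hcpt : IsCompactOperator (A i₀)) (hc : c i₀ ≠ 0) (hT : IsCommSymm T)
    (hTA : ∀ i j, Commute (T i) (A j)) {x : H} (hx : ∀ i, A i x = c i • x) (hx0 : x ≠ 0) :
    ∃ y, y ≠ 0 ∧ (∀ i, A i y = c i • y) ∧ ∃ s : ι → ℝ, ∀ i, T i y = (s i : ℂ) • y := by
  have hfin : FiniteDimensional ℂ (solE A c) :=
    finite_of_compact hcpt hc _ fun x hx => mem_solE.mp hx i₀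
  obtain ⟨y, hy, hy0, s, hs⟩ := hT.exists_mem_of_finite (solE A c) (by
    intro h
    have h1 : x ∈ solE A c := mem_solE.mpr hx
    rw [h, Submodule.mem_bot] at h1
    exact hx0 h1) (fun i => solE_inv (hTA i))
  exact ⟨y, hy0, mem_solE.mp hy, s, mem_jointE.mp hs⟩

/-- **Induction on joint eigenvectors** in an eigenspace of a compact operator. -/
theorem ind_joint [CompleteSpace H] {κ : Type*} {A : κ → H →L[ℂ] H} {c : κ → ℂ} {i₀ : κ}
    (hcpt : IsCompactOperator (A i₀)) (hc : c i₀ ≠ 0) (hT : IsCommSymm T)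
    (hTA : ∀ i j, Commute (T i) (A j)) {P : H → Prop} (h0 : P 0)
    (hadd : ∀ x y, P x → P y → P (x + y))
    (he : ∀ x, (∀ i, A i x = c i • x) → ∀ s : ι → ℝ, (∀ i, T i x = (s i : ℂ) • x) → P x)
    {x : H} (hx : ∀ i, A i x = c i • x) : P x := by
  have hfin : FiniteDimensional ℂ (solE A c) :=
    finite_of_compact hcpt hc _ fun x hx => mem_solE.mp hx i₀
  exact ind_of_finite hT (solE A c) (fun i => solE_inv (hTA i)) h0
    (fun x y _ _ => hadd x y) (fun x hx s hs => he x (mem_solE.mp hx) s (mem_jointE.mp hs)) x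
    (mem_solE.mpr hx)

end Fermat.Agent.LT.Brg
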