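import Fermat.Agent.LT.Brg.Pt2
import Fermat.Agent.LT.Glob.TkerG

set_option autoImplicit false
set_option linter.unusedSectionVars false

/-! # Hecke operators at good places: kernels and pointwise equations -/

namespace Fermat.Agent.LT.Brg

open MeasureTheory ProbabilityTheory NumberField Matrix
open scoped ENNReal NNReal MatrixGroups
open FA Sp Op Glob Loc LocFam
open Fou (IsInv HData HeckeAt setv setv_same setv_ne setv_self setv_setv pN pA)

universe w u i

variable {F : Type u} [Field F] {ι : Type i} {L : LocFam.{w} F ι} {U : L.Level}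

/-- `n(s) diag(ϖ, 1)` -/
theorem pN_mul_pA_eq {R : Type*} [CommRing R] (s : R) (ϖ : Rˣ) :
    pN s * pA ϖ = ProjGenLinGroup.mk (tri ϖ 1 s) := by
  rw [pN, pA, ← map_mul, tri_mul]
  congr 2
  · simp
  · simp
  · simp

theorem pA_inv_eq {R : Type*} [CommRing R] (ϖ : Rˣ) :
    pA ϖ⁻¹ = ProjGenLinGroup.mk (tri 1 ϖ (0 : R)) := by
  rw [pA, ← mk_sc_mul ϖ, sc_mul_tri, mul_inv_cancel, mul_one, mul_zero]

theorem rp_some {R : Type*} [CommRing R] (ϖ : Rˣ) (B : Finset R) (b : B) :
    ProjGenLinGroup.mk (rp ϖ B (some b)) = pN (b : R) * pA ϖ := (pN_mul_pA_eq _ _).symm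

theorem rp_none {R : Type*} [CommRing R] (ϖ : Rˣ) (B : Finset R) :
    ProjGenLinGroup.mk (rp ϖ B none) = pA ϖ⁻¹ := (pA_inv_eq _).symm

theorem upd_eq_setv [DecidableEq ι] (d : D U) (v : ι) (z : X U v) :
    Glob.LocFam.upd d v z = setv d v z := by
  apply D.ext
  intro v'
  by_cases h : v' = v
  · subst h; rw [setv_same, Glob.LocFam.upd_self]
  · rw [setv_ne _ h, Glob.LocFam.upd_of_ne _ h]

variable [NumberField F]

/-- **The Hecke eigenvalue equation in terms of the Hecke kernel.** -/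
theorem heckeAt_iff {v : ι} (H : HData L v) (h : Unif (L.O v) H.ϖ H.S)
    (hU : U.U v = PO (L.O v)) (lam : ℂ) (φ : HF F × D U → ℂ) :
    HeckeAt H lam φ ↔
      ∀ (p : HF F) (d : D U), ∑ᶠ d', (Tker h hU).κ d d' * φ (p, d') = lam * φ (p, d) := by
  classical
  have key : ∀ (p : HF F) (d : D U) (g : L.G v), (g : L.G v ⧸ U.U v) = d v →
      ∑ᶠ d', (Tker h hU).κ d d' * φ (p, d') =
        ∑ s ∈ H.S, φ (p, setv d v ((g * (pN s * pA H.ϖ) : L.G v) : L.G v ⧸ U.U v)) +
          φ (p, setv d v ((g * pA H.ϖ⁻¹ : L.G v) : L.G v ⧸ U.U v)) := by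
    intro p d g hg
    rw [finsum_Tker h hU d hg (fun d' => φ (p, d')), Fintype.sum_option, add_comm]
    congr 1
    · rw [← Finset.sum_coe_sort H.S]
      refine Finset.sum_congr rfl fun s _ => ?_
      rw [nbD, upd_eq_setv, rp_some]
    · rw [nbD, upd_eq_setv, rp_none]
  constructor
  · intro hH p d
    obtain ⟨g, hg⟩ := QuotientGroup.mk_surjective (d v)
    rw [key p d g hg]
    exact hH p d g hg.symm
  · intro hH p d g hg
    rw [← key p d g hg.symm]
    exact hH p d

variable [IsTotallyComplex F] [MeasurableSpace (D U)] [DiscreteMeasurableSpace (D U)]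
  [Countable (D U)] [FinPart F (D U)] {w : HF F × D U → ℝ≥0}
  {f : HA PGL(2, F) (muY F (D U))} {φ : HF F × D U → ℂ}

/-- **Hecke eigenvectors and Hecke eigenfunctions.** -/
theorem IsRep.hecke_iff (hw : IsWt PGL(2, F) (muY F (D U)) w)
    [IsFiniteMeasure (wtM (muY F (D U)) w)] (hf : IsRep f φ) {v : ι} (H : HData L v)
    (h : Unif (L.O v) H.ϖ H.S) (hU : U.U v = PO (L.O v)) (lam : ℂ) :
    opD hw (Tker h hU) f = lam • f ↔ HeckeAt H lam φ := by
  rw [hf.T_iff hw, heckeAt_iff H h hU]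

/-- the same with the local Hecke function -/
theorem IsRep.hecke_iff' (hw : IsWt PGL(2, F) (muY F (D U)) w)
    [IsFiniteMeasure (wtM (muY F (D U)) w)] (hf : IsRep f φ) {v : ι} (H : HData L v)
    (h : Unif (L.O v) H.ϖ H.S) (hU : U.U v = PO (L.O v)) (lam : ℂ) :
    opD hw (GFun.single v (TTh h hU)).toDKer f = lam • f ↔ HeckeAt H lam φ := by
  rw [← Tker_eq, hf.hecke_iff hw H h hU]

end Fermat.Agent.LT.Brg
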