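import Fermat.Agent.LT.Brg.Bad
import Fermat.Agent.LT.Brg.Fin
import Fermat.Agent.LT.Brg.Pt3

set_option autoImplicit false
set_option linter.unusedSectionVars false

/-! # The family of Hecke operators at the good places -/

namespace Fermat.Agent.LT.Brg

open MeasureTheory ProbabilityTheory NumberField Matrix Filter
open scoped ENNReal NNReal MatrixGroups InnerProductSpace
open FA Sp Op Glob Loc LocFam

universe w u i

variable {F : Type u} [Field F] [NumberField F] [IsTotallyComplex F] {ι : Type i}
  {L : LocFam.{w} F ι} {U : L.Level}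
  [MeasurableSpace (D U)] [DiscreteMeasurableSpace (D U)] [Countable (D U)] [FinPart F (D U)]
  {w : HF F × D U → ℝ≥0} (hw : IsWt PGL(2, F) (muY F (D U)) w)
  [IsFiniteMeasure (wtM (muY F (D U)) w)]

omit [MeasurableSpace (D U)] [DiscreteMeasurableSpace (D U)] [Countable (D U)] [FinPart F (D U)] in
theorem TTh_adj {v : ι} {ϖ : (L.R v)ˣ} {B : Finset (L.R v)} (h : Unif (L.O v) ϖ B)
    (hU : U.U v = PO (L.O v)) : (TTh h hU).adj (finOrb U v) = TTh h hU := by
  classical
  apply Hk.adj_eq_self
  intro g
  have h1 := Hk.symm_iff.mp (TTh_symm h hU) g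
  rw [h1, TTh_f]
  split_ifs
  · exact map_one _
  · exact map_zero _

/-- symmetric operators from self adjoint local functions -/
theorem opG_single_symm {v : ι} {G : Hk (U.U v)} (hG : G.adj (finOrb U v) = G) :
    ((opG hw (GFun.single v G) : HA PGL(2, F) (muY F (D U)) →L[ℂ] HA PGL(2, F) (muY F (D U))) :
      HA PGL(2, F) (muY F (D U)) →ₗ[ℂ] HA PGL(2, F) (muY F (D U))).IsSymmetric := by
  apply opD_isSymmetric
  rw [← GFun.toDKer_adj, GFun.adj_single, hG]

/-- **The Hecke operators at the good places.** `G` is a family of self adjoint local functions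
which commute at each place. -/
theorem isCommSymm_opG {κ : Type*} (pl : κ → ι) (G : ∀ i, Hk (U.U (pl i)))
    (hG : ∀ i, (G i).adj (finOrb U (pl i)) = G i)
    (hc : ∀ i j, Commute (GFun.single (pl i) (G i)) (GFun.single (pl j) (G j))) :
    IsCommSymm fun i => opG hw (GFun.single (pl i) (G i)) where
  symm i := opG_single_symm hw (hG i)
  comm i j x := by
    have h := opG_comm hw (hc i j)
    exact congrArg (fun T : HA PGL(2, F) (muY F (D U)) →L[ℂ] HA PGL(2, F) (muY F (D U)) => T x) h.eq

omit [MeasurableSpace (D U)] [DiscreteMeasurableSpace (D U)] [Countable (D U)] [FinPart F (D U)]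
  [NumberField F] [IsTotallyComplex F] in
theorem commute_TTh {v v' : ι} {ϖ : (L.R v)ˣ} {B : Finset (L.R v)} (h : Unif (L.O v) ϖ B)
    (hU : U.U v = PO (L.O v)) {ϖ' : (L.R v')ˣ} {B' : Finset (L.R v')} (h' : Unif (L.O v') ϖ' B')
    (hU' : U.U v' = PO (L.O v')) :
    Commute (GFun.single v (TTh h hU)) (GFun.single v' (TTh h' hU')) := by
  by_cases hv : v = v'
  · subst hv
    refine GFun.commute_single ?_
    rw [GFun.single_self]
    exact TTh_commute h h' hU
  · exact GFun.commute_single_single hv _ _

end Fermat.Agent.LT.Brg
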