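import Fermat.Agent.LT.Brg.V0E
import Fermat.Agent.LT.Brg.IK
import Fermat.Agent.LT.Mp.BadInst
import Fermat.Agent.LT.Mp.Fam
import Fermat.Agent.LT.V0.Data
import Fermat.Agent.LT.Spec.Out

set_option autoImplicit false
set_option linter.unusedSectionVars false

/-! # The equations on the `E`-side -/

namespace Fermat.Agent.LT.Brg

open MeasureTheory ProbabilityTheory NumberField Matrix Filter IsDedekindDomain
open scoped ENNReal NNReal MatrixGroups InnerProductSpace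
open Glob
open FA Sp Op Loc LocFam Mp Spec
open Fou (IsInv HData HeckeAt EqvAt AutForm TypeData setv setv_same setv_ne setv_self setv_setv pN pA)

variable {k : Type} [Field k] [NumberField k] {E : Type} [Field E] [NumberField E]
  [Algebra k E] {σ : E ≃ₐ[k] E} (h : LT.Loc.Gal3 σ) (b : Mp.Bad σ)

/-- the functions at the bad places are isotypic projectors -/
structure IsoBad (J : ∀ v, Subgroup ((locE k E).G v)) (ψ : ∀ v, (locE k E).G v → ℂ) : Prop where
  nspl : ∀ v ∈ b.bad, v ∉ (b.X h).spl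
  ch : ∀ v ∈ b.bad, CharOn ((b.X h).UE.U v) (J v) (ψ v)
  F₀ : ∀ v (hv : v ∈ b.bad) g, ((b.X h).F₀ v).f g = (ch v hv).eB.f g

variable {J : ∀ v, Subgroup ((locE k E).G v)} {ψ : ∀ v, (locE k E).G v → ℂ}

theorem PE_one_good {v : HeightOneSpectrum (𝓞 k)} (hv : v ∉ b.bad) :
    Ctx.PE (1 : (b.X h).Sym) v = 1 := by
  apply Hk.ext_f
  intro g
  have key : Ctx.pE (1 : (b.X h).Sym) v = BiInv.unit ((b.X h).UE.U v) := by
    by_cases hs : v ∈ (b.X h).spl
    · rw [Ctx.pE_of_mem _ hs, Ctx.gE_of_unit hs fun j => rfl]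
    · rw [Ctx.pE_of_not_mem _ hs]
      have h0 : v ≠ b.v0 := by
        rintro rfl
        exact hs (b.v0_mem_spl h)
      exact (b.P_isGood h hv h0).F
  have h1 : (Ctx.PE (1 : (b.X h).Sym)).f v = Ctx.pE (1 : (b.X h).Sym) v := Ctx.PE_f _ v
  rw [key, ← Hk.toBiInv_one] at h1
  exact congrFun (congrArg BiInv.f h1) g

theorem PE_one_bad (hI : IsoBad h b J ψ) {v : HeightOneSpectrum (𝓞 k)} (hv : v ∈ b.bad) :
    Ctx.PE (1 : (b.X h).Sym) v = (hI.ch v hv).eH := by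
  apply Hk.ext_f
  intro g
  have h1 : (Ctx.PE (1 : (b.X h).Sym)).f v = Ctx.pE (1 : (b.X h).Sym) v := Ctx.PE_f _ v
  have h2 := congrFun (congrArg BiInv.f h1) g
  rw [Ctx.pE_of_not_mem _ (hI.nspl v hv), hI.F₀ v hv] at h2
  exact h2

/-- nonsplit good places are not varying -/
theorem notMem_spl {v : HeightOneSpectrum (𝓞 k)} (hb : v ∉ b.bad) (h0 : v ≠ b.v0)
    (hs : ¬ IsSpl σ v) : v ∉ (b.X h).spl := by
  have key : ∀ (P : PDK σ v) (hP : P = goodPD h (b.unr v hb)), ¬ P.vary := by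
    rintro _ rfl
    rw [goodPD, dif_neg hs]
    exact id
  exact key _ (b.P_good h hb h0)

/-- the Hecke operator of a place of `E` as a factorizable function -/
noncomputable def gT {v : HeightOneSpectrum (𝓞 k)} (hb : v ∉ b.bad) (h0 : v ≠ b.v0)
    (w : Fib E v) : GFun (b.X h).UE :=
  GFun.single v (TTh (L := locE k E) (U := (b.X h).UE) (unif_OE w) (b.UE_good h hb h0))

theorem commute_gT_ME {v : HeightOneSpectrum (𝓞 k)} (hb : v ∉ b.bad) (h0 : v ≠ b.v0)
    (w : Fib E v) (G : (b.X h).Sym) : Commute (gT h b hb h0 w) (Ctx.ME G) := by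
  by_cases hs : IsSpl σ v
  · obtain ⟨j, rfl⟩ := hs.choose_spec.plc_surjective h w
    have h1 := b.ME_sT' h hb h0 hs j
    have h2 : gT h b hb h0 (hs.choose_spec.plc h j) = Ctx.ME (b.sT h hb h0 hs j) := h1.symm
    rw [h2]
    exact Ctx.ME_comm _ _
  · refine GFun.commute_single ?_
    have h1 : Ctx.ME G v = 1 := by
      apply Hk.toBiInv_injective
      rw [Hk.toBiInv_one]
      show Ctx.mE G v = _
      exact Ctx.mE_of_not_mem _ (notMem_spl h b hb h0 hs)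
    rw [h1]
    exact Commute.one_right _

theorem commute_gT_single {v : HeightOneSpectrum (𝓞 k)} (hb : v ∉ b.bad) (h0 : v ≠ b.v0)
    (w : Fib E v) (H : Hk ((b.X h).UE.U b.v0)) :
    Commute (gT h b hb h0 w) (GFun.single b.v0 H) :=
  GFun.commute_single_single h0 _ _

theorem commute_gT_PE {v : HeightOneSpectrum (𝓞 k)} (hb : v ∉ b.bad) (h0 : v ≠ b.v0)
    (w : Fib E v) : Commute (gT h b hb h0 w) (Ctx.PE (1 : (b.X h).Sym)) := by
  refine GFun.commute_single ?_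
  rw [PE_one_good h b hb]
  exact Commute.one_right _

section Op

variable [IsTotallyComplex E]
  [MeasurableSpace (LocFam.D (b.X h).UE)] [DiscreteMeasurableSpace (LocFam.D (b.X h).UE)]
  [Countable (LocFam.D (b.X h).UE)] {w : HF E × LocFam.D (b.X h).UE → ℝ≥0}
  (hw : IsWt PGL(2, E) (muY E (LocFam.D (b.X h).UE)) w)
  [IsFiniteMeasure (wtM (muY E (LocFam.D (b.X h).UE)) w)]
  {x : HA PGL(2, E) (muY E (LocFam.D (b.X h).UE))} {φ : HF E × LocFam.D (b.X h).UE → ℂ}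

/-- **the projector at the bad places** -/
theorem PE_one_iff (hI : IsoBad h b J ψ) (hx : IsRep x φ) :
    opD hw (Ctx.PE (1 : (b.X h).Sym)).toDKer x = x ↔
      ∀ v ∈ b.bad, EqvAt (L := locE k E) (U := (b.X h).UE) v (J v) (ψ v) φ := by
  have h1 := opG_iff hw (φ := Ctx.PE (1 : (b.X h).Sym)) b.bad (fun v hv => PE_one_good h b hv)
    (fun v hv => by rw [PE_one_bad h b hI hv]; exact (hI.ch v hv).eH_mul_eH) x
  refine h1.trans (forall_congr' fun v => forall_congr' fun hv => ?_)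
  rw [PE_one_bad h b hI hv]
  exact IsRep.eH_iff hw hx (hI.ch v hv)

/-- **the Hecke operators at the good split places** -/
theorem sT_iff (hx : IsRep x φ) {v : HeightOneSpectrum (𝓞 k)} (hb : v ∉ b.bad) (h0 : v ≠ b.v0)
    (hs : IsSpl σ v) (j : Fin 3) (c : ℂ) :
    opD hw (Ctx.ME (b.sT h hb h0 hs j)).toDKer x = c • x ↔
      HeckeAt (L := locE k E) (U := (b.X h).UE) (HE (hs.choose_spec.plc h j)) c φ := by
  rw [b.ME_sT' h hb h0 hs j]
  let i1 : MeasurableSpace (LocFam.D (L := locE k E) (b.X h).UE) :=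
    ‹MeasurableSpace (LocFam.D (b.X h).UE)›
  have i2 : DiscreteMeasurableSpace (LocFam.D (L := locE k E) (b.X h).UE) :=
    ‹DiscreteMeasurableSpace (LocFam.D (b.X h).UE)›
  have i3 : Countable (LocFam.D (L := locE k E) (b.X h).UE) :=
    ‹Countable (LocFam.D (b.X h).UE)›
  have i4 : IsFiniteMeasure (wtM (muY E (LocFam.D (L := locE k E) (b.X h).UE)) w) :=
    ‹IsFiniteMeasure (wtM (muY E (LocFam.D (b.X h).UE)) w)›
  exact TE_iff (k := k) (U := (b.X h).UE) hw (b.UE_good h hb h0) (hs.choose_spec.plc h j) hx c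

theorem sT_iff_all (hx : IsRep x φ) {v : HeightOneSpectrum (𝓞 k)} (hb : v ∉ b.bad)
    (h0 : v ≠ b.v0) (hs : IsSpl σ v) (c : ℂ) :
    (∀ j, opD hw (Ctx.ME (b.sT h hb h0 hs j)).toDKer x = c • x) ↔
      ∀ w : Fib E v, HeckeAt (L := locE k E) (U := (b.X h).UE) (HE w) c φ := by
  constructor
  · intro H w
    obtain ⟨j, rfl⟩ := hs.choose_spec.plc_surjective h w
    exact (sT_iff h b hw hx hb h0 hs j c).mp (H j)
  · intro H j
    exact (sT_iff h b hw hx hb h0 hs j c).mpr (H _)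

/-- **the projectors at the auxiliary place** -/
theorem gE_iff (hx : IsRep x φ) :
    (∀ j, opD hw (V0.ge (b.v0Data h) j).toDKer x = x) ↔
      EqvAt (L := locE k E) (U := (b.X h).UE) b.v0 (PO ((locE k E).O b.v0)) (fun _ => 1) φ := by
  let i1 : MeasurableSpace (LocFam.D (L := locE k E) (b.X h).UE) :=
    ‹MeasurableSpace (LocFam.D (b.X h).UE)›
  have i2 : DiscreteMeasurableSpace (LocFam.D (L := locE k E) (b.X h).UE) :=
    ‹DiscreteMeasurableSpace (LocFam.D (b.X h).UE)›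
  have i3 : Countable (LocFam.D (L := locE k E) (b.X h).UE) :=
    ‹Countable (LocFam.D (b.X h).UE)›
  have i4 : IsFiniteMeasure (wtM (muY E (LocFam.D (L := locE k E) (b.X h).UE)) w) :=
    ‹IsFiniteMeasure (wtM (muY E (LocFam.D (b.X h).UE)) w)›
  have h1 := kE_iff (k := k) (U := (b.X h).UE) b.v0_spl.choose_spec h
    (b.π_v0 h (b.v0Data h).hv) ((b.X h).split (b.v0Data h).v (b.v0Data h).hv) hw
    ((b.X h).prod (b.v0Data h).v (b.v0Data h).hv) (V0.isIw (b.v0Data h)) hx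
  refine Iff.trans ?_ h1
  constructor
  · intro H l
    obtain ⟨j, rfl⟩ := V0.τ3_surj l
    exact H j
  · intro H j
    exact H (V0.τ3 j)

/-- **the central elements at the auxiliary place** -/
theorem gZ_iff (hx : IsRep x φ)
    (hE : EqvAt (L := locE k E) (U := (b.X h).UE) b.v0 (PO ((locE k E).O b.v0)) (fun _ => 1) φ)
    (c : ℂ) : (∀ j, opD hw (V0.gZ (b.v0Data h) j).toDKer x = c • x) ↔
      ∀ w : Fib E b.v0, HeckeAt (L := locE k E) (U := (b.X h).UE) (HE w) c φ := by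
  let i1 : MeasurableSpace (LocFam.D (L := locE k E) (b.X h).UE) :=
    ‹MeasurableSpace (LocFam.D (b.X h).UE)›
  have i2 : DiscreteMeasurableSpace (LocFam.D (L := locE k E) (b.X h).UE) :=
    ‹DiscreteMeasurableSpace (LocFam.D (b.X h).UE)›
  have i3 : Countable (LocFam.D (L := locE k E) (b.X h).UE) :=
    ‹Countable (LocFam.D (b.X h).UE)›
  have i4 : IsFiniteMeasure (wtM (muY E (LocFam.D (L := locE k E) (b.X h).UE)) w) :=
    ‹IsFiniteMeasure (wtM (muY E (LocFam.D (b.X h).UE)) w)›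
  have h1 := kZ_iff_all (k := k) (U := (b.X h).UE) b.v0_spl.choose_spec h
    (b.π_v0 h (b.v0Data h).hv) ((b.X h).split (b.v0Data h).v (b.v0Data h).hv) hw
    ((b.X h).prod (b.v0Data h).v (b.v0Data h).hv) (V0.isIw (b.v0Data h)) hx hE c
  refine Iff.trans ?_ h1
  constructor
  · intro H l
    obtain ⟨j, rfl⟩ := V0.τ3_surj l
    exact H j
  · intro H j
    exact H (V0.τ3 j)

include hw in
/-- a nonzero form has a nonzero class -/
theorem exists_isRep_ne_zero (hφ : AutForm φ) (hne : ∃ y, φ y ≠ 0) :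
    ∃ x : HA PGL(2, E) (muY E (LocFam.D (b.X h).UE)), IsRep x φ ∧ x ≠ 0 := by
  obtain ⟨x, hx⟩ := exists_isRep hw hφ.toIsInv hφ.bdd
  refine ⟨x, hx, fun h0 => ?_⟩
  obtain ⟨y, hy⟩ := hne
  exact hy ((IsRep.eq_zero_iff hw hx).mp h0 y)

variable {s : HeightOneSpectrum (𝓞 k) → ℂ}

/-- **the class of a form on the `E`-side satisfies all equations** -/
theorem exists_x0 (hI : IsoBad h b J ψ)
    (hφ : FormE (U := (b.X h).UE) b.bad J ψ b.v0 σ s φ) (hne : ∃ y, φ y ≠ 0)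
    (lam : Option (Jsp b) → ℂ) (hl : ∀ p : Jsp b, lam (some p) = s p.v) :
    ∃ x0 : HA PGL(2, E) (muY E (LocFam.D (b.X h).UE)), IsRep x0 φ ∧ x0 ≠ 0 ∧
      (∀ j, j ≠ none → opD hw (Ctx.ME (b.sF h j).1).toDKer x0 = lam j • x0) ∧
      (∀ a : InfinitePlace E × IKer, opA hw a.1 a.2 x0 = (a.2.ev : ℂ) • x0) ∧
      (∀ j, opD hw (V0.gZ (b.v0Data h) j).toDKer x0 = s b.v0 • x0) ∧
      (∀ j, opD hw (V0.ge (b.v0Data h) j).toDKer x0 = x0) ∧
      opD hw (Ctx.PE ((b.v0Data h).u 0)).toDKer x0 = x0 := by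
  obtain ⟨x0, hx, h0⟩ := exists_isRep_ne_zero h b hw hφ.aut hne
  refine ⟨x0, hx, h0, ?_, ?_, ?_, ?_, ?_⟩
  · intro j hj
    cases j with
    | none => exact absurd rfl hj
    | some p =>
      rw [hl p]
      exact (sT_iff_all h b hw hx p.nbad p.ne_v0 p.spl _).mpr
        (hφ.hks p.v p.nbad p.ne_v0 p.spl) p.l
  · intro a
    exact hx.opA_autForm hw hφ.aut a.1 a.2
  · exact (gZ_iff h b hw hx hφ.sph _).mpr hφ.hk0
  · exact (gE_iff h b hw hx).mpr hφ.sph
  · rw [(b.v0Data h).u_zero]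
    exact (PE_one_iff h b hw hI hx).mpr hφ.eqv

/-- **the converse** -/
theorem formE_of_eqs (hI : IsoBad h b J ψ) (hx : IsRep x φ) (hφ : AutForm φ)
    (lam : Option (Jsp b) → ℂ) (hl : ∀ p : Jsp b, lam (some p) = s p.v)
    (h1 : ∀ j, j ≠ none → opD hw (Ctx.ME (b.sF h j).1).toDKer x = lam j • x)
    (h2 : ∀ j, opD hw (V0.gZ (b.v0Data h) j).toDKer x = s b.v0 • x)
    (h3 : ∀ j, opD hw (V0.ge (b.v0Data h) j).toDKer x = x)
    (h4 : opD hw (Ctx.PE ((b.v0Data h).u 0)).toDKer x = x) :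
    FormE (U := (b.X h).UE) b.bad J ψ b.v0 σ s φ := by
  have hsph := (gE_iff h b hw hx).mp h3
  refine ⟨hφ, ?_, hsph, (gZ_iff h b hw hx hsph _).mp h2, ?_⟩
  · rw [(b.v0Data h).u_zero] at h4
    exact (PE_one_iff h b hw hI hx).mp h4
  · intro v hb h0 hs
    refine (sT_iff_all h b hw hx hb h0 hs _).mp fun j => ?_
    have h5 := h1 (some (Jsp.mk' hb h0 hs j)) (by simp)
    rw [hl] at h5
    exact h5

/-- the equations -/
inductive EqI (b : Mp.Bad σ)
  | A : EqI b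
  | fin (p : Jsp b) : EqI b
  | arch (a : InfinitePlace E × IKer) : EqI b
  | Z (j : Fin 3) : EqI b
  | e (j : Fin 3) : EqI b
  | B : EqI b

/-- the operators of the equations -/
noncomputable def eqT (Aop : HA PGL(2, E) (muY E (LocFam.D (b.X h).UE)) →L[ℂ]
      HA PGL(2, E) (muY E (LocFam.D (b.X h).UE))) :
    EqI b → HA PGL(2, E) (muY E (LocFam.D (b.X h).UE)) →L[ℂ]
      HA PGL(2, E) (muY E (LocFam.D (b.X h).UE))
  | .A => Aop
  | .fin p => opD hw (Ctx.ME (b.sJ h p)).toDKer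
  | .arch a => opA hw a.1 a.2
  | .Z j => opD hw (V0.gZ (b.v0Data h) j).toDKer
  | .e j => opD hw (V0.ge (b.v0Data h) j).toDKer
  | .B => opD hw (Ctx.PE (1 : (b.X h).Sym)).toDKer

/-- the eigenvalues of the equations -/
noncomputable def eqC (a : ℂ) (s : HeightOneSpectrum (𝓞 k) → ℂ) : EqI b → ℂ
  | .A => a
  | .fin p => s p.v
  | .arch a => (a.2.ev : ℂ)
  | .Z _ => s b.v0
  | .e _ => 1
  | .B => 1

theorem commute_gT_eqT {v : HeightOneSpectrum (𝓞 k)} (hb : v ∉ b.bad) (h0 : v ≠ b.v0)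
    (w' : Fib E v) {Aop : HA PGL(2, E) (muY E (LocFam.D (b.X h).UE)) →L[ℂ]
      HA PGL(2, E) (muY E (LocFam.D (b.X h).UE))}
    (hA : Commute (opD hw (gT h b hb h0 w').toDKer) Aop) (i : EqI b) :
    Commute (opD hw (gT h b hb h0 w').toDKer) (eqT h b hw Aop i) := by
  cases i with
  | A => exact hA
  | fin p => exact opG_comm hw (commute_gT_ME h b hb h0 w' _)
  | arch a => exact opG_opA_comm hw _ _ _
  | Z j => exact opG_comm hw (commute_gT_single h b hb h0 w' _)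
  | e j => exact opG_comm hw (commute_gT_single h b hb h0 w' _)
  | B => exact opG_comm hw (commute_gT_PE h b hb h0 w')

variable {a0 : Eˣ} {s : HeightOneSpectrum (𝓞 k) → ℂ}

/-- **Uniqueness on the `E`-side.** -/
theorem huniq_E
    (hT : TypeData (locE k E) b.bad a0 J ψ (fun v => Fib E v) (fun _ w => HE w)
      (sphL (L := locE k E) (b.X h).UE b.v0))
    (ha0 : σ (a0 : E) = a0)
    (hJ : ∀ v ∈ b.bad, ∀ j ∈ J v, (autoE σ).g v j ∈ J v)
    (hψ : ∀ v ∈ b.bad, ∀ j ∈ J v, ψ v ((autoE σ).g v j) = ψ v j)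
    (hI : IsoBad h b J ψ)
    {Aop : HA PGL(2, E) (muY E (LocFam.D (b.X h).UE)) →L[ℂ]
      HA PGL(2, E) (muY E (LocFam.D (b.X h).UE))}
    (hcpt : IsCompactOperator Aop) {a : ℂ} (ha : a ≠ 0)
    (hAc : ∀ v (hb : v ∉ b.bad) (h0 : v ≠ b.v0) (w' : Fib E v),
      Commute (opD hw (gT h b hb h0 w').toDKer) Aop)
    (hreg : ∀ y, Aop y = a • y →
      (∀ p : InfinitePlace E × IKer, opA hw p.1 p.2 y = (p.2.ev : ℂ) • y) →
      ∃ φ, AutForm φ ∧ IsRep y φ)
    (lam : Option (Jsp b) → ℂ) (hl : ∀ p : Jsp b, lam (some p) = s p.v)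
    {y : HA PGL(2, E) (muY E (LocFam.D (b.X h).UE))} (hA : Aop y = a • y)
    (h1 : ∀ j, j ≠ none → opD hw (Ctx.ME (b.sF h j).1).toDKer y = lam j • y)
    (h2 : ∀ p : InfinitePlace E × IKer, opA hw p.1 p.2 y = (p.2.ev : ℂ) • y)
    (h3 : ∀ j, opD hw (V0.gZ (b.v0Data h) j).toDKer y = s b.v0 • y)
    (h4 : ∀ j, opD hw (V0.ge (b.v0Data h) j).toDKer y = y)
    (h5 : opD hw (Ctx.PE ((b.v0Data h).u 0)).toDKer y = y) :
    (twD (Auto.twist (b.isCubic h) (b.X h).pres)).op hw y = y := by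
  let i1 : MeasurableSpace (LocFam.D (L := locE k E) (b.X h).UE) :=
    ‹MeasurableSpace (LocFam.D (b.X h).UE)›
  have i2 : DiscreteMeasurableSpace (LocFam.D (L := locE k E) (b.X h).UE) :=
    ‹DiscreteMeasurableSpace (LocFam.D (b.X h).UE)›
  have i3 : Countable (LocFam.D (L := locE k E) (b.X h).UE) :=
    ‹Countable (LocFam.D (b.X h).UE)›
  have i4 : IsFiniteMeasure (wtM (muY E (LocFam.D (L := locE k E) (b.X h).UE)) w) :=
    ‹IsFiniteMeasure (wtM (muY E (LocFam.D (b.X h).UE)) w)›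
  have key := huniq_abs (k := k) (U := (b.X h).UE) (s := s) hw hT h (b.X h).pres ha0 hJ hψ
    (fun v hb h0 => b.UE_good h hb h0) (A := eqT h b hw Aop) (c := eqC b a s) (i₀ := EqI.A)
    hcpt ha (fun v hb h0 w' i => commute_gT_eqT h b hw hb h0 w' (hAc v hb h0 w') i) ?_ (x := y) ?_
  · exact key
  · intro x hx
    obtain ⟨φ, hφ, hr⟩ := hreg x (hx .A) fun p => hx (.arch p)
    refine ⟨φ, formE_of_eqs h b hw hI hr hφ lam hl (fun j hj => ?_) (fun j => hx (.Z j))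
      (fun j => ?_) ?_, hr⟩
    · cases j with
      | none => exact absurd rfl hj
      | some p => rw [hl p]; exact hx (.fin p)
    · have h6 := hx (.e j)
      rwa [show eqC b a s (.e j) = 1 from rfl, one_smul] at h6
    · have h6 := hx .B
      rw [show eqC b a s .B = 1 from rfl, one_smul] at h6
      rw [(b.v0Data h).u_zero]
      exact h6
  · intro i
    cases i with
    | A => exact hA
    | fin p =>
      have h6 := h1 (some p) (by simp)
      rw [hl p] at h6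
      exact h6
    | arch p => exact h2 p
    | Z j => exact h3 j
    | e j => exact (h4 j).trans (one_smul ℂ y).symm
    | B =>
      rw [(b.v0Data h).u_zero] at h5
      exact h5.trans (one_smul ℂ y).symm

/-- uniqueness, for the combinations of symbols -/
theorem huniq_lcO {S₀ : Submonoid (b.X h).Sym}
    (hT : TypeData (locE k E) b.bad a0 J ψ (fun v => Fib E v) (fun _ w => HE w)
      (sphL (L := locE k E) (b.X h).UE b.v0))
    (ha0 : σ (a0 : E) = a0)
    (hJ : ∀ v ∈ b.bad, ∀ j ∈ J v, (autoE σ).g v j ∈ J v)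
    (hψ : ∀ v ∈ b.bad, ∀ j ∈ J v, ψ v ((autoE σ).g v j) = ψ v j)
    (hI : IsoBad h b J ψ) (A : MPt (b.X h) S₀ →₀ ℂ)
    (hbE : ∃ C : ℝ, ∀ x y, ‖perK PGL(2, E) (lk (symE S₀).kO A) x y‖ ≤ C)
    {a : ℂ} (ha : a ≠ 0)
    (hreg : ∀ y, lcO ((symE S₀).O hw) A y = a • y →
      (∀ p : InfinitePlace E × IKer, opA hw p.1 p.2 y = (p.2.ev : ℂ) • y) →
      ∃ φ, AutForm φ ∧ IsRep y φ)
    (lam : Option (Jsp b) → ℂ) (hl : ∀ p : Jsp b, lam (some p) = s p.v)
    {y : HA PGL(2, E) (muY E (LocFam.D (b.X h).UE))}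
    (hA : lcO ((symE S₀).O hw) A y = a • y)
    (h1 : ∀ j, j ≠ none → opD hw (Ctx.ME (b.sF h j).1).toDKer y = lam j • y)
    (h2 : ∀ p : InfinitePlace E × IKer, opA hw p.1 p.2 y = (p.2.ev : ℂ) • y)
    (h3 : ∀ j, opD hw (V0.gZ (b.v0Data h) j).toDKer y = s b.v0 • y)
    (h4 : ∀ j, opD hw (V0.ge (b.v0Data h) j).toDKer y = y)
    (h5 : opD hw (Ctx.PE ((b.v0Data h).u 0)).toDKer y = y) :
    (twD (Auto.twist (b.isCubic h) (b.X h).pres)).op hw y = y :=
  huniq_E h b hw hT ha0 hJ hψ hI (isHS_lcO hw (symE S₀) A hbE).isCompactOperator ha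
    (fun _ hb h0 w' => commute_lcO_supp A fun p _ => opD_opK_comm hw _ _ _
      (GFun.toDKer_comm (commute_gT_ME h b hb h0 w' p.2.1))) hreg lam hl hA h1 h2 h3 h4 h5

end Op

end Fermat.Agent.LT.Brg
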