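import Fermat.Agent.LT.Brg.Lvl
import Fermat.Agent.LT.Fou.Pack
import Fermat.Agent.LT.T4.Main2
import Fermat.Agent.LT.Mp.BadInst

set_option autoImplicit false
set_option linter.unusedSectionVars false
set_option linter.unusedVariables false

/-! # The form over `E` at the level of the trace formula -/

namespace Fermat.Agent.LT.Brg

open MeasureTheory ProbabilityTheory NumberField Matrix Filter IsDedekindDomain
open scoped ENNReal NNReal MatrixGroups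
open FA Sp Op Glob Loc LocFam
open Fou (IsInv HData HeckeAt EqvAt AutForm TypeData setv setv_same setv_ne setv_self setv_setv pN pA)

variable {k : Type} [Field k] [NumberField k] {E : Type} [Field E] [NumberField E]
  [IsTotallyComplex E] [Algebra k E] {U : (locE k E).Level}

/-- conditions on the level: of the type `P` at the places above `N`, maximal at the other places
except `v0` -/
structure LvOK (P : Ty.Par E) (v0 : HeightOneSpectrum (𝓞 k)) (U : (locE k E).Level) : Prop where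
  j_ne : P.j ≠ 0
  v0_good : ((P.N : ℕ) : 𝓞 k) ∉ v0.asIdeal
  good : ∀ v : HeightOneSpectrum (𝓞 k), ((P.N : ℕ) : 𝓞 k) ∉ v.asIdeal → v ≠ v0 →
    U.U v = PO ((locE k E).O v)
  bad : ∀ v : HeightOneSpectrum (𝓞 k), ((P.N : ℕ) : 𝓞 k) ∈ v.asIdeal →
    U.U v ≤ P.J (locE k E) v

/-- **Forms over `E`** of type `P` at the places above `N`, spherical at the other places, with
eigenvalues `lam` -/
structure EForm (P : Ty.Par E) (v0 : HeightOneSpectrum (𝓞 k))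
    (lam : ∀ v : HeightOneSpectrum (𝓞 k), Fib E v → ℂ) (φ : HF E × D U → ℂ) : Prop where
  aut : AutForm φ
  eqv : ∀ v : HeightOneSpectrum (𝓞 k), ((P.N : ℕ) : 𝓞 k) ∈ v.asIdeal →
    EqvAt v (P.J (locE k E) v) (P.psi (locE k E) v) φ
  sph : EqvAt v0 (PO ((locE k E).O v0)) (fun _ => 1) φ
  hecke : ∀ v : HeightOneSpectrum (𝓞 k), ((P.N : ℕ) : 𝓞 k) ∉ v.asIdeal → ∀ w : Fib E v,
    HeckeAt (HE w) (lam v w) φ

variable {P : Ty.Par E} {v0 : HeightOneSpectrum (𝓞 k)}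
  {lam : ∀ v : HeightOneSpectrum (𝓞 k), Fib E v → ℂ} {φ φ' : HF E × D U → ℂ}

theorem Par_pos (P : Ty.Par E) : 0 < P.N := Nat.pos_of_ne_zero P.hN

theorem LvOK.typeData (h : LvOK P v0 U) :
    TypeData (locE k E) (T4.plN k P.N) P.a0 (P.J (locE k E)) (P.psi (locE k E))
      (fun v => Fib E v) (fun _ w => HE w) (sphL U v0) := by
  refine Fou.typeData_E (Par_pos P) h.j_ne (fun v hv => ?_) (fun v hv => ?_)
  · rw [T4.mem_plN (Par_pos P)] at hv
    by_cases h0 : v = v0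
    · subst h0; exact sphL_same U v
    · rw [sphL_ne U h0]
      exact h.good v hv h0
  · rw [T4.mem_plN (Par_pos P)] at hv
    have h0 : v ≠ v0 := by rintro rfl; exact h.v0_good hv
    rw [sphL_ne U h0]
    exact h.bad v hv

theorem a0_fixed (P : Ty.Par E) (σ : E ≃ₐ[k] E) : σ (P.a0 : E) = P.a0 := by
  have h1 := congrArg σ P.a0_mul
  rw [map_mul, map_one, map_pow, map_natCast] at h1
  have h2 : σ (P.a0 : E) * (P.N : E) ^ (3 * P.j) = (P.a0 : E) * (P.N : E) ^ (3 * P.j) := by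
    rw [h1, P.a0_mul]
  exact mul_right_cancel₀ (pow_ne_zero _ P.N_ne) h2

/-- **Galois invariance** -/
theorem EForm.act_eq (h : EForm P v0 lam φ) (hU : LvOK P v0 U) {σ : E ≃ₐ[k] E}
    (hσ : LT.Loc.Gal3 σ) (hP : (autoE σ).Pres U)
    (hlam : ∀ v : HeightOneSpectrum (𝓞 k), ((P.N : ℕ) : 𝓞 k) ∉ v.asIdeal → ∀ w,
      lam v (actF σ w) = lam v w) :
    (fun y => φ ((Auto.twist (Fou.isCubic_autoE hσ) hP).act y)) = φ := by
  have hm : ∀ v : HeightOneSpectrum (𝓞 k), v ∈ T4.plN k P.N ↔ ((P.N : ℕ) : 𝓞 k) ∈ v.asIdeal :=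
    fun v => T4.mem_plN (Par_pos P)
  exact act_eq_iw hU.typeData hσ hP (a0_fixed P σ)
    (fun v _ j hj => (Ty.Par.g_mem_J_iff (autoE σ)).mpr hj)
    (fun v _ j _ => Ty.Par.psi_g (autoE σ) j)
    (fun v hv w => hlam v (fun h => hv ((hm v).mpr h)) w) h.aut
    (fun v hv => h.eqv v ((hm v).mp hv)) h.sph
    (fun v hv w => h.hecke v (fun h => hv ((hm v).mpr h)) w)

/-- **Uniqueness** -/
theorem EForm.exists_smul (h : EForm P v0 lam φ) (h' : EForm P v0 lam φ') (hU : LvOK P v0 U)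
    (h0 : φ ≠ 0) : ∃ c : ℂ, ∀ x, φ' x = c * φ x := by
  have hm : ∀ v : HeightOneSpectrum (𝓞 k), v ∈ T4.plN k P.N ↔ ((P.N : ℕ) : 𝓞 k) ∈ v.asIdeal :=
    fun v => T4.mem_plN (Par_pos P)
  obtain ⟨φ₀, rfl⟩ := exists_pull_sph h.sph
  obtain ⟨φ₀', rfl⟩ := exists_pull_sph h'.sph
  have h00 : φ₀ ≠ 0 := fun e => h0 ((pull_eq_zero_iff _ _).mpr e)
  obtain ⟨c, hc⟩ := AutForm.exists_smul_of_type (lam := lam) hU.typeData
    ((autForm_pull_iff _ _).mp h.aut) ((autForm_pull_iff _ _).mp h'.aut)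
    (fun v hv => (eqvAt_pull_iff _ _ _ _ _).mp (h.eqv v ((hm v).mp hv)))
    (fun v hv => (eqvAt_pull_iff _ _ _ _ _).mp (h'.eqv v ((hm v).mp hv)))
    (fun v hv w => (heckeAt_pull_iff _ _ _ _).mp (h.hecke v (fun h => hv ((hm v).mpr h)) w))
    (fun v hv w => (heckeAt_pull_iff _ _ _ _).mp (h'.hecke v (fun h => hv ((hm v).mpr h)) w)) h00
  exact ⟨c, fun x => hc (x.1, desc _ x.2)⟩

/-- functions are invariant under the level -/
theorem eqvAt_level {F : Type*} [Field F] {ι : Type*} {L : LocFam F ι} {U : L.Level} {v : ι}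
    {K : Subgroup (L.G v)} (hK : K ≤ U.U v) (φ : HF F × D U → ℂ) :
    EqvAt v K (fun _ => 1) φ := by
  intro p d g j hj hg
  have e : ((g * j : L.G v) : L.G v ⧸ U.U v) = d v := by
    rw [hg]
    refine QuotientGroup.eq.2 ?_
    rw [_root_.mul_inv_rev, mul_assoc, inv_mul_cancel, mul_one]
    exact inv_mem (hK hj)
  rw [e, setv_self, one_mul]

section T4

variable {L' : Type} [Field L'] [NumberField L'] [Algebra E L'] {T : T4.T4D E L'}

/-- **The form of T4** -/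
theorem eform_of_T4Out (hPN : P.N = T.N) {φ₀ : HF E × D (sphL U v0) → ℂ}
    (h : T4.T4Out T P (sphL U v0) φ₀)
    (hgen : ∀ v ∉ T4.plN k T.N, ∀ w : Fib E v, ∃ π : Eˣ, T4.IsGen (T4.plN k T.N) (HE w) π)
    (hlam : ∀ v ∉ T4.plN k T.N, ∀ (w : Fib E v) (π : Eˣ), T4.IsGen (T4.plN k T.N) (HE w) π →
      lam v w = ((√((Ideal.absNorm w.1.asIdeal : ℕ) : ℝ) : ℝ) : ℂ) * T.A π) :
    EForm P v0 lam (pull (le_sphL U v0) φ₀) ∧ pull (le_sphL U v0) φ₀ ≠ 0 := by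
  have hm : ∀ v : HeightOneSpectrum (𝓞 k), v ∈ T4.plN k T.N ↔ ((P.N : ℕ) : 𝓞 k) ∈ v.asIdeal := by
    intro v
    rw [hPN]
    exact T4.mem_plN T.hN
  refine ⟨⟨(autForm_pull_iff _ _).mpr h.aut, fun v hv => ?_, ?_, fun v hv w => ?_⟩, fun h0 => ?_⟩
  · exact (eqvAt_pull_iff _ _ _ _ _).mpr (h.eqv v ((hm v).mpr hv))
  · exact (eqvAt_pull_iff _ _ _ _ _).mpr (eqvAt_level (sphL_same U v0).ge _)
  · have hv' : v ∉ T4.plN k T.N := fun h => hv ((hm v).mp h)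
    obtain ⟨π, hπ⟩ := hgen v hv' w
    rw [hlam v hv' w π hπ]
    exact (heckeAt_pull_iff _ _ _ _).mpr (h.hecke v hv' w π hπ)
  · rw [pull_eq_zero_iff] at h0
    exact AutForm.ne_zero_of_cof Fou.pt1 h.aut.toIsInv (h.cof Fou.pt1) h0

end T4

section X

variable {σ : E ≃ₐ[k] E} (h : LT.Loc.Gal3 σ) {n1 n : ℕ}
    (hunr : ∀ v : HeightOneSpectrum (𝓞 k), ((P.N : ℕ) : 𝓞 k) ∉ v.asIdeal → Mp.IsUnr σ v)
    {F : ∀ v : HeightOneSpectrum (𝓞 k), ((P.N : ℕ) : 𝓞 k) ∈ v.asIdeal →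
      BiInv (PK (OE E v) (P.N ^ n1))}
    (hF : ∀ v hv, (F v hv).Fin) (hm : ∀ v hv, Mp.MatchBad σ v P.N n1 n (F v hv))
    (h0 : ((P.N : ℕ) : 𝓞 k) ∉ v0.asIdeal) (hs : Mp.IsSpl σ v0)

/-- the level of the context -/
theorem lvOK_X (hj : P.j ≠ 0) (hn1 : 3 * P.j + P.δ ≤ n1) :
    LvOK P v0 ((Mp.mkBad P.hN n1 n hunr F hF hm v0 h0 hs).X h).UE where
  j_ne := hj
  v0_good := h0
  good v hv hv0 := (Mp.mkBad P.hN n1 n hunr F hF hm v0 h0 hs).UE_good h
    (fun h' => hv ((Mp.mem_plN P.hN).mp h')) hv0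
  bad v hv := by
    rw [Mp.mkBad_UE h P.hN hunr hF hm h0 hs hv]
    exact Ty.Par.PK_le_J hn1


theorem plN_eq (P : Ty.Par E) : Mp.plN k P.hN = T4.plN k P.N := by
  ext v
  rw [Mp.mem_plN, T4.mem_plN (Par_pos P)]

/-- the hypothesis `hT` of the descent -/
theorem typeData_X (hj : P.j ≠ 0) (hn1 : 3 * P.j + P.δ ≤ n1) :
    TypeData (locE k E) (Mp.mkBad P.hN n1 n hunr F hF hm v0 h0 hs).bad P.a0
      (P.J (locE k E)) (P.psi (locE k E)) (fun v => Fib E v) (fun _ w => HE w)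
      (sphL ((Mp.mkBad P.hN n1 n hunr F hF hm v0 h0 hs).X h).UE v0) := by
  have h1 := (lvOK_X h hunr hF hm h0 hs hj hn1).typeData
  rw [← plN_eq] at h1
  exact h1

end X

end Fermat.Agent.LT.Brg
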