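import Fermat.Agent.LT.Brg.EntE
import Fermat.Agent.LT.Brg.PackX
import Fermat.Agent.LT.Ty.FinIdx

set_option autoImplicit false
set_option linter.unusedSectionVars false

/-! # The isotypic data of the concrete context -/

namespace Fermat.Agent.LT.Brg

open MeasureTheory ProbabilityTheory NumberField Matrix Filter IsDedekindDomain
open scoped ENNReal NNReal MatrixGroups InnerProductSpace
open Glob
open FA Sp Op Loc LocFam Mp Spec

variable {k : Type} [Field k] [NumberField k] {E : Type} [Field E] [NumberField E]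
  [Algebra k E] {σ : E ≃ₐ[k] E} (h : LT.Loc.Gal3 σ)

theorem IsoBad.of {b : Mp.Bad σ} {J : ∀ v, Subgroup ((locE k E).G v)}
    {ψ : ∀ v, (locE k E).G v → ℂ}
    (hB : ∀ v ∈ b.bad, ∃ hC : CharOn ((b.X h).UE.U v) (J v) (ψ v),
      ∀ g, ((b.X h).F₀ v).f g = hC.eB.f g)
    (hns : ∀ v ∈ b.bad, v ∉ (b.X h).spl) : IsoBad h b J ψ where
  nspl := hns
  ch v hv := (hB v hv).choose
  F₀ v hv g := (hB v hv).choose_spec g

theorem CharOn.eB_congr {G : Type*} [Group G] {K K' J : Subgroup G} {ψ : G → ℂ} (e : K = K')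
    (hC : CharOn K J ψ) (hC' : CharOn K' J ψ) (g : G) : hC.eB.f g = hC'.eB.f g := by
  subst e
  rfl

variable {P : Ty.Par E} [IsTotallyComplex E] {n1 n : ℕ}
  (hunr : ∀ v : HeightOneSpectrum (𝓞 k), (P.N : 𝓞 k) ∉ v.asIdeal → IsUnr σ v)
  (hδ : P.δ ≤ P.j) (hn1 : 3 * P.j + P.δ ≤ n1)
  (hF : ∀ (v : HeightOneSpectrum (𝓞 k)) (_ : (P.N : 𝓞 k) ∈ v.asIdeal),
    (Ty.Par.charOn (L := locE k E) (v := v) hδ hn1).eB.Fin)
  (hm : ∀ (v : HeightOneSpectrum (𝓞 k)) (_ : (P.N : 𝓞 k) ∈ v.asIdeal), MatchBad σ v P.N n1 n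
    (Ty.Par.charOn (L := locE k E) (v := v) hδ hn1).eB)
  {v0 : HeightOneSpectrum (𝓞 k)} (h0 : (P.N : 𝓞 k) ∉ v0.asIdeal) (hs : IsSpl σ v0)

/-- helper7's `hB` for the concrete data -/
theorem hB_mkBad : ∀ v ∈ (mkBad P.hN n1 n hunr
      (fun v _ => (Ty.Par.charOn (L := locE k E) (v := v) hδ hn1).eB) hF hm v0 h0 hs).bad,
    ∃ hC : CharOn (((mkBad P.hN n1 n hunr
      (fun v _ => (Ty.Par.charOn (L := locE k E) (v := v) hδ hn1).eB) hF hm v0 h0 hs).X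
        h).UE.U v) (P.J (locE k E) v) (P.psi (locE k E) v),
      ∀ g, (((mkBad P.hN n1 n hunr
      (fun v _ => (Ty.Par.charOn (L := locE k E) (v := v) hδ hn1).eB) hF hm v0 h0 hs).X
        h).F₀ v).f g = hC.eB.f g := by
  intro v hv
  have hv' := (mem_mkBad_bad P.hN hunr hF hm h0 hs).mp hv
  have e := mkBad_UE h P.hN hunr hF hm h0 hs hv'
  have hC : CharOn (((mkBad P.hN n1 n hunr
      (fun v _ => (Ty.Par.charOn (L := locE k E) (v := v) hδ hn1).eB) hF hm v0 h0 hs).X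
        h).UE.U v) (P.J (locE k E) v) (P.psi (locE k E) v) := by
    rw [e]
    exact Ty.Par.charOn (L := locE k E) (v := v) hδ hn1
  refine ⟨hC, fun g => ?_⟩
  rw [mkBad_F₀ h P.hN hunr hF hm h0 hs hv' g]
  exact (CharOn.eB_congr e hC _ g).symm

theorem hns_mkBad : ∀ v ∈ (mkBad P.hN n1 n hunr
      (fun v _ => (Ty.Par.charOn (L := locE k E) (v := v) hδ hn1).eB) hF hm v0 h0 hs).bad,
    v ∉ ((mkBad P.hN n1 n hunr
      (fun v _ => (Ty.Par.charOn (L := locE k E) (v := v) hδ hn1).eB) hF hm v0 h0 hs).X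
        h).spl :=
  fun _ hv => mkBad_not_spl h P.hN hunr hF hm h0 hs ((mem_mkBad_bad P.hN hunr hF hm h0 hs).mp hv)

theorem isoBad_mkBad : IsoBad h (mkBad P.hN n1 n hunr
      (fun v _ => (Ty.Par.charOn (L := locE k E) (v := v) hδ hn1).eB) hF hm v0 h0 hs)
      (P.J (locE k E)) (P.psi (locE k E)) :=
  IsoBad.of h (hB_mkBad h hunr hδ hn1 hF hm h0 hs) (hns_mkBad h hunr hδ hn1 hF hm h0 hs)

end Fermat.Agent.LT.Brg
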