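import Fermat.Agent.LT.Brg.OutK
import Fermat.Agent.LT.Brg.Fin
import Fermat.Agent.LT.Brg.IK
import Fermat.Agent.LT.Brg.TG
import Fermat.Agent.LT.Spec.Top
import Fermat.Agent.LT.Mp.Hecke

set_option autoImplicit false
set_option linter.unusedSectionVars false
set_option linter.unusedVariables false

/-!
# The exit on the `k`-side: a vector in the joint eigenspace which is an eigenvector of all Hecke
operators at the good places
-/

open scoped ENNReal NNReal MatrixGroups InnerProductSpace ContDiff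
open MeasureTheory ProbabilityTheory NumberField Matrix IsDedekindDomain WithZero

universe u

namespace Fermat.Agent.LT.Brg

open FA Sp Op Glob Spec
open Fermat.Agent.LT.Mp Fermat.Agent.LT.Loc

section Abs

variable {F : Type*} [Field F] [NumberField F] {D : Type*} [MulAction (GL (Fin 2) F) D]
  [MeasurableSpace D] [DiscreteMeasurableSpace D] [Countable D] [FinPart F D]
  [IsTotallyComplex F] {w : HF F × D → ℝ≥0} [IsFiniteMeasure (wtM (muY F D) w)]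

/-- self adjoint commuting kernels give a commuting family of symmetric operators -/
theorem isCommSymm_opD (hw : IsWt PGL(2, F) (muY F D) w) {P' : Type*} {T : P' → DKer F D}
    (hT : ∀ i, (T i).adj = T i) (hTT : ∀ i j, (T i).comp (T j) = (T j).comp (T i)) :
    IsCommSymm fun i => opD hw (T i) where
  symm i := by
    apply isSymmetric_of_adjoint
    rw [opD_adj, hT]
  comm i j x := congrArg (fun T : HA PGL(2, F) (muY F D) →L[ℂ] HA PGL(2, F) (muY F D) => T x)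
    (opD_comm hw _ _ (hTT i j))

/-- the operators of a further family commute with the family of the comparison -/
theorem opD_famT_comm (hw : IsWt PGL(2, F) (muY F D) w) {MP J P : Type*} (S : FSym F D MP)
    (A : MP →₀ ℂ) (κ : J → DKer F D) (b : P → InfinitePlace F) (c : P → IKer) (T : DKer F D)
    (hTκ : ∀ j, T.comp (κ j) = (κ j).comp T) (hTm : ∀ p, T.comp (S.m p) = (S.m p).comp T)
    (i : Idx J P) : Commute (opD hw T) (famT hw S A κ b c i) := by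
  cases i with
  | A => exact commute_lcO (fun p => opD_opK_comm hw _ _ _ (hTm p)) A
  | fin j => exact opD_comm hw _ _ (hTκ j)
  | arch a => exact (opA_opD_comm hw _ _ _).symm

/-- **a joint eigenvector of a further commuting family** -/
theorem exists_eig_famT (hw : IsWt PGL(2, F) (muY F D) w) {MP J P P' : Type*} (S : FSym F D MP)
    (A : MP →₀ ℂ) (κ : J → DKer F D) (b : P → InfinitePlace F) (c : P → IKer)
    (hbdd : ∃ C : ℝ, ∀ x y, ‖perK PGL(2, F) (lk S.kO A) x y‖ ≤ C)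
    {lam : Idx J P → ℝ} (hlA : lam .A ≠ 0) (hne : jointE (famT hw S A κ b c) lam ≠ ⊥)
    {T : P' → DKer F D} (hT : ∀ i, (T i).adj = T i)
    (hTT : ∀ i j, (T i).comp (T j) = (T j).comp (T i))
    (hTκ : ∀ i j, (T i).comp (κ j) = (κ j).comp (T i))
    (hTm : ∀ i p, (T i).comp (S.m p) = (S.m p).comp (T i)) :
    ∃ y, y ≠ 0 ∧ y ∈ jointE (famT hw S A κ b c) lam ∧
      ∃ s : P' → ℝ, ∀ i, opD hw (T i) y = (s i : ℂ) • y := by
  obtain ⟨x, hx, hx0⟩ := (Submodule.ne_bot_iff _).mp hne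
  have hcpt : IsCompactOperator (famT hw S A κ b c .A) := (isHS_lcO hw S A hbdd).isCompactOperator
  obtain ⟨y, hy0, hy, s, hs⟩ := exists_joint (A := famT hw S A κ b c)
    (c := fun i => ((lam i : ℝ) : ℂ)) (i₀ := .A) hcpt (Complex.ofReal_ne_zero.mpr hlA)
    (isCommSymm_opD hw hT hTT)
    (fun i j => opD_famT_comm hw S A κ b c (T i) (hTκ i) (hTm i) j) (mem_jointE.mp hx) hx0
  exact ⟨y, hy0, mem_jointE.mpr hy, s, hs⟩

end Abs

section Adj

universe w i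

variable {F : Type u} [Field F] [NumberField F] [IsTotallyComplex F] {ι : Type i}
  {L : LocFam.{w} F ι} {U : L.Level}

theorem toDKer_single_TTh_adj {v : ι} {ϖ : (L.R v)ˣ} {B : Finset (L.R v)} (h : Unif (L.O v) ϖ B)
    (hU : U.U v = PO (L.O v)) :
    (LocFam.GFun.single v (LocFam.TTh h hU)).toDKer.adj =
      (LocFam.GFun.single v (LocFam.TTh h hU)).toDKer := by
  rw [← LocFam.GFun.toDKer_adj, LocFam.GFun.adj_single, TTh_adj]

end Adj

section OutL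

/-- `out_K` for a family which is propositionally equal to `locK` -/
theorem out_L {K : Type u} [Field K] [NumberField K] [IsCyclotomicExtension {3} ℚ K]
    [IsTotallyComplex K] {L : LocFam.{u} K (HeightOneSpectrum (𝓞 K))} (hL : locK K = L)
    {U : L.Level} [MeasurableSpace (LocFam.D U)] [DiscreteMeasurableSpace (LocFam.D U)]
    [Countable (LocFam.D U)] {w : HF K × LocFam.D U → ℝ≥0}
    (w0 : InfinitePlace K)
    (hw : IsWt PGL(2, K) (muY K (LocFam.D U)) w)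
    [IsFiniteMeasure (wtM (muY K (LocFam.D U)) w)] {I : Type*} [Fintype I]
    {Φ : I → (InfinitePlace K → ℝ) → ℂ} {κ : I → DKer K (LocFam.D U)}
    (hΦ : ∀ i, ContDiff ℝ ∞ (Φ i))
    (hc : ∀ i, HasCompactSupport (Φ i)) (h0 : Bd.MeanZero K (Bd.autK (Bd.famKer Φ κ)))
    {A : HA PGL(2, K) (muY K (LocFam.D U)) →L[ℂ] HA PGL(2, K) (muY K (LocFam.D U))}
    (hA : KRep A (Bd.famKer Φ κ))
    {a : ℂ} (ha : a ≠ 0) {x : HA PGL(2, K) (muY K (LocFam.D U))} (hx0 : x ≠ 0)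
    (hx : A x = a • x)
    (hR : ∀ (j : InfinitePlace K) (k : ℝ → ℝ) (hk : ContDiff ℝ ∞ k) (hs : HasCompactSupport k),
      (densA j (H3.kerOf hk.continuous hs)).cor.op hw x = (H3.khat k : ℂ) • x)
    {N0 : ℕ} (hN0 : N0 ≠ 0)
    (hU : ∀ v : HeightOneSpectrum (𝓞 K), (N0 : 𝓞 K) ∉ v.asIdeal → U.U v = PO (L.O v))
    (ϖ : ∀ v : HeightOneSpectrum (𝓞 K), (L.R v)ˣ)
    (S : ∀ v : HeightOneSpectrum (𝓞 K), Finset (L.R v))
    (hϖ : ∀ v, Unif (L.O v) (ϖ v) (S v)) (mu : HeightOneSpectrum (𝓞 K) → ℝ)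
    (hT : ∀ (v : HeightOneSpectrum (𝓞 K)) (hv : (N0 : 𝓞 K) ∉ v.asIdeal),
      opD hw (LocFam.GFun.single v (LocFam.TTh (hϖ v) (hU v hv))).toDKer x =
        (((√((v.asIdeal.absNorm : ℕ) : ℝ) : ℝ) : ℂ) * ((mu v : ℝ) : ℂ)) • x) :
    ∃ (N : ℕ) (φ : H3 → ℂ) (a : K → ℂ) (κ : 𝓞 K → ℂ), N0 ∣ N ∧ 3 ∣ N ∧ N ≠ 0 ∧
      RS.KForm w0.embedding N φ a κ (Cls.lamOf mu) (fun t => LT.K0 (4 * Real.pi * t)) ∧
      RS.Bes (fun t => LT.K0 (4 * Real.pi * t)) ∧ φ ≠ 0 ∧ Continuous φ ∧ Th.Harm.Mean φ ∧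
      Cls.HFun w0.embedding N φ (Cls.lamOf mu) := by
  subst hL
  exact out_K w0 hw hΦ hc h0 hA ha hx0 hx hR hN0 hU ϖ S hϖ mu hT

/-- the Hecke equation for a family which is propositionally equal to `locK` -/
theorem hecke_L {K : Type u} [Field K] [NumberField K]
    [IsTotallyComplex K] {L : LocFam.{u} K (HeightOneSpectrum (𝓞 K))}
    {U : L.Level} [MeasurableSpace (LocFam.D U)] [DiscreteMeasurableSpace (LocFam.D U)]
    [Countable (LocFam.D U)] {w : HF K × LocFam.D U → ℝ≥0}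
    (hw : IsWt PGL(2, K) (muY K (LocFam.D U)) w)
    [IsFiniteMeasure (wtM (muY K (LocFam.D U)) w)]
    {x : HA PGL(2, K) (muY K (LocFam.D U))} {φ : HF K × LocFam.D U → ℂ} (hf : IsRep x φ)
    {v : HeightOneSpectrum (𝓞 K)} (H : Fou.HData L v) (hH : Unif (L.O v) H.ϖ H.S)
    (hU : U.U v = PO (L.O v)) {c : ℂ}
    (hT : opD hw (LocFam.GFun.single v (LocFam.TTh hH hU)).toDKer x = c • x) :
    Fou.HeckeAt H c φ :=
  (IsRep.hecke_iff' hw hf H hH hU c).1 hT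

end OutL

section Conc

variable {k E : Type u} [Field k] [NumberField k] [Field E] [NumberField E] [Algebra k E]
  {σ : E ≃ₐ[k] E} (h : Gal3 σ) (b : Bad σ)

/-- the Hecke function at a good place of `k` -/
noncomputable def heckeT {v : HeightOneSpectrum (𝓞 k)} (hb : v ∉ b.bad) (h0 : v ≠ b.v0) :
    LocFam.GFun (b.X h).Uk :=
  LocFam.GFun.single v
    (LocFam.TTh (L := locK (F := k)) (U := (b.X h).Uk) (unifOc_reps v) (b.Uk_good h hb h0))

theorem heckeT_comm {v v' : HeightOneSpectrum (𝓞 k)} (hb : v ∉ b.bad) (h0 : v ≠ b.v0)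
    (hb' : v' ∉ b.bad) (h0' : v' ≠ b.v0) : Commute (heckeT h b hb h0) (heckeT h b hb' h0') :=
  commute_TTh (L := locK (F := k)) (U := (b.X h).Uk) (unifOc_reps v) (b.Uk_good h hb h0)
    (unifOc_reps v') (b.Uk_good h hb' h0')

/-- good places which do not split do not vary -/
theorem not_mem_spl {v : HeightOneSpectrum (𝓞 k)} (hb : v ∉ b.bad) (h0 : v ≠ b.v0)
    (hs : ¬ IsSpl σ v) : v ∉ (b.X h).spl := by
  intro hv
  change (b.P h v).vary at hv
  rw [b.P_good h hb h0, goodPD, dif_neg hs] at hv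
  exact hv

theorem heckeT_eq_MK {v : HeightOneSpectrum (𝓞 k)} (hb : v ∉ b.bad) (h0 : v ≠ b.v0)
    (hs : IsSpl σ v) (j : Fin 3) : heckeT h b hb h0 = Ctx.MK (b.sT h hb h0 hs j) :=
  (b.MK_sT h hb h0 hs j (unifOc_reps v) (valued_unif v)).symm

/-- **the Hecke functions commute with all multipliers** -/
theorem heckeT_comm_MK {v : HeightOneSpectrum (𝓞 k)} (hb : v ∉ b.bad) (h0 : v ≠ b.v0)
    (G : (b.X h).Sym) : Commute (heckeT h b hb h0) (Ctx.MK G) := by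
  by_cases hs : IsSpl σ v
  · rw [heckeT_eq_MK h b hb h0 hs 0]
    exact Ctx.MK_comm _ _
  · refine LocFam.GFun.commute_single ?_
    have h1 : (Ctx.MK G) v = 1 := by
      apply Hk.toBiInv_injective
      rw [Hk.toBiInv_one]
      exact Ctx.mK_of_not_mem G (not_mem_spl h b hb h0 hs)
    rw [h1]
    exact Commute.one_right _

section Out

variable [IsTotallyComplex k] [IsTotallyComplex E]
  [MeasurableSpace (LocFam.D (b.X h).Uk)] [DiscreteMeasurableSpace (LocFam.D (b.X h).Uk)]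
  [Countable (LocFam.D (b.X h).Uk)]
  {wk : HF k × LocFam.D (b.X h).Uk → ℝ≥0}
  [IsFiniteMeasure (wtM (muY k (LocFam.D (b.X h).Uk)) wk)]
  {J P : Type*} {S₀ : Submonoid (b.X h).Sym}

theorem heckeT_adj {v : HeightOneSpectrum (𝓞 k)} (hb : v ∉ b.bad) (h0 : v ≠ b.v0) :
    (heckeT h b hb h0).toDKer.adj = (heckeT h b hb h0).toDKer :=
  toDKer_single_TTh_adj (L := locK (F := k)) (U := (b.X h).Uk) (unifOc_reps v)
    (b.Uk_good h hb h0)

/-- **(B2), first part**: a joint eigenvector of all Hecke operators at the good places of `k` in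
the joint eigenspace of the comparison. -/
theorem exists_eig_TK (pl : Fin 3 → InfinitePlace k → InfinitePlace E)
    (bw : InfinitePlace E → InfinitePlace k)
    (hwk : IsWt PGL(2, k) (muY k (LocFam.D (b.X h).Uk)) wk) (A : MPt (b.X h) S₀ →₀ ℂ)
    (s : J → S₀) (aE : P → InfinitePlace E) (c : P → IKer)
    (hbK : ∃ C : ℝ, ∀ x y, ‖perK PGL(2, k) (lk (symK pl S₀).kO A) x y‖ ≤ C)
    {lam : Idx J P → ℝ} (hlA : lam .A ≠ 0) (hne : jointE (TKf pl bw hwk A s aE c) lam ≠ ⊥) :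
    ∃ y, y ≠ 0 ∧ y ∈ jointE (TKf pl bw hwk A s aE c) lam ∧
      ∃ mu : HeightOneSpectrum (𝓞 k) → ℝ,
        (∀ (v : HeightOneSpectrum (𝓞 k)) (hb : v ∉ b.bad) (h0 : v ≠ b.v0),
          opD hwk (heckeT h b hb h0).toDKer y =
            (((√((v.asIdeal.absNorm : ℕ) : ℝ) : ℝ) : ℂ) * ((mu v : ℝ) : ℂ)) • y) ∧
        ∀ (v : HeightOneSpectrum (𝓞 k)) (hb : v ∉ b.bad) (h0 : v ≠ b.v0) (j : J),
          Ctx.MK (s j).1 = heckeT h b hb h0 →
            lam (.fin j) = √((v.asIdeal.absNorm : ℕ) : ℝ) * mu v := by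
  classical
  obtain ⟨y, hy0, hy, t, ht⟩ := exists_eig_famT hwk (symK pl S₀) A
    (fun j => (Ctx.MK (s j).1).toDKer) (fun a => bw (aE a)) c hbK hlA hne
    (P' := {v : HeightOneSpectrum (𝓞 k) // v ∉ b.bad ∧ v ≠ b.v0})
    (T := fun v => (heckeT h b v.2.1 v.2.2).toDKer) (fun v => heckeT_adj h b v.2.1 v.2.2)
    (fun v v' => LocFam.GFun.toDKer_comm (heckeT_comm h b _ _ _ _))
    (fun v j => LocFam.GFun.toDKer_comm (heckeT_comm_MK h b _ _ _))
    (fun v p => LocFam.GFun.toDKer_comm (heckeT_comm_MK h b _ _ _))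
  have hq : ∀ v : HeightOneSpectrum (𝓞 k), √((v.asIdeal.absNorm : ℕ) : ℝ) ≠ 0 := by
    intro v
    have h1 : v.asIdeal.absNorm ≠ 0 := by
      rw [Ne, Ideal.absNorm_eq_zero_iff]
      exact v.ne_bot
    positivity
  have key : ∀ (v : HeightOneSpectrum (𝓞 k)) (hb : v ∉ b.bad) (h0 : v ≠ b.v0),
      √((v.asIdeal.absNorm : ℕ) : ℝ) * (if hv : v ∉ b.bad ∧ v ≠ b.v0 then
        t ⟨v, hv⟩ / √((v.asIdeal.absNorm : ℕ) : ℝ) else 0) = t ⟨v, hb, h0⟩ := by
    intro v hb h0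
    rw [dif_pos ⟨hb, h0⟩, mul_div_cancel₀ _ (hq v)]
  refine ⟨y, hy0, hy, fun v => if hv : v ∉ b.bad ∧ v ≠ b.v0 then
    t ⟨v, hv⟩ / √((v.asIdeal.absNorm : ℕ) : ℝ) else 0, fun v hb h0 => ?_, fun v hb h0 j hj => ?_⟩
  · rw [← Complex.ofReal_mul, key v hb h0]
    exact ht ⟨v, hb, h0⟩
  · rw [key v hb h0]
    have h1 := mem_jointE.mp hy (.fin j)
    have h2 : famT hwk (symK pl S₀) A (fun j => (Ctx.MK (s j).1).toDKer) (fun a => bw (aE a)) c
        (.fin j) y = ((t ⟨v, hb, h0⟩ : ℝ) : ℂ) • y := by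
      have h3 := ht ⟨v, hb, h0⟩
      show opD hwk (Ctx.MK (s j).1).toDKer y = _
      rw [hj]
      exact h3
    rw [h1] at h2
    exact Complex.ofReal_injective (smul_left_injective ℂ hy0 h2)

omit [MeasurableSpace (LocFam.D (b.X h).Uk)] [DiscreteMeasurableSpace (LocFam.D (b.X h).Uk)]
  [Countable (LocFam.D (b.X h).Uk)] in
theorem exists_bw {pl : Fin 3 → InfinitePlace k → InfinitePlace E}
    (hpl : Function.Injective fun p : Fin 3 × InfinitePlace k => pl p.1 p.2)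
    {bw : InfinitePlace E → InfinitePlace k} (hbw : ∀ a, ∃ j, pl j (bw a) = a)
    (j : InfinitePlace k) : bw (pl 0 j) = j := by
  obtain ⟨i, hi⟩ := hbw (pl 0 j)
  have h1 : ((i, bw (pl 0 j)) : Fin 3 × InfinitePlace k) = (0, j) := hpl hi
  exact congrArg Prod.snd h1

/-- the archimedean equations -/
theorem arch_of_mem {pl : Fin 3 → InfinitePlace k → InfinitePlace E}
    (hpl : Function.Injective fun p : Fin 3 × InfinitePlace k => pl p.1 p.2)
    {bw : InfinitePlace E → InfinitePlace k} (hbw : ∀ a, ∃ j, pl j (bw a) = a)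
    (hwk : IsWt PGL(2, k) (muY k (LocFam.D (b.X h).Uk)) wk) {A : MPt (b.X h) S₀ →₀ ℂ}
    {s : J → S₀} {lam : Idx J (InfinitePlace E × IKer) → ℝ}
    (hla : ∀ (w : InfinitePlace E) (κ : IKer), lam (.arch (w, κ)) = κ.ev)
    {y : HA PGL(2, k) (muY k (LocFam.D (b.X h).Uk))}
    (hy : y ∈ jointE (TKf pl bw hwk A s Prod.fst Prod.snd) lam) (j : InfinitePlace k) (κ : IKer) :
    opA hwk j κ y = ((κ.ev : ℝ) : ℂ) • y := by
  have h1 := mem_jointE.mp hy (.arch (pl 0 j, κ))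
  rw [hla] at h1
  have h2 := exists_bw hpl hbw j
  have h3 : famT hwk (symK pl S₀) A (fun j => (Ctx.MK (s j).1).toDKer)
      (fun a : InfinitePlace E × IKer => bw a.1) Prod.snd (.arch (pl 0 j, κ)) =
      opA hwk (bw (pl 0 j)) κ := rfl
  have h4 := h3.trans (by rw [h2] : opA hwk (bw (pl 0 j)) κ = opA hwk j κ)
  rw [← h4]
  exact h1

/-- **(B2)**: from the joint eigenspace of the comparison to the classical package -/
theorem exit_K [IsCyclotomicExtension {3} ℚ k] (w0 : InfinitePlace k)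
    {pl : Fin 3 → InfinitePlace k → InfinitePlace E}
    (hpl : Function.Injective fun p : Fin 3 × InfinitePlace k => pl p.1 p.2)
    {bw : InfinitePlace E → InfinitePlace k} (hbw : ∀ a, ∃ j, pl j (bw a) = a)
    (hwk : IsWt PGL(2, k) (muY k (LocFam.D (b.X h).Uk)) wk) (A : MPt (b.X h) S₀ →₀ ℂ)
    (s : J → S₀)
    (hbK : ∃ C : ℝ, ∀ x y, ‖perK PGL(2, k) (lk (symK pl S₀).kO A) x y‖ ≤ C)
    {lam : Idx J (InfinitePlace E × IKer) → ℝ} (hlA : lam .A ≠ 0)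
    (hla : ∀ (w : InfinitePlace E) (κ : IKer), lam (.arch (w, κ)) = κ.ev)
    (hne : jointE (TKf pl bw hwk A s Prod.fst Prod.snd) lam ≠ ⊥)
    -- the operator of the exit
    {I : Type*} [Fintype I] {Φ : I → (InfinitePlace k → ℝ) → ℂ}
    {κ : I → DKer k (LocFam.D (b.X h).Uk)}
    (hΦ : ∀ i, ContDiff ℝ ∞ (Φ i)) (hc : ∀ i, HasCompactSupport (Φ i))
    (h0 : Bd.MeanZero k (Bd.autK (Bd.famKer Φ κ)))
    {A' : HA PGL(2, k) (muY k (LocFam.D (b.X h).Uk)) →L[ℂ]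
      HA PGL(2, k) (muY k (LocFam.D (b.X h).Uk))}
    (hA' : KRep A' (Bd.famKer Φ κ)) {a' : ℂ} (ha' : a' ≠ 0)
    (hA'y : ∀ y ∈ jointE (TKf pl bw hwk A s Prod.fst Prod.snd) lam, A' y = a' • y)
    -- the conductor
    {N0 : ℕ} (hN0 : N0 ≠ 0)
    (hNb : ∀ v : HeightOneSpectrum (𝓞 k), v ∈ b.bad ∨ v = b.v0 → (N0 : 𝓞 k) ∈ v.asIdeal) :
    ∃ mu : HeightOneSpectrum (𝓞 k) → ℝ,
      (∀ (v : HeightOneSpectrum (𝓞 k)) (hb : v ∉ b.bad) (h0 : v ≠ b.v0) (j : J),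
        Ctx.MK (s j).1 = heckeT h b hb h0 →
          lam (.fin j) = √((v.asIdeal.absNorm : ℕ) : ℝ) * mu v) ∧
      ∃ (N : ℕ) (φ : H3 → ℂ) (a : k → ℂ) (κ : 𝓞 k → ℂ), N0 ∣ N ∧ 3 ∣ N ∧ N ≠ 0 ∧
        RS.KForm w0.embedding N φ a κ (Cls.lamOf mu) (fun t => LT.K0 (4 * Real.pi * t)) ∧
        RS.Bes (fun t => LT.K0 (4 * Real.pi * t)) ∧ φ ≠ 0 ∧ Continuous φ ∧ Th.Harm.Mean φ ∧
        Cls.HFun w0.embedding N φ (Cls.lamOf mu) := by
  obtain ⟨y, hy0, hy, mu, hT, hmu⟩ := exists_eig_TK h b pl bw hwk A s Prod.fst Prod.snd hbK hlA hne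
  have hg : ∀ v : HeightOneSpectrum (𝓞 k), (N0 : 𝓞 k) ∉ v.asIdeal → v ∉ b.bad ∧ v ≠ b.v0 :=
    fun v hv => ⟨fun hb => hv (hNb v (Or.inl hb)), fun h0 => hv (hNb v (Or.inr h0))⟩
  refine ⟨mu, hmu, ?_⟩
  have hR : ∀ (j : InfinitePlace k) (f : ℝ → ℝ) (hf : ContDiff ℝ ∞ f) (hs : HasCompactSupport f),
      (densA j (H3.kerOf hf.continuous hs)).cor.op hwk y = ((H3.khat f : ℝ) : ℂ) • y := by
    intro j f hf hs
    rw [← IKer.ev_kerOf hf.continuous hs]
    exact arch_of_mem h b hpl hbw hwk hla hy j _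
  exact out_L (L := (b.X h).Lk) rfl w0 hwk hΦ hc h0 hA' ha' hy0 (hA'y y hy) hR hN0
    (fun v hv => b.Uk_good h (hg v hv).1 (hg v hv).2) (fun v => unif v) _
    (fun v => unifOc_reps v) mu fun v hv => hT v (hg v hv).1 (hg v hv).2

/-- **(B2)**, with an automorphic form on the `k`-side -/
theorem exit_form {pl : Fin 3 → InfinitePlace k → InfinitePlace E}
    {bw : InfinitePlace E → InfinitePlace k}
    (hwk : IsWt PGL(2, k) (muY k (LocFam.D (b.X h).Uk)) wk) (A : MPt (b.X h) S₀ →₀ ℂ)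
    (s : J → S₀) (aE : P → InfinitePlace E) (c : P → IKer)
    (hbK : ∃ C : ℝ, ∀ x y, ‖perK PGL(2, k) (lk (symK pl S₀).kO A) x y‖ ≤ C)
    {lam : Idx J P → ℝ} (hlA : lam .A ≠ 0)
    (hne : jointE (TKf pl bw hwk A s aE c) lam ≠ ⊥)
    (hreg : ∀ y ∈ jointE (TKf pl bw hwk A s aE c) lam, y ≠ 0 →
      ∃ φ : HF k × LocFam.D (b.X h).Uk → ℂ, Fou.AutForm φ ∧ IsRep y φ) :
    ∃ (φ : HF k × LocFam.D (b.X h).Uk → ℂ) (mu : HeightOneSpectrum (𝓞 k) → ℝ),
      Fou.AutForm φ ∧ (∃ y, φ y ≠ 0) ∧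
      (∀ v ∉ b.bad, v ≠ b.v0 → Fou.HeckeAt (L := (b.X h).Lk) (HK v)
        ((√((v.asIdeal.absNorm : ℕ) : ℝ) * mu v : ℝ) : ℂ) φ) ∧
      ∀ (v : HeightOneSpectrum (𝓞 k)) (hb : v ∉ b.bad) (h0 : v ≠ b.v0) (j : J),
        Ctx.MK (s j).1 = heckeT h b hb h0 →
          lam (.fin j) = √((v.asIdeal.absNorm : ℕ) : ℝ) * mu v := by
  obtain ⟨y, hy0, hy, mu, hT, hmu⟩ := exists_eig_TK h b pl bw hwk A s aE c hbK hlA hne
  obtain ⟨φ, hφ, hrep⟩ := hreg y hy hy0
  refine ⟨φ, mu, hφ, ?_, fun v hb h0 => ?_, hmu⟩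
  · by_contra hcon
    push Not at hcon
    exact hy0 ((IsRep.eq_zero_iff hwk hrep).2 hcon)
  · have h1 := hT v hb h0
    rw [← Complex.ofReal_mul] at h1
    exact hecke_L (L := (b.X h).Lk) hwk hrep (HK v) (unifOc_reps v) (b.Uk_good h hb h0) h1

/-- regularity from a smooth killing operator -/
theorem reg_of_A {pl : Fin 3 → InfinitePlace k → InfinitePlace E}
    (hpl : Function.Injective fun p : Fin 3 × InfinitePlace k => pl p.1 p.2)
    {bw : InfinitePlace E → InfinitePlace k} (hbw : ∀ a, ∃ j, pl j (bw a) = a)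
    (hwk : IsWt PGL(2, k) (muY k (LocFam.D (b.X h).Uk)) wk) {A : MPt (b.X h) S₀ →₀ ℂ}
    {s : J → S₀} {lam : Idx J (InfinitePlace E × IKer) → ℝ}
    (hla : ∀ (w : InfinitePlace E) (κ : IKer), lam (.arch (w, κ)) = κ.ev)
    {I : Type*} [Fintype I] {Φ : I → (InfinitePlace k → ℝ) → ℂ}
    {κ : I → DKer k (LocFam.D (b.X h).Uk)}
    (hΦ : ∀ i, ContDiff ℝ ∞ (Φ i)) (hc : ∀ i, HasCompactSupport (Φ i))
    (h0 : Bd.MeanZero k (Bd.autK (Bd.famKer Φ κ)))
    {A' : HA PGL(2, k) (muY k (LocFam.D (b.X h).Uk)) →L[ℂ]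
      HA PGL(2, k) (muY k (LocFam.D (b.X h).Uk))}
    (hA' : KRep A' (Bd.famKer Φ κ)) {a' : ℂ} (ha' : a' ≠ 0)
    {y : HA PGL(2, k) (muY k (LocFam.D (b.X h).Uk))}
    (hy : y ∈ jointE (TKf pl bw hwk A s Prod.fst Prod.snd) lam) (hA'y : A' y = a' • y) :
    ∃ φ : HF k × LocFam.D (b.X h).Uk → ℂ, Fou.AutForm φ ∧ IsRep y φ := by
  obtain ⟨φ, hφ, hae⟩ := Reg.exists_autForm_famKer hwk hΦ hc h0 hA' ha' hA'y
    (fun j f hf hs => by
      rw [← IKer.ev_kerOf hf.continuous hs]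
      exact arch_of_mem h b hpl hbw hwk hla hy j _)
  exact ⟨φ, hφ, hφ.toIsInv, hae⟩

end Out

end Conc

end Fermat.Agent.LT.Brg
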