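import Fermat.Agent.LT.Brg.Pt3
import Fermat.Agent.LT.Glob.FibSplit
import Fermat.Agent.LT.Glob.FullK
import Fermat.Agent.LT.Fou.Reg

set_option autoImplicit false
set_option linter.unusedSectionVars false
set_option linter.unusedVariables false

/-!
# Hecke operators at good places: independence of the choices, and the exit on the `k`-side
-/

namespace Fermat.Agent.LT.Glob

open Matrix Filter IsDedekindDomain IsDedekindDomain.HeightOneSpectrum WithZero NumberField
open scoped MatrixGroups Topology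

section Ind

universe w u i

variable {F : Type u} [Field F] {ι : Type i} {L : LocFam.{w} F ι} {U : L.Level} {v : ι}

/-- the Hecke operator depends only on the class of the prime element modulo units -/
theorem LocFam.TTh_congr {ϖ ϖ' : (L.R v)ˣ} {B B' : Finset (L.R v)} (h : Unif (L.O v) ϖ B)
    (h' : Unif (L.O v) ϖ' B') (hu : ϖ * ϖ'⁻¹ ∈ OU (L.O v)) (hU : U.U v = PO (L.O v)) :
    LocFam.TTh h hU = LocFam.TTh h' hU := by
  classical
  apply Hk.ext_f
  intro g
  rw [LocFam.TTh_f, LocFam.TTh_f, HS_congr hu]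

end Ind

section Val

variable {F : Type*} [Field F] [NumberField F] {v : HeightOneSpectrum (𝓞 F)}

/-- in a completion, a prime element in the sense of `Unif` has valuation `exp (-1)` -/
theorem valued_of_unif {ϖ : (v.adicCompletion F)ˣ} {B : Finset (v.adicCompletion F)}
    (h : Unif (Oc v) ϖ B) : Valued.v (ϖ : v.adicCompletion F) = exp (-1 : ℤ) := by
  have h0 : Valued.v (ϖ : v.adicCompletion F) ≠ 0 := (Valuation.ne_zero_iff _).2 ϖ.ne_zero
  have h1 : Valued.v (ϖ : v.adicCompletion F) ≤ 1 := h.mem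
  have h2 : ¬ Valued.v (((ϖ⁻¹ : (v.adicCompletion F)ˣ)) : v.adicCompletion F) ≤ 1 := h.not_mem
  rw [Units.val_inv_eq_inv_val, map_inv₀] at h2
  have hinv : ∀ x : v.adicCompletion F, (((ϖ⁻¹ : (v.adicCompletion F)ˣ)) : v.adicCompletion F) * x ∈
      Oc v ↔ Valued.v x ≤ Valued.v (ϖ : v.adicCompletion F) := by
    intro x
    rw [mem_Oc, Units.val_inv_eq_inv_val, map_mul, map_inv₀, inv_mul_le_iff₀ (zero_lt_iff.2 h0),
      mul_one]
  obtain ⟨n, hn⟩ : ∃ n : ℤ, Valued.v (ϖ : v.adicCompletion F) = exp n :=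
    ⟨log (Valued.v (ϖ : v.adicCompletion F)), (exp_log h0).symm⟩
  rw [hn] at h1 h2 hinv ⊢
  rw [← exp_zero, exp_le_exp] at h1
  rw [← WithZero.exp_neg, ← exp_zero, exp_le_exp] at h2
  have hn1 : n ≤ -1 := by omega
  rcases h.field (unif v : v.adicCompletion F) (unifOc_reps v).mem with h3 | ⟨y, hy, h3⟩
  · rw [hinv, valued_unif, exp_le_exp] at h3
    have : n = -1 := by omega
    rw [this]
  · exfalso
    rw [hinv] at h3
    have h4 : Valued.v ((unif v : v.adicCompletion F) * y) < 1 :=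
      valued_lt_of_eq (v := v) hy rfl
    have h5 : Valued.v ((unif v : v.adicCompletion F) * y - 1) = 1 := by
      rw [Valuation.map_sub_swap]
      have := Valuation.map_one_sub_of_lt (v := (Valued.v : Valuation (v.adicCompletion F) ℤᵐ⁰)) h4
      exact this
    rw [h5, ← exp_zero, exp_le_exp] at h3
    omega

theorem unif_mul_inv_mem {ϖ ϖ' : (v.adicCompletion F)ˣ} {B B' : Finset (v.adicCompletion F)}
    (h : Unif (Oc v) ϖ B) (h' : Unif (Oc v) ϖ' B') : ϖ * ϖ'⁻¹ ∈ OU (Oc v) := by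
  rw [mem_OU_Oc, Units.val_mul, map_mul, Units.val_inv_eq_inv_val, map_inv₀, valued_of_unif h,
    valued_of_unif h']
  exact mul_inv_cancel₀ exp_ne_zero

/-- **the Hecke operator of `locK` at a good place does not depend on any choice** -/
theorem TTh_K_eq {U : (locK F).Level} {ϖ ϖ' : (v.adicCompletion F)ˣ}
    {B B' : Finset (v.adicCompletion F)}
    (h : Unif (Oc v) ϖ B) (h' : Unif (Oc v) ϖ' B') (hU : U.U v = PO ((locK F).O v)) :
    LocFam.TTh (L := locK F) (v := v) h hU = LocFam.TTh (L := locK F) (v := v) h' hU :=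
  LocFam.TTh_congr (L := locK F) (v := v) h h' (unif_mul_inv_mem h h') hU

end Val

section SplitE

universe u

variable {k : Type u} [Field k] [NumberField k] {E : Type u} [Field E] [NumberField E]
  [Algebra k E] {v : HeightOneSpectrum (𝓞 k)}

open LT.Loc

/-- **helper19's operators `T_j` at a split place are the operators of `unifE (plc j)`** -/
theorem TTh_E_eq {σ : E ≃ₐ[k] E} {e : RE E v} (he : IsSplitIdem σ e) (h : Gal3 σ) (j : Fin 3)
    {ϖ : (v.adicCompletion k)ˣ} {B : Finset (v.adicCompletion k)} (hϖ : Unif (Oc v) ϖ B)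
    {U : (locE k E).Level} (hU : U.U v = PO ((locE k E).O v)) :
    LocFam.TTh (L := locE k E) (v := v) ((he.splitRing h).unif_un3 (he.isProdO h) hϖ j) hU =
      LocFam.TTh (L := locE k E) (v := v) (unif_OE (he.plc h j)) hU :=
  LocFam.TTh_congr (L := locE k E) (v := v) _ _ (he.un3_mem h j (valued_of_unif hϖ)) hU

end SplitE

end Fermat.Agent.LT.Glob

namespace Fermat.Agent.LT.Brg

open MeasureTheory ProbabilityTheory NumberField IsDedekindDomain WithZero
open scoped ENNReal NNReal MatrixGroups ContDiff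
open FA Sp Op Glob
open Fou (IsInv HeckeAt AutForm HData)

section ExitK

variable {K : Type*} [Field K] [NumberField K] [IsTotallyComplex K]
  {U : (locK K).Level} [MeasurableSpace (LocFam.D U)] [DiscreteMeasurableSpace (LocFam.D U)]
  [Countable (LocFam.D U)] [FinPart K (LocFam.D U)] {w : HF K × LocFam.D U → ℝ≥0}

/-- eigenvectors of the Hecke operator at `v`, for any choice of a prime element, give
`HeckeAt (HK v)` -/
theorem heckeAt_K (hw : IsWt PGL(2, K) (muY K (LocFam.D U)) w)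
    [IsFiniteMeasure (wtM (muY K (LocFam.D U)) w)] {f : HA PGL(2, K) (muY K (LocFam.D U))}
    {φ : HF K × LocFam.D U → ℂ} (hf : IsRep f φ) {v : HeightOneSpectrum (𝓞 K)}
    {ϖ : (v.adicCompletion K)ˣ} {B : Finset (v.adicCompletion K)} (h : Unif (Oc v) ϖ B)
    (hU : U.U v = PO ((locK K).O v)) {c : ℂ}
    (hx : opD hw (LocFam.GFun.single v (LocFam.TTh (L := locK K) (v := v) h hU)).toDKer f = c • f) :
    HeckeAt (HK v) c φ := by
  rw [TTh_K_eq h (unifOc_reps v) hU] at hx
  exact (IsRep.hecke_iff' hw hf (HK v) (unifOc_reps v) hU c).1 hx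

/-- **The exit on the `k`-side**: a simultaneous eigenvector gives an automorphic form with all its
local Hecke equations. -/
theorem exists_form_K [SFinite (muY K (LocFam.D U))]
    (hw : IsWt PGL(2, K) (muY K (LocFam.D U)) w)
    [IsFiniteMeasure (wtM (muY K (LocFam.D U)) w)] {I : Type*} [Fintype I]
    {Φ : I → (InfinitePlace K → ℝ) → ℂ} {κ : I → DKer K (LocFam.D U)}
    (hΦ : ∀ i, ContDiff ℝ ∞ (Φ i))
    (hc : ∀ i, HasCompactSupport (Φ i)) (h0 : Bd.MeanZero K (Bd.autK (Bd.famKer Φ κ)))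
    {A : HA PGL(2, K) (muY K (LocFam.D U)) →L[ℂ] HA PGL(2, K) (muY K (LocFam.D U))}
    (hA : KRep A (Bd.famKer Φ κ))
    {a : ℂ} (ha : a ≠ 0) {x : HA PGL(2, K) (muY K (LocFam.D U))} (hx0 : x ≠ 0)
    (hx : A x = a • x)
    (hR : ∀ (j : InfinitePlace K) (k : ℝ → ℝ) (hk : ContDiff ℝ ∞ k) (hs : HasCompactSupport k),
      (densA j (H3.kerOf hk.continuous hs)).cor.op hw x = (H3.khat k : ℂ) • x)
    {B : Set (HeightOneSpectrum (𝓞 K))} (hU : ∀ v ∉ B, U.U v = PO ((locK K).O v))
    (ϖ : ∀ v : HeightOneSpectrum (𝓞 K), (v.adicCompletion K)ˣ)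
    (S : ∀ v : HeightOneSpectrum (𝓞 K), Finset (v.adicCompletion K))
    (hϖ : ∀ v, Unif (Oc v) (ϖ v) (S v)) {lam : HeightOneSpectrum (𝓞 K) → ℝ}
    (hT : ∀ (v : HeightOneSpectrum (𝓞 K)) (hv : v ∉ B),
      opD hw (LocFam.GFun.single v (LocFam.TTh (L := locK K) (v := v) (hϖ v) (hU v hv))).toDKer x =
        ((lam v : ℝ) : ℂ) • x) :
    ∃ φ : HF K × LocFam.D U → ℂ, AutForm φ ∧ IsRep x φ ∧ (∃ y, φ y ≠ 0) ∧
      ∀ v ∉ B, HeckeAt (HK v) ((lam v : ℝ) : ℂ) φ := by
  obtain ⟨φ, hφ, hae⟩ := Reg.exists_autForm_famKer hw hΦ hc h0 hA ha hx hR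
  have hrep : IsRep x φ := ⟨hφ.toIsInv, hae⟩
  refine ⟨φ, hφ, hrep, ?_, fun v hv => heckeAt_K hw hrep (hϖ v) (hU v hv) (hT v hv)⟩
  by_contra hcon
  push Not at hcon
  exact hx0 ((IsRep.eq_zero_iff hw hrep).2 hcon)

end ExitK

end Fermat.Agent.LT.Brg
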