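import Fermat.Agent.LT.Brg.Pt4
import Fermat.Agent.LT.Fou.TwistE
import Fermat.Agent.LT.Op.Tw
import Fermat.Agent.LT.Glob.SplitC

set_option autoImplicit false
set_option linter.unusedSectionVars false

/-! # Invariance under the Galois group at a finer level -/

namespace Fermat.Agent.LT.Brg

open MeasureTheory ProbabilityTheory NumberField Matrix Filter IsDedekindDomain
open scoped ENNReal NNReal MatrixGroups
open FA Sp Op Glob Loc LocFam
open Fou (IsInv HData HeckeAt EqvAt AutForm TypeData setv setv_same setv_ne setv_self setv_setv pN pA)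

section Desc

universe w u i

variable {F : Type u} [Field F] {ι : Type i} {L : LocFam.{w} F ι} {U' U : L.Level}

theorem desc_dmap {A : Auto L} (h : ∀ v, U'.U v ≤ U.U v) (hP' : A.Pres U') (hP : A.Pres U)
    (d : D U') : desc h (Auto.dmap hP' d) = Auto.dmap hP (desc h d) := by
  apply D.ext
  intro v
  rw [desc_apply, Auto.dmap_apply, Auto.dmap_apply, desc_apply]
  generalize d v = x
  induction x using QuotientGroup.induction_on with
  | H x => rfl

theorem pull_act {A : Auto L} (hA : A.IsCubic) (h : ∀ v, U'.U v ≤ U.U v) (hP' : A.Pres U')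
    (hP : A.Pres U) (φ : HF F × D U → ℂ) :
    (fun y => pull h φ ((Auto.twist hA hP').act y)) =
      pull h (fun y => φ ((Auto.twist hA hP).act y)) := by
  funext y
  show φ (thetaHF A.θ y.1, desc h (Auto.dmap hP' y.2)) =
    φ (thetaHF A.θ y.1, Auto.dmap hP (desc h y.2))
  rw [desc_dmap h hP' hP]

open Classical in
/-- the level which is maximal at `v0` and equal to `U` elsewhere -/
noncomputable def sphL (U : L.Level) (v0 : ι) : L.Level where
  U v := if v = v0 then PO (L.O v) else U.U v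
  le v := by
    split_ifs
    · exact le_rfl
    · exact U.le v
  eventually_eq := by
    have h1 : ∀ᶠ v' in cofinite, v' ≠ v0 := by
      rw [eventually_cofinite]
      simp only [not_not]
      exact Set.finite_singleton v0
    filter_upwards [U.eventually_eq, h1] with v hv hne
    rw [if_neg hne, hv]
  deep v := by
    by_cases hv : v = v0
    · exact ⟨1, one_ne_zero, by rw [if_pos hv]; exact (PK_one _).le⟩
    · obtain ⟨N, hN, h⟩ := U.deep v
      exact ⟨N, hN, by rw [if_neg hv]; exact h⟩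

theorem sphL_same (U : L.Level) (v0 : ι) : (sphL U v0).U v0 = PO (L.O v0) := by
  classical exact if_pos rfl

theorem sphL_ne (U : L.Level) {v0 v : ι} (h : v ≠ v0) : (sphL U v0).U v = U.U v := by
  classical exact if_neg h

theorem le_sphL (U : L.Level) (v0 v : ι) : U.U v ≤ (sphL U v0).U v := by
  by_cases h : v = v0
  · subst h; rw [sphL_same]; exact U.le v
  · rw [sphL_ne U h]

theorem pres_sphL {A : Auto L} (hP : A.Pres U) (v0 : ι) : A.Pres (sphL U v0) := by
  intro v g hg
  by_cases h : v = v0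
  · subst h
    rw [sphL_same] at hg ⊢
    exact A.map_mem_PO hg
  · rw [sphL_ne U h] at hg ⊢
    exact hP v g hg

/-- a form at level `U` which is spherical at `v0` comes from `sphL U v0` -/
theorem exists_pull_sph {v0 : ι} {φ : HF F × D U → ℂ}
    (hE : EqvAt v0 (PO (L.O v0)) (fun _ => 1) φ) :
    ∃ φ₀ : HF F × D (sphL U v0) → ℂ, φ = pull (le_sphL U v0) φ₀ := by
  refine exists_pull (le_sphL U v0) φ fun v hv => ?_
  have h : v = v0 := by
    by_contra hne
    exact hv (sphL_ne U hne).symm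
  subst h
  rw [sphL_same]
  exact hE

end Desc

section Main

variable {k : Type} [Field k] [NumberField k] {E : Type} [Field E] [NumberField E]
  [IsTotallyComplex E] [Algebra k E] {U : (locE k E).Level}

variable {B : Finset (HeightOneSpectrum (𝓞 k))} {a0 : Eˣ}
  {J : ∀ v, Subgroup ((locE k E).G v)} {ψ : ∀ v, (locE k E).G v → ℂ}
  {lam : ∀ v : HeightOneSpectrum (𝓞 k), Fib E v → ℂ} {v0 : HeightOneSpectrum (𝓞 k)}

/-- **Galois invariance at the level `U`**, spherical at `v0`. -/
theorem act_eq_iw {φ : HF E × D U → ℂ}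
    (hT : TypeData (locE k E) B a0 J ψ (fun v => Fib E v) (fun _ w => HE w) (sphL U v0))
    {σ : E ≃ₐ[k] E} (hσ : LT.Loc.Gal3 σ) (hP : (autoE σ).Pres U) (ha0 : σ (a0 : E) = a0)
    (hJ : ∀ v ∈ B, ∀ j ∈ J v, (autoE σ).g v j ∈ J v)
    (hψ : ∀ v ∈ B, ∀ j ∈ J v, ψ v ((autoE σ).g v j) = ψ v j)
    (hlam : ∀ v ∉ B, ∀ w, lam v (actF σ w) = lam v w) (h : AutForm φ)
    (he : ∀ v ∈ B, EqvAt v (J v) (ψ v) φ)
    (h0 : EqvAt v0 (PO ((locE k E).O v0)) (fun _ => 1) φ)
    (hh : ∀ v ∉ B, ∀ w : Fib E v, HeckeAt (HE w) (lam v w) φ) :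
    (fun y => φ ((Auto.twist (Fou.isCubic_autoE hσ) hP).act y)) = φ := by
  obtain ⟨φ₀, rfl⟩ := exists_pull_sph h0
  rw [pull_act (Fou.isCubic_autoE hσ) (le_sphL U v0) hP (pres_sphL hP v0)]
  congr 1
  refine AutForm.act_eq_E hT hσ (pres_sphL hP v0) ha0 hJ hψ hlam
    ((autForm_pull_iff _ _).mp h) (fun v hv => (eqvAt_pull_iff _ _ _ _ _).mp (he v hv))
    (fun v hv w => (heckeAt_pull_iff _ _ _ _).mp (hh v hv w))

/-- non-split places have one place above them -/
theorem subsingleton_fib {σ : E ≃ₐ[k] E} (hσ : LT.Loc.Gal3 σ) {v : HeightOneSpectrum (𝓞 k)}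
    (hv : ¬ ∃ e : RE E v, IsSplitIdem σ e) : Subsingleton (Fib E v) := by
  by_contra hne
  rw [← Finite.card_le_one_iff_subsingleton, not_le] at hne
  exact hv (exists_isSplitIdem_of_card hσ hne)

end Main

end Fermat.Agent.LT.Brg
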