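import Fermat.Agent.LT.Brg.ExitK
import Fermat.Agent.LT.Cls.Out2

set_option autoImplicit false
set_option linter.unusedSectionVars false
set_option linter.unusedVariables false

/-!
# From a simultaneous eigenvector on the `k`-side to the classical package
-/

namespace Fermat.Agent.LT.Brg

open MeasureTheory ProbabilityTheory NumberField IsDedekindDomain WithZero
open scoped ENNReal NNReal MatrixGroups ContDiff
open FA Sp Op Glob
open Fou (IsInv HeckeAt AutForm HData)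

variable {K : Type*} [Field K] [NumberField K] [IsCyclotomicExtension {3} ℚ K] [IsTotallyComplex K]
  {U : (locK K).Level} [MeasurableSpace (LocFam.D U)] [DiscreteMeasurableSpace (LocFam.D U)]
  [Countable (LocFam.D U)] [FinPart K (LocFam.D U)] {w : HF K × LocFam.D U → ℝ≥0}

theorem out_K (w0 : InfinitePlace K) [SFinite (muY K (LocFam.D U))]
    (hw : IsWt PGL(2, K) (muY K (LocFam.D U)) w)
    [IsFiniteMeasure (wtM (muY K (LocFam.D U)) w)] {I : Type*} [Fintype I]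
    {Φ : I → (InfinitePlace K → ℝ) → ℂ} {κ : I → DKer K (LocFam.D U)}
    (hΦ : ∀ i, ContDiff ℝ ∞ (Φ i))
    (hc : ∀ i, HasCompactSupport (Φ i)) (h0 : Bd.MeanZero K (Bd.autK (Bd.famKer Φ κ)))
    {A : HA PGL(2, K) (muY K (LocFam.D U)) →L[ℂ] HA PGL(2, K) (muY K (LocFam.D U))}
    (hA : KRep A (Bd.famKer Φ κ))
    {a : ℂ} (ha : a ≠ 0) {x : HA PGL(2, K) (muY K (LocFam.D U))} (hx0 : x ≠ 0)
    (hx : A x = a • x)
    (hR : ∀ (j : InfinitePlace K) (k : ℝ → ℝ) (hk : ContDiff ℝ ∞ k) (hs : HasCompactSupport k),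
      (densA j (H3.kerOf hk.continuous hs)).cor.op hw x = (H3.khat k : ℂ) • x)
    {N0 : ℕ} (hN0 : N0 ≠ 0)
    (hU : ∀ v : HeightOneSpectrum (𝓞 K), (N0 : 𝓞 K) ∉ v.asIdeal → U.U v = PO ((locK K).O v))
    (ϖ : ∀ v : HeightOneSpectrum (𝓞 K), (v.adicCompletion K)ˣ)
    (S : ∀ v : HeightOneSpectrum (𝓞 K), Finset (v.adicCompletion K))
    (hϖ : ∀ v, Unif (Oc v) (ϖ v) (S v)) (mu : HeightOneSpectrum (𝓞 K) → ℝ)
    (hT : ∀ (v : HeightOneSpectrum (𝓞 K)) (hv : (N0 : 𝓞 K) ∉ v.asIdeal),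
      opD hw (LocFam.GFun.single v (LocFam.TTh (L := locK K) (v := v) (hϖ v) (hU v hv))).toDKer x =
        (((√((v.asIdeal.absNorm : ℕ) : ℝ) : ℝ) : ℂ) * ((mu v : ℝ) : ℂ)) • x) :
    ∃ (N : ℕ) (φ : H3 → ℂ) (a : K → ℂ) (κ : 𝓞 K → ℂ), N0 ∣ N ∧ 3 ∣ N ∧ N ≠ 0 ∧
      RS.KForm w0.embedding N φ a κ (Cls.lamOf mu) (fun t => LT.K0 (4 * Real.pi * t)) ∧
      RS.Bes (fun t => LT.K0 (4 * Real.pi * t)) ∧ φ ≠ 0 ∧ Continuous φ ∧ Th.Harm.Mean φ ∧
      Cls.HFun w0.embedding N φ (Cls.lamOf mu) := by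
  obtain ⟨φ, hφ, hrep, hne, hH⟩ := exists_form_K hw hΦ hc h0 hA ha hx0 hx hR
    (B := {v | (N0 : 𝓞 K) ∈ v.asIdeal}) (fun v hv => hU v hv) ϖ S hϖ
    (lam := fun v => √((v.asIdeal.absNorm : ℕ) : ℝ) * mu v) (fun v hv => by
      rw [hT v hv]; push_cast; rfl)
  refine Cls.fou3_places w0 hφ hne hN0 mu hU fun v hv => ⟨HK v, full_HK v, ?_⟩
  have := hH v hv
  push_cast at this
  exact this

end Fermat.Agent.LT.Brg
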