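import Fermat.Agent.LT.Op.Alg
import Fermat.Agent.LT.Fou.AutForm

set_option autoImplicit false
set_option linter.unusedSectionVars false

/-! # Continuous representatives of automorphic vectors -/

namespace Fermat.Agent.LT.Brg

open MeasureTheory ProbabilityTheory NumberField
open scoped ENNReal NNReal MatrixGroups
open FA Sp Op
open Fou (IsInv)

section Ext

variable {F : Type*} [Field F] [NumberField F] {D : Type*} [MeasurableSpace D]
  [DiscreteMeasurableSpace D] [Countable D]

instance instOpenPosHF : Measure.IsOpenPosMeasure (volume : Measure (HF F)) :=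
  inferInstanceAs (Measure.IsOpenPosMeasure
    (Measure.pi fun _ : InfinitePlace F => (volume : Measure H3)))

instance instSigmaFiniteMuY : SigmaFinite (muY F D) := by
  rw [muY]; infer_instance

/-- **Continuous functions which are equal almost everywhere are equal.** -/
theorem eq_of_ae {φ φ' : HF F × D → ℂ} (h : ∀ d, Continuous fun p => φ (p, d))
    (h' : ∀ d, Continuous fun p => φ' (p, d)) (hae : ∀ᵐ y ∂(muY F D), φ y = φ' y) : φ = φ' := by
  funext y
  obtain ⟨p, d⟩ := y
  have h1 : ∀ᵐ z ∂((Measure.count : Measure D).prod (volume : Measure (HF F))),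
      φ z.swap = φ' z.swap := by
    have h2 := (Measure.measurePreserving_swap (μ := (Measure.count : Measure D))
      (ν := (volume : Measure (HF F)))).quasiMeasurePreserving.ae
      (p := fun y => φ y = φ' y) hae
    exact h2
  have h3 : ∀ᵐ d ∂(Measure.count : Measure D), ∀ᵐ p ∂(volume : Measure (HF F)),
      φ (p, d) = φ' (p, d) := Measure.ae_ae_of_ae_prod h1
  have h4 : ∀ᵐ p ∂(volume : Measure (HF F)), φ (p, d) = φ' (p, d) := by
    rw [ae_iff, Measure.count_eq_zero_iff] at h3
    by_contra hcon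
    have : d ∈ {a | ¬∀ᵐ p ∂(volume : Measure (HF F)), φ (p, a) = φ' (p, a)} := hcon
    rw [h3] at this
    exact this
  have h5 := (Continuous.ae_eq_iff_eq (volume : Measure (HF F)) (h d) (h' d)).mp h4
  exact congrFun h5 p

end Ext

variable {F : Type*} [Field F] [NumberField F] [IsTotallyComplex F]
  {D : Type*} [MulAction (GL (Fin 2) F) D] [FinPart F D]

section Act

/-- action of a kernel on the finite part on functions -/
noncomputable def actD (κ : DKer F D) (φ : HF F × D → ℂ) : HF F × D → ℂ := fun y =>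
  ∑ᶠ d', κ.κ y.2 d' * φ (y.1, d')

/-- action of a point pair invariant at the place `j` on functions -/
noncomputable def actA (j : InfinitePlace F) (κ : IKer) (φ : HF F × D → ℂ) : HF F × D → ℂ :=
  fun y => ∫ q : H3, (κ.k (y.1 j) q : ℂ) * φ (Fou.upd y.1 j q, y.2)

theorem actD_sum (κ : DKer F D) (φ : HF F × D → ℂ) (p : HF F) (d : D) :
    actD κ φ (p, d) = ∑ d' ∈ (κ.finite d).toFinset, κ.κ d d' * φ (p, d') := by
  refine finsum_eq_sum_of_support_subset _ fun d' h => ?_
  rw [Set.Finite.coe_toFinset]
  exact fun h1 => h (by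
    show κ.κ d d' * _ = 0
    rw [h1, zero_mul])

theorem isInv_actD {φ : HF F × D → ℂ} (h : IsInv φ) (κ : DKer F D) : IsInv (actD κ φ) where
  cont d := by
    have e : (fun p => actD κ φ (p, d)) =
        fun p => ∑ d' ∈ (κ.finite d).toFinset, κ.κ d d' * φ (p, d') :=
      funext fun p => actD_sum κ φ p d
    rw [e]
    exact continuous_finsetSum _ fun d' _ => (h.cont d').const_mul _
  inv g p d := by
    show ∑ᶠ d', κ.κ (g • d) d' * φ (g • p, d') = ∑ᶠ d', κ.κ d d' * φ (p, d')
    rw [← finsum_comp_equiv (MulAction.toPerm g)]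
    refine finsum_congr fun d' => ?_
    rw [MulAction.toPerm_apply, κ.smul, h.inv]

omit [IsTotallyComplex F] [FinPart F D] in
theorem upd_smul' (g : GL (Fin 2) F) (p : HF F) (j : InfinitePlace F) (q : H3) :
    Fou.upd (g • p) j (embGL j g • q) = g • Fou.upd p j q := by
  funext w
  by_cases h : w = j
  · subst h
    rw [Fou.upd_same, smul_HF_apply, Fou.upd_same]
  · rw [Fou.upd_ne _ h, smul_HF_apply, smul_HF_apply, Fou.upd_ne _ h]

theorem actA_mv (j : InfinitePlace F) (κ : IKer) (φ : HF F × D → ℂ) (p : HF F) (d : D) :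
    actA j κ φ (p, d) =
      ∫ q : H3, (κ.k H3.j q : ℂ) * φ (Fou.upd p j (IKer.mv (p j) q), d) := by
  show ∫ q : H3, (κ.k (p j) q : ℂ) * φ (Fou.upd p j q, d) = _
  rw [← H3.integral_smul_H3 (H3.up (p j))
    (fun q => (κ.k (p j) q : ℂ) * φ (Fou.upd p j q, d))]
  refine integral_congr_ae (Filter.Eventually.of_forall fun q => ?_)
  simp only []
  rw [IKer.up_smul, κ.k_mv]

theorem isInv_actA {φ : HF F × D → ℂ} (h : IsInv φ) (j : InfinitePlace F) (κ : IKer) :
    IsInv (actA j κ φ) where
  cont d := by
    have e : (fun p => actA j κ φ (p, d)) = fun p => ∫ q in tsupport (fun q => κ.k H3.j q),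
        (κ.k H3.j q : ℂ) * φ (Fou.upd p j (IKer.mv (p j) q), d) := by
      funext p
      rw [actA_mv, setIntegral_eq_integral_of_forall_compl_eq_zero]
      intro q hq
      rw [image_eq_zero_of_notMem_tsupport hq]
      simp
    rw [e]
    refine continuous_parametric_integral_of_continuous ?_ (κ.hasCompactSupport_right H3.j)
    have h1 : Continuous fun x : HF F × H3 => (κ.k H3.j x.2 : ℂ) :=
      Complex.continuous_ofReal.comp ((κ.continuous_right H3.j).comp continuous_snd)
    have h2 : Continuous fun x : HF F × H3 => Fou.upd x.1 j (IKer.mv (x.1 j) x.2) :=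
      (Fou.continuous_upd j).comp (continuous_fst.prodMk (IKer.continuous_mv.comp
        (((continuous_apply j).comp continuous_fst).prodMk continuous_snd)))
    exact h1.mul ((h.cont d).comp h2)
  inv g p d := by
    show ∫ q : H3, (κ.k ((g • p) j) q : ℂ) * φ (Fou.upd (g • p) j q, g • d) = _
    rw [← H3.integral_smul_H3 (embGL j g)]
    refine integral_congr_ae (Filter.Eventually.of_forall fun q => ?_)
    simp only []
    rw [upd_smul', smul_HF_apply, κ.inv, h.inv]

end Act

variable [MeasurableSpace D] [DiscreteMeasurableSpace D] [Countable D]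

theorem measurable_of_isInv {φ : HF F × D → ℂ} (h : IsInv φ) : Measurable φ := by
  refine measurable_from_prod_countable_left fun d => ?_
  exact (h.cont d).measurable

/-- **continuous invariant representatives** -/
structure IsRep (f : HA PGL(2, F) (muY F D)) (φ : HF F × D → ℂ) : Prop where
  inv : IsInv φ
  ae : ∀ᵐ y ∂(muY F D), afn f y = φ y

variable {w : HF F × D → ℝ≥0} (hw : IsWt PGL(2, F) (muY F D) w)
  {f f' : HA PGL(2, F) (muY F D)} {φ φ' : HF F × D → ℂ}

theorem isInv_eq_of_ae (h : IsInv φ) (h' : IsInv φ') (hae : ∀ᵐ y ∂(muY F D), φ y = φ' y) :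
    φ = φ' := eq_of_ae h.cont h'.cont hae

theorem isInv_cmul (h : IsInv φ) (c : ℂ) : IsInv fun y => c * φ y where
  cont d := (h.cont d).const_mul c
  inv g p d := by
    show c * φ (g • p, g • d) = c * φ (p, d)
    rw [h.inv]

theorem isInv_add (h : IsInv φ) (h' : IsInv φ') : IsInv fun y => φ y + φ' y where
  cont d := (h.cont d).add (h'.cont d)
  inv g p d := by
    show φ (g • p, g • d) + φ' (g • p, g • d) = φ (p, d) + φ' (p, d)
    rw [h.inv, h'.inv]

theorem isInv_zero : IsInv (fun _ : HF F × D => (0 : ℂ)) where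
  cont _ := continuous_const
  inv _ _ _ := rfl

namespace IsRep

theorem unique (h : IsRep f φ) (h' : IsRep f φ') : φ = φ' := by
  refine isInv_eq_of_ae h.inv h'.inv ?_
  filter_upwards [h.ae, h'.ae] with y h1 h2
  rw [← h1, h2]

include hw in
theorem eq_iff (h : IsRep f φ) (h' : IsRep f' φ') : f = f' ↔ φ = φ' := by
  constructor
  · rintro rfl
    exact h.unique h'
  · rintro rfl
    refine HA.ext_ae hw ?_
    filter_upwards [h.ae, h'.ae] with y h1 h2
    rw [h1, h2]

include hw in
theorem cmul (h : IsRep f φ) (c : ℂ) : IsRep (c • f) fun y => c * φ y where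
  inv := isInv_cmul h.inv c
  ae := by
    filter_upwards [h.ae, HA.afn_smulc hw c f] with y h1 h2
    rw [h2, h1]

include hw in
theorem add (h : IsRep f φ) (h' : IsRep f' φ') : IsRep (f + f') fun y => φ y + φ' y where
  inv := isInv_add h.inv h'.inv
  ae := by
    filter_upwards [h.ae, h'.ae, HA.afn_add hw f f'] with y h1 h2 h3
    rw [h3, h1, h2]

include hw in
theorem zero : IsRep (0 : HA PGL(2, F) (muY F D)) fun _ => 0 where
  inv := isInv_zero
  ae := HA.afn_zero hw

include hw in
theorem eq_zero_iff (h : IsRep f φ) : f = 0 ↔ ∀ y, φ y = 0 := by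
  rw [eq_iff hw h (zero hw)]
  exact ⟨fun e y => congrFun e y, fun e => funext e⟩

variable [IsFiniteMeasure (wtM (muY F D) w)]

theorem T (h : IsRep f φ) (κ : DKer F D) : IsRep (opD hw κ f) (actD κ φ) where
  inv := isInv_actD h.inv κ
  ae := by
    filter_upwards [(densD κ).cor.op_ae hw f, (densD κ).cor.app_congr h.ae] with y h1 h2
    rw [opD, h1, h2, app_D' κ (measurable_of_isInv h.inv)]
    rfl

theorem R (h : IsRep f φ) (j : InfinitePlace F) (κ : IKer) :
    IsRep (opA hw j κ f) (actA j κ φ) where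
  inv := isInv_actA h.inv j κ
  ae := by
    filter_upwards [(densA j κ).cor.op_ae hw f, (densA j κ).cor.app_congr h.ae] with y h1 h2
    rw [opA, h1, h2, app_A j κ (measurable_of_isInv h.inv)]
    rfl

/-- **Eigenvectors of the operators of the finite part are pointwise eigenfunctions.** -/
theorem T_iff (h : IsRep f φ) (κ : DKer F D) (c : ℂ) : opD hw κ f = c • f ↔
    ∀ (p : HF F) (d : D), ∑ᶠ d', κ.κ d d' * φ (p, d') = c * φ (p, d) := by
  rw [eq_iff hw (h.T hw κ) (h.cmul hw c)]
  exact ⟨fun e p d => congrFun e (p, d), fun e => funext fun y => e y.1 y.2⟩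

/-- fixed vectors -/
theorem T_iff_one (h : IsRep f φ) (κ : DKer F D) : opD hw κ f = f ↔
    ∀ (p : HF F) (d : D), ∑ᶠ d', κ.κ d d' * φ (p, d') = φ (p, d) := by
  have := h.T_iff hw κ 1
  rw [one_smul] at this
  rw [this]
  simp only [one_mul]

/-- kernel vectors -/
theorem T_iff_zero (h : IsRep f φ) (κ : DKer F D) : opD hw κ f = 0 ↔
    ∀ (p : HF F) (d : D), ∑ᶠ d', κ.κ d d' * φ (p, d') = 0 := by
  have := h.T_iff hw κ 0
  rw [zero_smul] at this
  rw [this]
  simp only [zero_mul]

/-- **Eigenvectors of the archimedean operators are pointwise eigenfunctions.** -/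
theorem R_iff (h : IsRep f φ) (j : InfinitePlace F) (κ : IKer) (c : ℂ) :
    opA hw j κ f = c • f ↔ ∀ (p : HF F) (d : D),
      ∫ q : H3, (κ.k (p j) q : ℂ) * φ (Fou.upd p j q, d) = c * φ (p, d) := by
  rw [eq_iff hw (h.R hw j κ) (h.cmul hw c)]
  exact ⟨fun e p d => congrFun e (p, d), fun e => funext fun y => e y.1 y.2⟩

end IsRep

end Fermat.Agent.LT.Brg
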