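import Fermat.Agent.LT.Brg.Pt3
import Fermat.Agent.LT.Fou.Mult

set_option autoImplicit false
set_option linter.unusedSectionVars false

/-! # Change of level -/

namespace Fermat.Agent.LT.Brg

open MeasureTheory ProbabilityTheory NumberField Matrix Filter
open scoped ENNReal NNReal MatrixGroups
open FA Sp Op Glob Loc LocFam
open Fou (IsInv HData HeckeAt EqvAt AutForm setv setv_same setv_ne setv_self setv_setv pN pA)

universe w u i

variable {F : Type u} [Field F] {ι : Type i} {L : LocFam.{w} F ι} {U' U : L.Level}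

/-- the map of local homogeneous spaces -/
def xdesc (h : ∀ v, U'.U v ≤ U.U v) (v : ι) : X U' v → X U v := Subgroup.quotientMapOfLE (h v)

@[simp] theorem xdesc_mk (h : ∀ v, U'.U v ≤ U.U v) (v : ι) (g : L.G v) :
    xdesc h v (g : L.G v ⧸ U'.U v) = (g : L.G v ⧸ U.U v) := rfl

theorem xdesc_base (h : ∀ v, U'.U v ≤ U.U v) (v : ι) : xdesc h v (X.base U' v) = X.base U v := rfl

theorem xdesc_smul (h : ∀ v, U'.U v ≤ U.U v) (v : ι) (g : L.G v) (x : X U' v) :
    xdesc h v (g • x) = g • xdesc h v x := by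
  induction x using QuotientGroup.induction_on with
  | H x => rfl

theorem xdesc_surjective (h : ∀ v, U'.U v ≤ U.U v) (v : ι) :
    Function.Surjective (xdesc h v) := by
  intro x
  induction x using QuotientGroup.induction_on with
  | H x => exact ⟨(x : L.G v ⧸ U'.U v), rfl⟩

/-- the map `D U' → D U` for a finer level `U'` -/
def desc (h : ∀ v, U'.U v ≤ U.U v) (d : D U') : D U := ⟨fun v => xdesc h v (d v), by
  filter_upwards [d.2] with v hv
  rw [hv, xdesc_base]⟩

theorem desc_apply (h : ∀ v, U'.U v ≤ U.U v) (d : D U') (v : ι) :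
    desc h d v = xdesc h v (d v) := rfl

theorem desc_smul (h : ∀ v, U'.U v ≤ U.U v) (g : GL (Fin 2) F) (d : D U') :
    desc h (g • d) = g • desc h d := by
  apply D.ext
  intro v
  rw [desc_apply, LocFam.smul_apply, LocFam.smul_apply, xdesc_smul, desc_apply]

theorem desc_setv (h : ∀ v, U'.U v ≤ U.U v) (d : D U') (v : ι) (x : X U' v) :
    desc h (setv d v x) = setv (desc h d) v (xdesc h v x) := by
  apply D.ext
  intro v'
  by_cases hv : v' = v
  · subst hv
    rw [setv_same, desc_apply, setv_same]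
  · rw [setv_ne _ hv, desc_apply, setv_ne _ hv, desc_apply]

theorem desc_surjective (h : ∀ v, U'.U v ≤ U.U v) : Function.Surjective (desc h) := by
  classical
  intro d
  choose s hs using fun v => xdesc_surjective h v (d v)
  refine ⟨⟨fun v => if d v = X.base U v then X.base U' v else s v, ?_⟩, ?_⟩
  · filter_upwards [d.2] with v hv
    rw [if_pos hv]
  · apply D.ext
    intro v
    show xdesc h v (if d v = X.base U v then X.base U' v else s v) = d v
    split_ifs with hv
    · rw [xdesc_base, hv]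
    · exact hs v

/-- lifts with a given coordinate -/
theorem exists_lift_coord (h : ∀ v, U'.U v ≤ U.U v) (d : D U) (v : ι) (x : X U' v)
    (hx : xdesc h v x = d v) : ∃ d' : D U', desc h d' = d ∧ d' v = x := by
  obtain ⟨d₁, rfl⟩ := desc_surjective h d
  refine ⟨setv d₁ v x, ?_, setv_same _ _ _⟩
  rw [desc_setv, hx, setv_self]

/-- the pull back of functions -/
def pull (h : ∀ v, U'.U v ≤ U.U v) (φ : HF F × D U → ℂ) : HF F × D U' → ℂ :=
  fun y => φ (y.1, desc h y.2)

theorem pull_apply (h : ∀ v, U'.U v ≤ U.U v) (φ : HF F × D U → ℂ) (p : HF F) (d : D U') :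
    pull h φ (p, d) = φ (p, desc h d) := rfl

theorem pull_injective (h : ∀ v, U'.U v ≤ U.U v) :
    Function.Injective (pull (F := F) h) := by
  intro φ ψ e
  funext y
  obtain ⟨d', hd'⟩ := desc_surjective h y.2
  have h1 := congrFun e (y.1, d')
  rw [pull_apply, pull_apply, hd'] at h1
  exact h1

theorem pull_eq_zero_iff (h : ∀ v, U'.U v ≤ U.U v) (φ : HF F × D U → ℂ) :
    pull h φ = 0 ↔ φ = 0 := by
  constructor
  · intro e
    exact pull_injective h e
  · rintro rfl; rfl

section Inv

variable [NumberField F]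

theorem isInv_pull_iff (h : ∀ v, U'.U v ≤ U.U v) (φ : HF F × D U → ℂ) :
    IsInv (pull h φ) ↔ IsInv φ := by
  constructor
  · intro hφ
    refine ⟨fun d => ?_, fun g p d => ?_⟩
    · obtain ⟨d', rfl⟩ := desc_surjective h d
      exact hφ.cont d'
    · obtain ⟨d', rfl⟩ := desc_surjective h d
      have := hφ.inv g p d'
      rwa [pull_apply, pull_apply, desc_smul] at this
  · intro hφ
    refine ⟨fun d => hφ.cont (desc h d), fun g p d => ?_⟩
    rw [pull_apply, pull_apply, desc_smul, hφ.inv]

end Inv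

theorem eqvAt_pull_iff (h : ∀ v, U'.U v ≤ U.U v) (φ : HF F × D U → ℂ) (v : ι)
    (J : Subgroup (L.G v)) (ψ : L.G v → ℂ) : EqvAt v J ψ (pull h φ) ↔ EqvAt v J ψ φ := by
  constructor
  · intro hφ p d g j hj hg
    obtain ⟨d', rfl, hd'⟩ := exists_lift_coord h d v (g : L.G v ⧸ U'.U v) (by rw [hg]; rfl)
    have := hφ p d' g j hj hd'
    rwa [pull_apply, pull_apply, desc_setv, xdesc_mk] at this
  · intro hφ p d g j hj hg
    rw [pull_apply, pull_apply, desc_setv, xdesc_mk]
    exact hφ p (desc h d) g j hj (by rw [desc_apply, hg]; rfl)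

theorem heckeAt_pull_iff (h : ∀ v, U'.U v ≤ U.U v) (φ : HF F × D U → ℂ) {v : ι}
    (H : HData L v) (lam : ℂ) : HeckeAt H lam (pull h φ) ↔ HeckeAt H lam φ := by
  constructor
  · intro hφ p d g hg
    obtain ⟨d', rfl, hd'⟩ := exists_lift_coord h d v (g : L.G v ⧸ U'.U v) (by rw [hg]; rfl)
    have := hφ p d' g hd'
    simp only [pull_apply, desc_setv, xdesc_mk] at this
    exact this
  · intro hφ p d g hg
    have := hφ p (desc h d) g (by rw [desc_apply, hg]; rfl)
    simp only [pull_apply, desc_setv, xdesc_mk]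
    exact this

section Aut

variable [NumberField F] [IsTotallyComplex F]

theorem cof_pull (h : ∀ v, U'.U v ≤ U.U v) (φ : HF F × D U → ℂ) (ξ : F) (p : HF F)
    (d : D U') : Fou.cof (pull h φ) ξ p d = Fou.cof φ ξ p (desc h d) := rfl

theorem autForm_pull_iff (h : ∀ v, U'.U v ≤ U.U v) (φ : HF F × D U → ℂ) :
    AutForm (pull h φ) ↔ AutForm φ := by
  constructor
  · intro hφ
    refine ⟨(isInv_pull_iff h φ).mp hφ.toIsInv, ?_, ?_, ?_⟩
    · obtain ⟨C, hC⟩ := hφ.bdd
      refine ⟨C, fun x => ?_⟩
      obtain ⟨d', hd'⟩ := desc_surjective h x.2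
      have := hC (x.1, d')
      rwa [pull_apply, hd'] at this
    · intro w k hk hks p d
      obtain ⟨d', rfl⟩ := desc_surjective h d
      exact hφ.eig w k hk hks p d'
    · intro p d
      obtain ⟨d', rfl⟩ := desc_surjective h d
      exact hφ.cusp p d'
  · intro hφ
    refine ⟨(isInv_pull_iff h φ).mpr hφ.toIsInv, ?_, ?_, ?_⟩
    · obtain ⟨C, hC⟩ := hφ.bdd
      exact ⟨C, fun x => hC _⟩
    · intro w k hk hks p d
      exact hφ.eig w k hk hks p (desc h d)
    · intro p d
      exact hφ.cusp p (desc h d)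

end Aut

/-- **Descent.**  A function which is invariant under `U v` at the places where the level changes
comes from the coarser level. -/
theorem exists_pull (h : ∀ v, U'.U v ≤ U.U v) (φ' : HF F × D U' → ℂ)
    (hE : ∀ v, U'.U v ≠ U.U v → EqvAt v (U.U v) (fun _ => 1) φ') :
    ∃ φ : HF F × D U → ℂ, φ' = pull h φ := by
  classical
  -- invariance at all places
  have hE' : ∀ v, EqvAt v (U.U v) (fun _ => 1) φ' := by
    intro v
    by_cases hv : U'.U v = U.U v
    · intro p d g j hj hg
      rw [← hv] at hj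
      have e : ((g * j : L.G v) : L.G v ⧸ U'.U v) = d v := by
        rw [hg]
        refine QuotientGroup.eq.2 ?_
        rw [_root_.mul_inv_rev, mul_assoc, inv_mul_cancel, mul_one]
        exact inv_mem hj
      rw [e, setv_self, one_mul]
    · exact hE v hv
  have key : ∀ (T : Finset ι) (p : HF F) (d₁ d₂ : D U'), desc h d₁ = desc h d₂ →
      (∀ v ∉ T, d₁ v = d₂ v) → φ' (p, d₁) = φ' (p, d₂) := by
    intro T
    induction T using Finset.induction_on with
    | empty =>
      intro p d₁ d₂ _ h2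
      have : d₁ = d₂ := D.ext fun v => h2 v (Finset.notMem_empty v)
      rw [this]
    | insert v T hv ih =>
      intro p d₁ d₂ h1 h2
      have e1 : φ' (p, setv d₁ v (d₂ v)) = φ' (p, d₂) := by
        apply ih
        · rw [desc_setv, h1, ← desc_apply, setv_self]
        · intro v' hv'
          by_cases hvv : v' = v
          · subst hvv; rw [setv_same]
          · rw [setv_ne _ hvv]
            exact h2 v' (by simp [hvv, hv'])
      rw [← e1]
      obtain ⟨g, hg⟩ := QuotientGroup.mk_surjective (d₁ v)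
      obtain ⟨g', hg'⟩ := QuotientGroup.mk_surjective (d₂ v)
      have h3 : ((g : L.G v) : L.G v ⧸ U.U v) = ((g' : L.G v) : L.G v ⧸ U.U v) := by
        have h4 : desc h d₁ v = desc h d₂ v := by rw [h1]
        rw [desc_apply, desc_apply, ← hg, ← hg', xdesc_mk, xdesc_mk] at h4
        exact h4
      have h5 := hE' v p d₁ g (g⁻¹ * g') (QuotientGroup.eq.1 h3) hg.symm
      rw [mul_inv_cancel_left, hg', one_mul] at h5
      exact h5.symm
  have key' : ∀ (p : HF F) (d₁ d₂ : D U'), desc h d₁ = desc h d₂ → φ' (p, d₁) = φ' (p, d₂) := by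
    intro p d₁ d₂ h1
    obtain ⟨T, hT⟩ := exists_finset_compl (d₁.2.and d₂.2)
    refine key T p d₁ d₂ h1 fun v hv => ?_
    obtain ⟨h2, h3⟩ := hT v hv
    rw [h2, h3]
  choose s hs using desc_surjective h
  refine ⟨fun y => φ' (y.1, s y.2), ?_⟩
  funext y
  exact key' y.1 y.2 _ (hs _).symm

/-- the level equal to `U` at the places of `S`, and to `U₀` elsewhere -/
theorem eqvAt_one_iff (φ : HF F × D U → ℂ) (v : ι) (J : Subgroup (L.G v)) :
    EqvAt v J (fun _ => 1) φ ↔ ∀ (p : HF F) (d : D U) (g : L.G v), ∀ j ∈ J,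
      d v = (g : L.G v ⧸ U.U v) →
        φ (p, setv d v ((g * j : L.G v) : L.G v ⧸ U.U v)) = φ (p, d) := by
  simp only [EqvAt, one_mul]

/-- the trivial character -/
theorem charOn_one {G : Type*} [Group G] {K J : Subgroup G} (h : K ≤ J)
    (hf : K.relIndex J ≠ 0) : CharOn K J (fun _ => 1) :=
  ⟨h, hf, fun _ _ _ _ => by rw [one_mul], fun _ _ => rfl⟩

end Fermat.Agent.LT.Brg
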