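import Fermat.Agent.LT.Brg.Pt1
import Fermat.Agent.LT.H3.Ext

set_option autoImplicit false
set_option linter.unusedSectionVars false

/-! # Vectors of bounded forms; product kernels on joint eigenfunctions; twists -/

namespace Fermat.Agent.LT.Brg

open MeasureTheory ProbabilityTheory NumberField
open scoped ENNReal NNReal MatrixGroups ContDiff
open FA Sp Op
open Fou (IsInv)

section Fubini

theorem integral_fin_prod (n : ℕ) : ∀ (κ : Fin n → IKer) (s : Fin n → ℂ)
    (f : (Fin n → H3) → ℂ), Continuous f →
    (∀ (j : Fin n) (p : Fin n → H3),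
      ∫ q : H3, ((κ j).k (p j) q : ℂ) * f (Function.update p j q) = s j * f p) →
    ∀ p : Fin n → H3, ∫ r : Fin n → H3, (∏ j, ((κ j).k (p j) (r j) : ℂ)) * f r =
      (∏ j, s j) * f p := by
  induction n with
  | zero =>
    intro κ s f _ _ p
    simp only [Finset.univ_eq_empty, Finset.prod_empty, one_mul]
    rw [volume_pi, Measure.pi_of_empty, integral_dirac]
    congr 1
    exact Subsingleton.elim _ _
  | succ n ih =>
    intro κ s f hf h p
    have e := (volume_preserving_piFinSuccAbove (fun _ : Fin (n + 1) => H3) 0).symm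
    rw [← e.integral_comp']
    have e1 : ∀ z : H3 × (Fin n → H3),
        (MeasurableEquiv.piFinSuccAbove (fun _ : Fin (n + 1) => H3) 0).symm z =
          (Fin.cons z.1 z.2 : Fin (n + 1) → H3) := fun z => by
      have h0 : (MeasurableEquiv.piFinSuccAbove (fun _ : Fin (n + 1) => H3) 0).symm z =
          Fin.insertNth 0 z.1 z.2 := rfl
      rw [h0, Fin.insertNth_zero']
    have hcons : Continuous fun z : H3 × (Fin n → H3) => (Fin.cons z.1 z.2 : Fin (n + 1) → H3) := by
      refine continuous_pi fun j => ?_
      refine Fin.cases ?_ (fun j => ?_) j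
      · simpa using continuous_fst
      · have : Continuous fun z : H3 × (Fin n → H3) => z.2 j :=
          (continuous_apply j).comp continuous_snd
        simpa using this
    simp only [e1]
    have e2 : ∀ z : H3 × (Fin n → H3),
        (∏ j, ((κ j).k (p j) ((Fin.cons z.1 z.2 : Fin (n + 1) → H3) j) : ℂ)) *
          f (Fin.cons z.1 z.2) =
        ((κ 0).k (p 0) z.1 : ℂ) * ((∏ j : Fin n, ((κ j.succ).k (p j.succ) (z.2 j) : ℂ)) *
          f (Fin.cons z.1 z.2)) := fun z => by
      rw [Fin.prod_univ_succ, Fin.cons_zero, mul_assoc]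
      simp only [Fin.cons_succ]
    simp only [e2]
    have hint : Integrable (fun z : H3 × (Fin n → H3) => ((κ 0).k (p 0) z.1 : ℂ) *
        ((∏ j : Fin n, ((κ j.succ).k (p j.succ) (z.2 j) : ℂ)) * f (Fin.cons z.1 z.2)))
        ((volume : Measure H3).prod (volume : Measure (Fin n → H3))) := by
      have hc : Continuous (fun z : H3 × (Fin n → H3) => ((κ 0).k (p 0) z.1 : ℂ) *
          ((∏ j : Fin n, ((κ j.succ).k (p j.succ) (z.2 j) : ℂ)) * f (Fin.cons z.1 z.2))) := by
        refine (Complex.continuous_ofReal.comp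
          (((κ 0).continuous_right (p 0)).comp continuous_fst)).mul (Continuous.mul ?_
          (hf.comp hcons))
        refine continuous_finsetProd _ fun j _ => ?_
        exact Complex.continuous_ofReal.comp (((κ j.succ).continuous_right (p j.succ)).comp
          ((continuous_apply j).comp continuous_snd))
      refine hc.integrable_of_hasCompactSupport ?_
      refine HasCompactSupport.intro (K := (tsupport fun q => (κ 0).k (p 0) q) ×ˢ
        (Set.univ.pi fun j : Fin n => tsupport fun q => (κ j.succ).k (p j.succ) q))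
        (IsCompact.prod ((κ 0).hasCompactSupport_right _)
          (isCompact_univ_pi fun j => (κ j.succ).hasCompactSupport_right _)) ?_
      intro z hz
      rw [Set.mem_prod, not_and_or] at hz
      rcases hz with hz | hz
      · rw [image_eq_zero_of_notMem_tsupport hz, Complex.ofReal_zero, zero_mul]
      · rw [Set.mem_univ_pi, not_forall] at hz
        obtain ⟨j, hj⟩ := hz
        rw [Finset.prod_eq_zero (Finset.mem_univ j), zero_mul, mul_zero]
        rw [image_eq_zero_of_notMem_tsupport hj, Complex.ofReal_zero]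
    rw [Measure.volume_eq_prod, integral_prod _ hint]
    have e3 : ∀ q : H3, ∫ r : Fin n → H3, ((κ 0).k (p 0) q : ℂ) *
        ((∏ j : Fin n, ((κ j.succ).k (p j.succ) (r j) : ℂ)) * f (Fin.cons q r)) =
        (∏ j : Fin n, s j.succ) * (((κ 0).k (p 0) q : ℂ) * f (Function.update p 0 q)) := by
      intro q
      rw [integral_const_mul]
      have h1 := ih (fun j => κ j.succ) (fun j => s j.succ) (fun r => f (Fin.cons q r))
        (hf.comp (hcons.comp (Continuous.prodMk continuous_const continuous_id)))
        (fun j p' => by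
          have h2 := h j.succ (Fin.cons q p')
          simp only [Fin.cons_succ] at h2
          rw [← h2]
          refine integral_congr_ae (Filter.Eventually.of_forall fun q' => ?_)
          simp only [Fin.cons_update])
        (fun j => p j.succ)
      rw [h1]
      have h3 : (Fin.cons q (fun j : Fin n => p j.succ) : Fin (n + 1) → H3) =
          Function.update p 0 q := by
        funext j
        refine Fin.cases ?_ (fun j => ?_) j
        · simp
        · rw [Fin.cons_succ, Function.update_of_ne (Fin.succ_ne_zero j)]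
      rw [h3]
      ring
    simp only [e3]
    rw [integral_const_mul, h 0 p, Fin.prod_univ_succ]
    ring

theorem integral_pi_prod {ι : Type*} [Fintype ι] [DecidableEq ι] (κ : ι → IKer) (s : ι → ℂ)
    (f : (ι → H3) → ℂ) (hf : Continuous f)
    (h : ∀ (j : ι) (p : ι → H3),
      ∫ q : H3, ((κ j).k (p j) q : ℂ) * f (Function.update p j q) = s j * f p) (p : ι → H3) :
    ∫ r : ι → H3, (∏ j, ((κ j).k (p j) (r j) : ℂ)) * f r = (∏ j, s j) * f p := by
  set e := Fintype.equivFin ι with he
  have m := volume_measurePreserving_piCongrLeft (fun _ : ι => H3) e.symm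
  rw [← m.integral_comp']
  have e1 : ∀ r : Fin (Fintype.card ι) → H3,
      (MeasurableEquiv.piCongrLeft (fun _ : ι => H3) e.symm) r = fun i => r (e i) := by
    intro r
    funext i
    have h1 := MeasurableEquiv.piCongrLeft_apply_apply (β := fun _ : ι => H3) e.symm r (e i)
    rwa [Equiv.symm_apply_apply] at h1
  simp only [e1]
  have h2 := integral_fin_prod (Fintype.card ι) (fun j => κ (e.symm j)) (fun j => s (e.symm j))
    (fun r => f fun i => r (e i))
    (hf.comp (continuous_pi fun i => continuous_apply (e i))) (fun j p' => by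
      have h3 := h (e.symm j) fun i => p' (e i)
      simp only [Equiv.apply_symm_apply] at h3
      rw [← h3]
      refine integral_congr_ae (Filter.Eventually.of_forall fun q => ?_)
      simp only
      congr 2
      funext i
      by_cases hi : i = e.symm j
      · subst hi
        simp
      · rw [Function.update_of_ne hi, Function.update_of_ne]
        intro h4
        apply hi
        rw [← h4, Equiv.symm_apply_apply]) (fun j => p (e.symm j))
  have h5 : (∏ j, s j) = ∏ j, s (e.symm j) := (Equiv.prod_comp e.symm s).symm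
  have h6 : ∀ r : Fin (Fintype.card ι) → H3, (∏ j, ((κ j).k (p j) (r (e j)) : ℂ)) =
      ∏ j, ((κ (e.symm j)).k (p (e.symm j)) (r j) : ℂ) := by
    intro r
    rw [← Equiv.prod_comp e.symm]
    simp only [Equiv.apply_symm_apply]
  simp only [Equiv.symm_apply_apply] at h2
  rw [h5, ← h2]
  simp only [h6]

end Fubini


variable {F : Type*} [Field F] [NumberField F] [IsTotallyComplex F]
  {D : Type*} [MulAction (GL (Fin 2) F) D] [FinPart F D]
  [MeasurableSpace D] [DiscreteMeasurableSpace D] [Countable D]
  {w : HF F × D → ℝ≥0} (hw : IsWt PGL(2, F) (muY F D) w)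
  {f : HA PGL(2, F) (muY F D)} {φ : HF F × D → ℂ}

section Bdd

theorem isBF_of_isInv (h : IsInv φ) (hb : ∃ C : ℝ, ∀ x, ‖φ x‖ ≤ C) : IsBF PGL(2, F) φ where
  meas := measurable_of_isInv h
  inv γ y := by
    induction γ using Matrix.ProjGenLinGroup.induction_on with
    | mk g => exact h.inv g y.1 y.2
  bdd := hb

variable [IsFiniteMeasure (wtM (muY F D) w)]

/-- **The vector of a bounded form.** -/
theorem isRep_bmk (h : IsInv φ) (hb : ∃ C : ℝ, ∀ x, ‖φ x‖ ≤ C) :
    IsRep (bmk hw (isBF_of_isInv h hb)) φ where
  inv := h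
  ae := afn_bmk hw _

include hw in
theorem exists_isRep (h : IsInv φ) (hb : ∃ C : ℝ, ∀ x, ‖φ x‖ ≤ C) :
    ∃ f : HA PGL(2, F) (muY F D), IsRep f φ := ⟨_, isRep_bmk hw h hb⟩

/-- **Automorphic forms are eigenvectors of the archimedean operators.** -/
theorem IsRep.opA_of_autForm (hf : IsRep f φ) (hφ : Fou.AutForm φ) (j : InfinitePlace F)
    {k : ℝ → ℝ} (hk : Continuous k) (hs : HasCompactSupport k) :
    opA hw j (H3.kerOf hk hs) f = (H3.khat k : ℂ) • f := by
  rw [hf.R_iff hw]
  intro p d
  have h1 : Continuous fun q : H3 => φ (Fou.upd p j q, d) :=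
    (hφ.cont d).comp ((Fou.continuous_upd j).comp
      (Continuous.prodMk continuous_const continuous_id))
  have h2 := H3.eigen_ext_at h1 (p := p j) (a := φ (p, d))
    (fun k hk hks => hφ.eig j k hk hks p d) hk hs
  exact h2

/-- the converse -/
theorem IsRep.eig_of_opA (hf : IsRep f φ)
    (h : ∀ (j : InfinitePlace F) (k : ℝ → ℝ) (hk : ContDiff ℝ ∞ k) (hs : HasCompactSupport k),
      opA hw j (H3.kerOf hk.continuous hs) f = (H3.khat k : ℂ) • f)
    (j : InfinitePlace F) (k : ℝ → ℝ) (hk : ContDiff ℝ ∞ k) (hs : HasCompactSupport k)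
    (p : HF F) (d : D) : ∫ q : H3, k (H3.cd (p j) q) • φ (Fou.upd p j q, d) =
      (H3.khat k : ℂ) * φ (p, d) :=
  (hf.R_iff hw j _ _).mp (h j k hk hs) p d

end Bdd

section Prod

/-- **Product kernels on joint eigenfunctions.** -/
theorem integral_archK (h : IsInv φ) {κs : InfinitePlace F → IKer} {s : InfinitePlace F → ℂ}
    (hs : ∀ (j : InfinitePlace F) (p : HF F) (d : D),
      ∫ q : H3, ((κs j).k (p j) q : ℂ) * φ (Fou.upd p j q, d) = s j * φ (p, d))
    (p : HF F) (d : D) :
    ∫ r : HF F, (archK κs p r : ℂ) * φ (r, d) = (∏ j, s j) * φ (p, d) := by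
  classical
  have h1 := integral_pi_prod κs s (fun r => φ ((r : HF F), d)) (h.cont d) (fun j p' => by
    have h2 := hs j (p' : HF F) d
    rw [← h2]
    refine integral_congr_ae (Filter.Eventually.of_forall fun q => ?_)
    exact congrArg (fun r : HF F => ((κs j).k (p' j) q : ℂ) * φ (r, d))
      (upd_eq (p' : HF F) j q).symm) (p : InfinitePlace F → H3)
  have h3 : ∀ r : HF F, (archK κs p r : ℂ) = ∏ j, ((κs j).k (p j) (r j) : ℂ) := by
    intro r
    rw [archK, Complex.ofReal_prod]
  simp only [h3]
  exact h1

theorem integrable_archK_mul (h : IsInv φ) (κs : InfinitePlace F → IKer) (p : HF F) (d : D) :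
    Integrable fun r : HF F => (archK κs p r : ℂ) * φ (r, d) := by
  have hc : Continuous fun r : HF F => (archK κs p r : ℂ) * φ (r, d) := by
    refine Continuous.mul (Complex.continuous_ofReal.comp ?_) (h.cont d)
    exact continuous_finsetProd _ fun j _ =>
      ((κs j).continuous_right (p j)).comp (continuous_apply j)
  refine hc.integrable_of_hasCompactSupport ?_
  refine HasCompactSupport.intro
    (K := (Set.univ.pi fun j : InfinitePlace F => tsupport fun q => (κs j).k (p j) q))
    (isCompact_univ_pi fun j => (κs j).hasCompactSupport_right _) ?_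
  intro z hz
  have hz' : ¬ ∀ j, z j ∈ tsupport fun q => (κs j).k (p j) q := fun hcon =>
    hz (Set.mem_univ_pi.mpr hcon)
  rw [not_forall] at hz'
  obtain ⟨j, hj⟩ := hz'
  have h0 : (κs j).k (p j) (z j) = 0 :=
    image_eq_zero_of_notMem_tsupport (f := fun q => (κs j).k (p j) q) hj
  rw [archK, Finset.prod_eq_zero (Finset.mem_univ j) h0, Complex.ofReal_zero, zero_mul]

theorem integral_pk (h : IsInv φ) (κs : InfinitePlace F → IKer) (κf : DKer F D)
    (p : HF F) (d : D) : ∫ y, pk κs κf (p, d) y * φ y ∂(muY F D) =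
      ∑ d' ∈ (κf.finite d).toFinset, κf.κ d d' *
        ∫ r : HF F, (archK κs p r : ℂ) * φ (r, d') := by
  classical
  have e1 : ∀ y : HF F × D, pk κs κf (p, d) y * φ y = ∑ d' ∈ (κf.finite d).toFinset,
      κf.κ d d' * (((archK κs p y.1 : ℂ) * φ (y.1, d')) * (if y.2 = d' then (1 : ℂ) else 0)) := by
    intro y
    obtain ⟨r, d₁⟩ := y
    rw [pk_apply]
    by_cases h1 : κf.κ d d₁ = 0
    · show _ * κf.κ d d₁ * _ = _
      rw [h1, mul_zero, zero_mul]
      symm
      refine Finset.sum_eq_zero fun d' hd' => ?_
      rw [Set.Finite.mem_toFinset] at hd'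
      have : d₁ ≠ d' := fun hcon => hd' (by rw [← hcon]; exact h1)
      rw [if_neg this, mul_zero, mul_zero]
    · rw [Finset.sum_eq_single d₁]
      · rw [if_pos rfl]
        show (archK κs p r : ℂ) * κf.κ d d₁ * φ (r, d₁) = _
        ring
      · intro d' _ hne
        rw [if_neg (Ne.symm hne), mul_zero, mul_zero]
      · intro hcon
        exact absurd ((Set.Finite.mem_toFinset _).mpr h1) hcon
  simp_rw [e1]
  have hI : ∀ d' : D, Integrable (fun e : D => if e = d' then (1 : ℂ) else 0)
      (Measure.count : Measure D) := by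
    intro d'
    rw [integrable_count_iff]
    refine summable_of_ne_finset_zero (s := {d'}) fun e he => ?_
    rw [if_neg (by simpa using he), norm_zero]
  have hc : ∀ d' : D, ∫ e : D, (if e = d' then (1 : ℂ) else 0) ∂(Measure.count : Measure D) = 1 := by
    intro d'
    rw [integral_countable ((hI d')), tsum_eq_single d']
    · rw [if_pos rfl, measureReal_def, Measure.count_singleton]
      simp
    · intro e he
      rw [if_neg he, smul_zero]
  rw [muY, integral_finsetSum]
  · refine Finset.sum_congr rfl fun d' _ => ?_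
    rw [integral_const_mul, integral_prod_mul (fun r : HF F => (archK κs p r : ℂ) * φ (r, d'))
      (fun e : D => if e = d' then (1 : ℂ) else 0), hc, mul_one]
  · intro d' _
    exact (Integrable.mul_prod (integrable_archK_mul h κs p d') (hI d')).const_mul _

variable [IsFiniteMeasure (wtM (muY F D) w)]

/-- **The operator of a product kernel on a joint eigenvector of the archimedean operators.** -/
theorem IsRep.opK_eq (hf : IsRep f φ) {κs : InfinitePlace F → IKer} {s : InfinitePlace F → ℂ}
    (hs : ∀ j, opA hw j (κs j) f = s j • f) (κf : DKer F D) :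
    opK hw κs κf f = (∏ j, s j) • opD hw κf f := by
  have hs' := fun j => (hf.R_iff hw j (κs j) (s j)).mp (hs j)
  refine HA.ext_ae hw ?_
  filter_upwards [(isFK_pk κs κf).cor.op_ae hw f, (isFK_pk κs κf).cor.app_congr hf.ae,
    HA.afn_smulc hw (∏ j, s j) (opD hw κf f), (hf.T hw κf).ae] with y h1 h2 h3 h4
  rw [h3, h4]
  have h5 : afn (opK hw κs κf f) y = (isFK_pk κs κf).cor.app (afn f) y := h1
  rw [h5, h2, (isFK_pk κs κf).app_eq]
  obtain ⟨p, d⟩ := y
  rw [integral_pk hf.inv, actD_sum, Finset.mul_sum]
  refine Finset.sum_congr rfl fun d' _ => ?_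
  rw [integral_archK hf.inv hs']
  ring

/-- joint eigenvectors -/
theorem IsRep.opK_eigen (hf : IsRep f φ) {κs : InfinitePlace F → IKer} {s : InfinitePlace F → ℂ}
    (hs : ∀ j, opA hw j (κs j) f = s j • f) {κf : DKer F D} {c : ℂ}
    (hc : opD hw κf f = c • f) : opK hw κs κf f = ((∏ j, s j) * c) • f := by
  rw [hf.opK_eq hw hs, hc, smul_smul]

/-- **product kernels on automorphic forms** -/
theorem IsRep.opK_autForm (hf : IsRep f φ) (hφ : Fou.AutForm φ)
    {k : InfinitePlace F → ℝ → ℝ} (hk : ∀ j, Continuous (k j))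
    (hs : ∀ j, HasCompactSupport (k j)) {κf : DKer F D} {c : ℂ} (hc : opD hw κf f = c • f) :
    opK hw (fun j => H3.kerOf (hk j) (hs j)) κf f = ((∏ j, (H3.khat (k j) : ℂ)) * c) • f :=
  hf.opK_eigen hw (fun j => hf.opA_of_autForm hw hφ j (hk j) (hs j)) hc

end Prod

section Twist

theorem IsRep.tw (T : TwD PGL(2, F) (muY F D)) (hf : IsRep f φ)
    (hc : ∀ d, Continuous fun p => φ (T.θ.symm (p, d))) :
    IsRep (T.op hw f) fun y => φ (T.θ.symm y) where
  inv :=
    { cont := hc
      inv := fun g p d => by
        have h1 : ((g • p, g • d) : HF F × D) =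
            (Matrix.ProjGenLinGroup.mk g : PGL(2, F)) • ((p, d) : HF F × D) := rfl
        rw [h1, T.smul_symm]
        generalize T.e.symm (Matrix.ProjGenLinGroup.mk g) = γ
        generalize T.θ.symm (p, d) = y
        induction γ using Matrix.ProjGenLinGroup.induction_on with
        | mk g => exact hf.inv.inv g y.1 y.2 }
  ae := by
    have h1 : ∀ᵐ y ∂(muY F D), afn f (T.θ.symm y) = φ (T.θ.symm y) :=
      (T.mp.symm T.θ).quasiMeasurePreserving.ae (p := fun y => afn f y = φ y) hf.ae
    filter_upwards [T.op_ae hw f, h1] with y h2 h3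
    rw [h2, h3]

/-- **Twist invariant vectors and forms.** -/
theorem IsRep.tw_iff (T : TwD PGL(2, F) (muY F D)) (hf : IsRep f φ)
    (hc : ∀ d, Continuous fun p => φ (T.θ.symm (p, d))) (c : ℂ) :
    T.op hw f = c • f ↔ ∀ y, φ y = c * φ (T.θ y) := by
  rw [IsRep.eq_iff hw (hf.tw hw T hc) (hf.cmul hw c)]
  constructor
  · intro e y
    have := congrFun e (T.θ y)
    simpa using this
  · intro e
    funext y
    have := e (T.θ.symm y)
    simpa using this

end Twist

end Fermat.Agent.LT.Brg
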