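import Fermat.Agent.LT.Brg.TG
import Fermat.Agent.LT.Brg.Lvl
import Fermat.Agent.LT.Brg.Pt5

set_option autoImplicit false
set_option linter.unusedSectionVars false

/-! # Uniqueness on the `E`-side -/

namespace Fermat.Agent.LT.Brg

open MeasureTheory ProbabilityTheory NumberField Matrix Filter IsDedekindDomain
open scoped ENNReal NNReal MatrixGroups InnerProductSpace
open FA Sp Op Glob Loc LocFam
open Fou (IsInv HData HeckeAt EqvAt AutForm TypeData setv setv_same setv_ne setv_self setv_setv pN pA)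

variable {k : Type} [Field k] [NumberField k] {E : Type} [Field E] [NumberField E]
  [IsTotallyComplex E] [Algebra k E] {U : (locE k E).Level}

variable {B : Finset (HeightOneSpectrum (𝓞 k))} {a0 : Eˣ}
  {J : ∀ v, Subgroup ((locE k E).G v)} {ψ : ∀ v, (locE k E).G v → ℂ}
  {v0 : HeightOneSpectrum (𝓞 k)} {σ : E ≃ₐ[k] E} {s : HeightOneSpectrum (𝓞 k) → ℂ}

/-- **the conditions on a form on the `E`-side**, at the level `U` -/
structure FormE (B : Finset (HeightOneSpectrum (𝓞 k))) (J : ∀ v, Subgroup ((locE k E).G v))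
    (ψ : ∀ v, (locE k E).G v → ℂ) (v0 : HeightOneSpectrum (𝓞 k)) (σ : E ≃ₐ[k] E)
    (s : HeightOneSpectrum (𝓞 k) → ℂ) (φ : HF E × D U → ℂ) : Prop where
  aut : AutForm φ
  eqv : ∀ v ∈ B, EqvAt v (J v) (ψ v) φ
  sph : EqvAt v0 (PO ((locE k E).O v0)) (fun _ => 1) φ
  hk0 : ∀ w : Fib E v0, HeckeAt (HE w) (s v0) φ
  hks : ∀ v ∉ B, v ≠ v0 → (∃ e : RE E v, IsSplitIdem σ e) → ∀ w : Fib E v, HeckeAt (HE w) (s v) φ

/-- **Uniqueness**: a form with these conditions, which is an eigenform at all good places, is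
invariant under `σ`. -/
theorem FormE.act_eq {φ : HF E × D U → ℂ} (h : FormE B J ψ v0 σ s φ)
    (hT : TypeData (locE k E) B a0 J ψ (fun v => Fib E v) (fun _ w => HE w) (sphL U v0))
    (hσ : LT.Loc.Gal3 σ) (hP : (autoE σ).Pres U) (ha0 : σ (a0 : E) = a0)
    (hJ : ∀ v ∈ B, ∀ j ∈ J v, (autoE σ).g v j ∈ J v)
    (hψ : ∀ v ∈ B, ∀ j ∈ J v, ψ v ((autoE σ).g v j) = ψ v j)
    (lam : ∀ v : HeightOneSpectrum (𝓞 k), Fib E v → ℂ)
    (hl : ∀ v ∉ B, v ≠ v0 → ∀ w : Fib E v, HeckeAt (HE w) (lam v w) φ) :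
    (fun y => φ ((Auto.twist (Fou.isCubic_autoE hσ) hP).act y)) = φ := by
  classical
  refine act_eq_iw (lam := fun v w => if v = v0 ∨ ∃ e : RE E v, IsSplitIdem σ e then s v
    else lam v w) hT hσ hP ha0 hJ hψ (fun v hv w => ?_) h.aut h.eqv h.sph (fun v hv w => ?_)
  · split_ifs with hs
    · rfl
    · have := subsingleton_fib hσ (v := v) fun h => hs (Or.inr h)
      rw [Subsingleton.elim (actF σ w) w]
  · split_ifs with hs
    · rcases hs with rfl | hs
      · exact h.hk0 w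
      · by_cases hv0 : v = v0
        · subst hv0; exact h.hk0 w
        · exact h.hks v hv hv0 hs w
    · have hv0 : v ≠ v0 := fun h => hs (Or.inl h)
      exact hl v hv hv0 w

variable [MeasurableSpace (D U)] [DiscreteMeasurableSpace (D U)] [Countable (D U)]
  {w : HF E × D U → ℝ≥0} (hw : IsWt PGL(2, E) (muY E (D U)) w)
  [IsFiniteMeasure (wtM (muY E (D U)) w)]

/-- the operator of the twist -/
noncomputable def sigE (hσ : LT.Loc.Gal3 σ) (hP : (autoE σ).Pres U) :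
    HA PGL(2, E) (muY E (D U)) →L[ℂ] HA PGL(2, E) (muY E (D U)) :=
  opT hw (Auto.twist (Fou.isCubic_autoE hσ) hP)

theorem sigE_eq_iff (hσ : LT.Loc.Gal3 σ) (hP : (autoE σ).Pres U)
    {f : HA PGL(2, E) (muY E (D U))} {φ : HF E × D U → ℂ} (hf : IsRep f φ) :
    sigE hw hσ hP f = f ↔
      (fun y => φ ((Auto.twist (Fou.isCubic_autoE hσ) hP).act y)) = φ := by
  have h1 := hf.tw_iff hw (twD (Auto.twist (Fou.isCubic_autoE hσ) hP)) (fun d =>
    (hf.inv.act (Auto.twist (Fou.isCubic_autoE hσ) hP).symm).cont d) 1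
  rw [one_smul] at h1
  refine h1.trans ?_
  simp only [one_mul]
  exact ⟨fun h => funext fun y => (h y).symm, fun h y => (congrFun h y).symm⟩

/-- the index set of the good places -/
abbrev GIdx (E : Type) [Field E] [NumberField E] [Algebra k E]
    (B : Finset (HeightOneSpectrum (𝓞 k))) (v0 : HeightOneSpectrum (𝓞 k)) : Type :=
  Σ v : {v : HeightOneSpectrum (𝓞 k) // v ∉ B ∧ v ≠ v0}, Fib E v.1

/-- the Hecke operator of the place `w | v` -/
noncomputable def TE {v : HeightOneSpectrum (𝓞 k)} (hU : U.U v = PO ((locE k E).O v))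
    (w : Fib E v) : HA PGL(2, E) (muY E (D U)) →L[ℂ] HA PGL(2, E) (muY E (D U)) :=
  opG hw (GFun.single v (TTh (L := locE k E) (unif_OE w) hU))

theorem TE_eq {v : HeightOneSpectrum (𝓞 k)} (hU : U.U v = PO ((locE k E).O v))
    (w : Fib E v) : TE hw hU w = opD hw (Tker (L := locE k E) (unif_OE w) hU) := by
  rw [TE, opG, Tker_eq]

theorem TE_iff {v : HeightOneSpectrum (𝓞 k)} (hU : U.U v = PO ((locE k E).O v))
    (w : Fib E v) {f : HA PGL(2, E) (muY E (D U))} {φ : HF E × D U → ℂ} (hf : IsRep f φ)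
    (c : ℂ) : TE hw hU w f = c • f ↔ HeckeAt (HE w) c φ :=
  hf.hecke_iff' hw (HE w) (unif_OE w) hU c

theorem isCommSymm_TE (hU : ∀ v ∉ B, v ≠ v0 → U.U v = PO ((locE k E).O v)) :
    IsCommSymm fun i : GIdx E B v0 => TE hw (hU i.1.1 i.1.2.1 i.1.2.2) i.2 :=
  isCommSymm_opG hw (fun i : GIdx E B v0 => i.1.1)
    (fun i => TTh (L := locE k E) (unif_OE i.2) (hU i.1.1 i.1.2.1 i.1.2.2))
    (fun _ => TTh_adj _ _) (fun _ _ => commute_TTh _ _ _ _)

/-- **Uniqueness on the `E`-side.**  `A i x = c i x` is any system of equations for operators which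
commute with the Hecke operators at the good places, one of them compact with nonzero eigenvalue,
whose solutions are represented by forms with the conditions `FormE`: then all solutions are
invariant under `σ`. -/
theorem huniq_abs
    (hT : TypeData (locE k E) B a0 J ψ (fun v => Fib E v) (fun _ w => HE w) (sphL U v0))
    (hσ : LT.Loc.Gal3 σ) (hP : (autoE σ).Pres U) (ha0 : σ (a0 : E) = a0)
    (hJ : ∀ v ∈ B, ∀ j ∈ J v, (autoE σ).g v j ∈ J v)
    (hψ : ∀ v ∈ B, ∀ j ∈ J v, ψ v ((autoE σ).g v j) = ψ v j)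
    (hU : ∀ v ∉ B, v ≠ v0 → U.U v = PO ((locE k E).O v))
    {κ : Type*} {A : κ → HA PGL(2, E) (muY E (D U)) →L[ℂ] HA PGL(2, E) (muY E (D U))}
    {c : κ → ℂ} {i₀ : κ} (hcpt : IsCompactOperator (A i₀)) (hc : c i₀ ≠ 0)
    (hcomm : ∀ v (hv : v ∉ B) (hv0 : v ≠ v0) (w : Fib E v) (i : κ),
      Commute (TE hw (hU v hv hv0) w) (A i))
    (hrep : ∀ x, (∀ i, A i x = c i • x) →
      ∃ φ, FormE B J ψ v0 σ s φ ∧ IsRep x φ)
    {x : HA PGL(2, E) (muY E (D U))} (hx : ∀ i, A i x = c i • x) : sigE hw hσ hP x = x := by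
  refine ind_joint (T := fun i : GIdx E B v0 => TE hw (hU i.1.1 i.1.2.1 i.1.2.2) i.2)
    (P := fun x => sigE hw hσ hP x = x) hcpt hc (isCommSymm_TE hw hU)
    (fun i j => hcomm i.1.1 i.1.2.1 i.1.2.2 i.2 j) (map_zero _)
    (fun x y hx hy => by rw [map_add, hx, hy]) (fun x hx t ht => ?_) hx
  obtain ⟨φ, hφ, hr⟩ := hrep x hx
  rw [sigE_eq_iff hw hσ hP hr]
  classical
  refine hφ.act_eq hT hσ hP ha0 hJ hψ
    (fun v w => if hv : v ∉ B ∧ v ≠ v0 then (t ⟨⟨v, hv⟩, w⟩ : ℂ) else 0) (fun v hv hv0 w => ?_)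
  rw [dif_pos ⟨hv, hv0⟩]
  exact (TE_iff hw (hU v hv hv0) w hr _).mp (ht ⟨⟨v, hv, hv0⟩, w⟩)

end Fermat.Agent.LT.Brg
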