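import Fermat.Agent.LT.Brg.Uniq
import Fermat.Agent.LT.Brg.ExitK
import Fermat.Agent.LT.V0.Sph

set_option autoImplicit false
set_option linter.unusedSectionVars false

/-! # The auxiliary split place on the `E`-side -/

namespace Fermat.Agent.LT.Brg

open MeasureTheory ProbabilityTheory NumberField Matrix Filter IsDedekindDomain
open scoped ENNReal NNReal MatrixGroups InnerProductSpace
open FA Sp Op Glob Loc LocFam
open Fou (IsInv HData HeckeAt EqvAt AutForm TypeData setv setv_same setv_ne setv_self setv_setv pN pA)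

section General

universe w u i

variable {F : Type u} [Field F] {ι : Type i} {L : LocFam.{w} F ι} {U : L.Level} {v0 : ι}

/-- the Hecke equation for forms which are spherical at `v0` does not depend on the choices -/
theorem heckeAt_change_iff {φ : HF F × D U → ℂ}
    (hE : EqvAt v0 (PO (L.O v0)) (fun _ => 1) φ) {H H' : HData L v0}
    (hH : Unif (L.O v0) H.ϖ H.S) (hH' : Unif (L.O v0) H'.ϖ H'.S)
    (hu : H.ϖ * H'.ϖ⁻¹ ∈ OU (L.O v0)) (c : ℂ) : HeckeAt H c φ ↔ HeckeAt H' c φ := by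
  obtain ⟨φ₀, rfl⟩ := exists_pull_sph hE
  rw [heckeAt_pull_iff, heckeAt_pull_iff]
  constructor
  · intro h
    refine h.change (sphL_same U v0) hH hH' (u := (H.ϖ * H'.ϖ⁻¹)⁻¹) (inv_mem hu) ?_
    rw [_root_.mul_inv_rev, inv_inv, mul_comm H.ϖ, inv_mul_cancel_right]
  · intro h
    refine h.change (sphL_same U v0) hH' hH (u := H.ϖ * H'.ϖ⁻¹) hu ?_
    rw [mul_comm H'.ϖ, inv_mul_cancel_right]

end General

variable {k : Type} [Field k] [NumberField k] {E : Type} [Field E] [NumberField E]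
  [IsTotallyComplex E] [Algebra k E] {U : (locE k E).Level}
  {v0 : HeightOneSpectrum (𝓞 k)} {σ : E ≃ₐ[k] E}

section Sph

variable {e : RE E v0} (he : IsSplitIdem σ e) (hσ : LT.Loc.Gal3 σ)
  {π : RE E v0 →+* v0.adicCompletion k}
  (hπ : π = (he.pr hσ : RE E v0 →+* v0.adicCompletion k))
  (S : SplitRing (sEquiv v0 σ) (strE E v0) π)
  {ϖ : (v0.adicCompletion k)ˣ} {B : Finset (v0.adicCompletion k)}

include hπ in
theorem un3_mem' (j : Fin 3) (hϖ : Unif (Oc v0) ϖ B) :
    S.un3 j ϖ * (unifE (he.plc hσ j))⁻¹ ∈ OU (OE E v0) := by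
  subst hπ
  exact he.un3_mem hσ j (valued_of_unif hϖ)

include hπ in
theorem isProdO' : IsProdO (sEquiv v0 σ) π (OE E v0) (Oc v0) := by
  subst hπ
  exact he.isProdO hσ

/-- the Hecke data of `un3 j ϖ` -/
noncomputable def Hu (hO : IsProdO (sEquiv v0 σ) π (OE E v0) (Oc v0)) (hϖ : Unif (Oc v0) ϖ B)
    (j : Fin 3) : HData (locE k E) v0 where
  ϖ := S.un3 j ϖ
  mem := (S.unif_un3 hO hϖ j).mem
  S := S.B3 j B
  S_mem := fun s hs => (S.unif_un3 hO hϖ j).sub s hs

variable [MeasurableSpace (D U)] [DiscreteMeasurableSpace (D U)] [Countable (D U)]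
  {w : HF E × D U → ℝ≥0} (hw : IsWt PGL(2, E) (muY E (D U)) w)
  [IsFiniteMeasure (wtM (muY E (D U)) w)] {f : HA PGL(2, E) (muY E (D U))}
  {φ : HF E × D U → ℂ}
  {K' : Subgroup PGL(2, v0.adicCompletion k)}
  (hP : IsProd3 (ProjGenLinGroup.map (n := Fin 2) (sEquiv v0 σ : RE E v0 →+* RE E v0))
    (ProjGenLinGroup.map (n := Fin 2) π) (U.U v0) K')
  (hI : V0.IsIw (Oc v0) ϖ B K')

include hπ in
/-- **vectors fixed by the three projectors** -/
theorem kE_iff (hf : IsRep f φ) :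
    (∀ j, opD hw (GFun.single v0 (V0.jH S.pgl_split3 hP j (V0.kE hI)).hk).toDKer f = f) ↔
      EqvAt v0 (PO ((locE k E).O v0)) (fun _ => 1) φ :=
  V0.isRep_kE_iff (L := locE k E) S (isProdO' he hσ hπ) hP hI hw hf

include hπ in
/-- **eigenvectors of the three central elements** -/
theorem kZ_iff (hf : IsRep f φ) (hE : EqvAt v0 (PO ((locE k E).O v0)) (fun _ => 1) φ)
    (j : Fin 3) (c : ℂ) :
    opD hw (GFun.single v0 (V0.jH S.pgl_split3 hP j (V0.kZ hI)).hk).toDKer f = c • f ↔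
      HeckeAt (HE (he.plc hσ j)) c φ := by
  have hO := isProdO' he hσ hπ
  have h1 := V0.isRep_kZ_iff (L := locE k E) S hO hP hI hw hf hE j (Hu S hO hI.unif j) rfl rfl c
  have h2 : HeckeAt (Hu S hO hI.unif j) c φ ↔ HeckeAt (HE (he.plc hσ j)) c φ :=
    heckeAt_change_iff (H := Hu S hO hI.unif j) (H' := HE (he.plc hσ j)) hE
      (S.unif_un3 hO hI.unif j) (unif_OE _) (un3_mem' he hσ hπ S j hI.unif) c
  exact h1.trans h2

include he hσ hπ in
theorem kZ_iff_all (hf : IsRep f φ) (hE : EqvAt v0 (PO ((locE k E).O v0)) (fun _ => 1) φ)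
    (c : ℂ) :
    (∀ j, opD hw (GFun.single v0 (V0.jH S.pgl_split3 hP j (V0.kZ hI)).hk).toDKer f = c • f) ↔
      ∀ w : Fib E v0, HeckeAt (HE w) c φ := by
  constructor
  · intro h w
    obtain ⟨j, rfl⟩ := he.plc_surjective hσ w
    exact (kZ_iff he hσ hπ S hw hP hI hf hE j c).mp (h j)
  · intro h j
    exact (kZ_iff he hσ hπ S hw hP hI hf hE j c).mpr (h _)

end Sph

end Fermat.Agent.LT.Brg
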